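import Mathlib

/-!
# Program MW (S17), strand H, twin of D4 (FIB) by two charts: the Bezout step (leaf D4t.BEZ)

Over an algebraically closed field a family of polynomials in one variable without a common root
generates the unit ideal, and `1` is a combination of finitely many members
(`exists_bezout_of_no_common_root`).

`exists_bezout_family` is the form consumed by the chart lemma (`ChartCore.chart_core`): if for
every `α` there are a generator `y` and a matrix `P` (the powers of `y` in a fixed basis) related by
`rel y P` with `(det P)(α) ≠ 0` (local monogenicity), then there are finitely many `y k`, `M k` and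
polynomials `u k` with `rel (y k) (M k)` and `∑ k, u k * det (M k) = 1`.

Mathlib only.
-/

set_option autoImplicit false

namespace Fermat.Agent.S17.H.Fib2

open Polynomial

variable {K : Type*} [Field K] [IsAlgClosed K]

/-- A family of polynomials without a common root over an algebraically closed field generates
the unit ideal. -/
theorem span_range_eq_top_of_no_common_root {ι : Type*} (d : ι → K[X])
    (h : ∀ α : K, ∃ i, (d i).eval α ≠ 0) : Ideal.span (Set.range d) = ⊤ := by
  classical
  obtain ⟨g, hg⟩ : ∃ g, Ideal.span (Set.range d) = Ideal.span {g} :=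
    ⟨_, (Ideal.span_singleton_generator _).symm⟩
  have hdvd : ∀ i, g ∣ d i := by
    intro i
    have h1 : d i ∈ Ideal.span {g} := hg ▸ Ideal.subset_span (Set.mem_range_self i)
    exact Ideal.mem_span_singleton.mp h1
  have hunit : IsUnit g := by
    by_contra hu
    have hdeg : g.degree ≠ 0 := fun h0 => hu (Polynomial.isUnit_iff_degree_eq_zero.mpr h0)
    obtain ⟨α, hα⟩ := IsAlgClosed.exists_root g hdeg
    obtain ⟨i, hi⟩ := h α
    obtain ⟨c, hc⟩ := hdvd i
    apply hi
    rw [hc, Polynomial.eval_mul, hα, zero_mul]
  rw [hg]
  exact Ideal.span_singleton_eq_top.mpr hunit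

/-- **Bezout**: a family of polynomials without a common root over an algebraically closed field
has finitely many members with a combination equal to `1`. -/
theorem exists_bezout_of_no_common_root {ι : Type*} (d : ι → K[X])
    (h : ∀ α : K, ∃ i, (d i).eval α ≠ 0) :
    ∃ (m : ℕ) (idx : Fin m → ι) (u : Fin m → K[X]), ∑ k, u k * d (idx k) = 1 := by
  classical
  have h1 : (1 : K[X]) ∈ Submodule.span K[X] (Set.range d) := by
    have h2 : (1 : K[X]) ∈ Ideal.span (Set.range d) := by
      rw [span_range_eq_top_of_no_common_root d h]
      exact Submodule.mem_top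
    exact h2
  obtain ⟨c, hc⟩ := Finsupp.mem_span_range_iff_exists_finsupp.mp h1
  refine ⟨c.support.card, fun k => ((c.support.equivFin).symm k).1,
    fun k => c ((c.support.equivFin).symm k).1, ?_⟩
  rw [← hc, Finsupp.sum]
  rw [Equiv.sum_comp (c.support.equivFin).symm (fun x : c.support => c x.1 * d x.1)]
  rw [Finset.sum_coe_sort c.support (fun i => c i * d i)]
  exact Finset.sum_congr rfl fun i _ => (smul_eq_mul _ _).symm

/-- **Bezout step of GEN**: from local monogenicity (for every `α` a pair `(y, P)` in the relation
with `(det P)(α) ≠ 0`) to the finite family consumed by the chart lemma. -/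
theorem exists_bezout_family {n : ℕ} {Y : Type*}
    (rel : Y → Matrix (Fin n) (Fin n) K[X] → Prop)
    (h : ∀ α : K, ∃ (y : Y) (P : Matrix (Fin n) (Fin n) K[X]), rel y P ∧ P.det.eval α ≠ 0) :
    ∃ (m : ℕ) (y : Fin m → Y) (M : Fin m → Matrix (Fin n) (Fin n) K[X]) (u : Fin m → K[X]),
      (∀ k, rel (y k) (M k)) ∧ ∑ k, u k * (M k).det = 1 := by
  classical
  obtain ⟨m, idx, u, hu⟩ := exists_bezout_of_no_common_root
    (ι := {yP : Y × Matrix (Fin n) (Fin n) K[X] // rel yP.1 yP.2})
    (fun yP => yP.1.2.det) (fun α => by
      obtain ⟨y, P, hrel, hP⟩ := h α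
      exact ⟨⟨(y, P), hrel⟩, hP⟩)
  exact ⟨m, fun k => (idx k).1.1, fun k => (idx k).1.2, u, fun k => (idx k).2, hu⟩

end Fermat.Agent.S17.H.Fib2
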