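/-
MW strand H, block D4, two-chart twin: the chart vocabulary.

`F / K` a function field.  For `x : F` let `regWhere K x` be the ring of the functions regular
wherever `x` is regular.  A CHART is a function `x` together with a `K[x]`-basis `w` of
`regWhere K x` (`IsChart K x w`).

Chart 0 of the two-chart proof is `(x, regOff v₀, w)`, `x` with its only pole at `v₀` and `w`
the Apery basis of leaf R14 (`isChart_zero`); chart infinity is built in `ChartInf.lean`.
-/
import Mathlib
import Fermat.Prelude.Def_AlgebraicCurve_Repartitions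
import Fermat.Agent.S24.FF.Principal
import Fermat.Agent.S24.FF.Residue
import Fermat.Agent.S17.R.Eval

set_option autoImplicit false

namespace Fermat.Agent.S17.H.Fib2

open AlgebraicCurve
open Fermat.Agent.S24

variable {K F : Type*} [Field K] [Field F] [Algebra K F]

variable (K) in
/-- The functions regular wherever `x` is regular. -/
def regWhere (x : F) : Subalgebra K F where
  carrier := {f | ∀ v : Place K F, x ∈ v.toValuationSubring → f ∈ v.toValuationSubring}
  mul_mem' := fun ha hb v hv => mul_mem (ha v hv) (hb v hv)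
  one_mem' := fun _ _ => one_mem _
  add_mem' := fun ha hb v hv => add_mem (ha v hv) (hb v hv)
  zero_mem' := fun _ _ => zero_mem _
  algebraMap_mem' := fun r v _ => v.algebraMap_mem' r

theorem mem_regWhere_iff {x f : F} :
    f ∈ regWhere K x ↔
      ∀ v : Place K F, x ∈ v.toValuationSubring → f ∈ v.toValuationSubring :=
  Iff.rfl

theorem self_mem_regWhere (x : F) : x ∈ regWhere K x := fun _ hv => hv

/-- Polynomials in `x` are regular wherever `x` is regular. -/
theorem aeval_mem_regWhere (x : F) (p : Polynomial K) :
    Polynomial.aeval x p ∈ regWhere K x := by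
  have h : Polynomial.aeval x p =
      ((Polynomial.aeval (⟨x, self_mem_regWhere x⟩ : ↥(regWhere K x)) p :
        ↥(regWhere K x)) : F) :=
    Polynomial.aeval_algHom_apply (regWhere K x).val
      (⟨x, self_mem_regWhere x⟩ : ↥(regWhere K x)) p
  rw [h]
  exact SetLike.coe_mem _

variable (K) in
/-- A chart: `w` is a `K[x]`-basis of the ring of the functions regular wherever `x` is
regular. -/
structure IsChart (x : F) {n : ℕ} (w : Fin n → F) : Prop where
  mem : ∀ i, w i ∈ regWhere K x
  rep : ∀ f ∈ regWhere K x,
    ∃! c : Fin n → Polynomial K, f = ∑ i, Polynomial.aeval x (c i) * w i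

namespace IsChart

variable {x : F} {n : ℕ} {w : Fin n → F}

/-- A `K[x]`-combination of the basis is regular wherever `x` is regular. -/
theorem sum_mem (h : IsChart K x w) (c : Fin n → Polynomial K) :
    (∑ i, Polynomial.aeval x (c i) * w i) ∈ regWhere K x :=
  Subalgebra.sum_mem _ fun i _ => Subalgebra.mul_mem _ (aeval_mem_regWhere x (c i)) (h.mem i)

/-- Freeness of the basis of a chart. -/
theorem eq_zero_of_sum_eq_zero (h : IsChart K x w) (c : Fin n → Polynomial K)
    (hc : (∑ i, Polynomial.aeval x (c i) * w i) = 0) : c = 0 := by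
  obtain ⟨c0, -, huniq⟩ := h.rep 0 (Subalgebra.zero_mem _)
  have h1 : c = c0 := huniq c hc.symm
  have h2 : (0 : Fin n → Polynomial K) = c0 :=
    huniq 0 (by simp)
  rw [h1, ← h2]

/-- Two coefficient vectors with the same sum are equal. -/
theorem eq_of_sum_eq (h : IsChart K x w) (c c' : Fin n → Polynomial K)
    (hc : (∑ i, Polynomial.aeval x (c i) * w i) = ∑ i, Polynomial.aeval x (c' i) * w i) :
    c = c' := by
  have h1 : (∑ i, Polynomial.aeval x ((c - c') i) * w i) = 0 := by
    have h2 : (∑ i, Polynomial.aeval x ((c - c') i) * w i) =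
        (∑ i, Polynomial.aeval x (c i) * w i) - ∑ i, Polynomial.aeval x (c' i) * w i := by
      rw [← Finset.sum_sub_distrib]
      refine Finset.sum_congr rfl fun i _ => ?_
      rw [Pi.sub_apply, map_sub, sub_mul]
    rw [h2, hc, sub_self]
  exact sub_eq_zero.mp (h.eq_zero_of_sum_eq_zero _ h1)

/-- The members of the basis of a chart are nonzero. -/
theorem ne_zero (h : IsChart K x w) (i : Fin n) : w i ≠ 0 := by
  classical
  intro h0
  have h1 : (∑ j, Polynomial.aeval x ((Pi.single i 1 : Fin n → Polynomial K) j) * w j) = 0 := by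
    refine Finset.sum_eq_zero fun j _ => ?_
    by_cases hj : j = i
    · rw [hj, h0, mul_zero]
    · rw [Pi.single_eq_of_ne hj, map_zero, zero_mul]
  have h2 := h.eq_zero_of_sum_eq_zero _ h1
  have h3 : (Pi.single i 1 : Fin n → Polynomial K) i = 0 := by rw [h2]; rfl
  rw [Pi.single_eq_same] at h3
  exact one_ne_zero h3

end IsChart

/-- A function whose only pole is `v₀`: it is regular exactly off `v₀`. -/
theorem regWhere_eq_regOff (v₀ : Place K F) {x : F} (hx : x ∈ R.regOff v₀)
    (hord : v₀.ord x < 0) : regWhere K x = R.regOff v₀ := by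
  have hx0 : x ≠ 0 := by
    rintro rfl
    rw [Place.ord_zero] at hord
    exact lt_irrefl _ hord
  ext f
  constructor
  · intro hf v hv
    exact hf v (hx v hv)
  · intro hf v hxv
    apply hf v
    rintro rfl
    have h1 := (FF.ord_nonneg_iff v hx0).mpr hxv
    omega

/-- Chart 0: a `K[x]`-basis of `regOff v₀` (for instance the Apery basis of leaf R14,
`R.exists_apery_basis`) is a chart for `x`. -/
theorem isChart_zero (v₀ : Place K F) {x : F} (hx : x ∈ R.regOff v₀) (hord : v₀.ord x < 0)
    {n : ℕ} {w : Fin n → F} (hw : ∀ i, w i ∈ R.regOff v₀)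
    (hrep : ∀ f ∈ R.regOff v₀,
      ∃! c : Fin n → Polynomial K, f = ∑ i, Polynomial.aeval x (c i) * w i) :
    IsChart K x w := by
  have he := regWhere_eq_regOff v₀ hx hord
  refine ⟨fun i => ?_, fun f hf => hrep f ?_⟩
  · rw [he]
    exact hw i
  · rw [← he]
    exact hf

end Fermat.Agent.S17.H.Fib2
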