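/-
PROGRAM MW (S17), strand H, block D4 (FIB), racing twin "two charts", leaf CH0 (helper145).

What the chart lemma (CORE, `Fib2/ChartCore.lean`) consumes on a chart `(x, regWhere K x, w)`
(`IsChart K x w`, helper93's `Fib2/Chart.lean`), for a value function `ev` (`Glob.IsEval ev`, the
vocabulary of record of block D) and a place `P` at which `x` is regular (`α := ev P x`):

* `ev_of_repr`, `ev_pow_of_repr`, `ev_mul_of_repr` : the value at `P` of a `K[x]`-combination
  `∑ i, aeval x (c i) * w i` is `∑ i, (c i).eval α * w_i(P)` (evaluation is a ring homomorphism);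
* `exists_size_bound` : ONE pair `(c, Γ)` with `v (w_i(P)) ≤ locConst c Γ v` for every absolute
  value `v` of `K`, every value function and every place `P` (where `x` is regular) over the unit
  disc `v (x(P)) ≤ 1`.  Proof: `w_s(P)` is an eigenvalue of the structure matrix of the
  multiplication by `w_s` evaluated at `α` (eigenvector `(w_j(P))_j`, nonzero since `1` is a
  `K[x]`-combination of the `w_j`), hence a root of its characteristic polynomial, which is monic
  with coefficients polynomials in `α`; then the root bound B3 (`abv_le_locConst_of_monic_rel`);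
* `one_le_iSup_abv` : `1 ≤ sup_a v (φ_a(P))` when some `φ_a = 1`;
* `mem_and_ev_eq_of_ord_pos` : the bridge from helper29's form of a fibre
  (`0 < P.ord (x - α)`) to `x ∈ P.toValuationSubring ∧ ev P x = α`.

Chart 0 is `isChart_zero` (the Apery basis of `regOff v₀`), chart infinity is `ChartInf.lean`:
both are served by the statements of this file verbatim.  No curve hypothesis is used here.

The univariate bounds (`abv_eval_le_of_le_one`, `abv_eval_le_fam`), the shape of a monic
polynomial (`eval_monic_eq`) and the eigenvalue lemma (`eval_charpoly_eq_zero_of_vecMul`) are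
Mathlib-only.
-/
import Mathlib
import Fermat.Agent.S17.H.Cert.IntegralRel
import Fermat.Agent.S17.H.Glob.Eval
import Fermat.Agent.S17.H.Fib2.Chart

set_option autoImplicit false
set_option linter.unusedSectionVars false
set_option linter.unusedVariables false

namespace Fermat.Agent.S17.H.Fib2.Chart0

open AlgebraicCurve Matrix
open Fermat.Agent.S17.H.Cert

section Univariate

variable {K : Type*} [Field K]

/-- The multiset of the coefficients (up to the degree) of a univariate polynomial. -/
noncomputable def polyMS (q : Polynomial K) : Multiset K :=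
  (Finset.range (q.natDegree + 1)).val.map q.coeff

/-- **Value bound on the unit disc** for a univariate polynomial. -/
theorem abv_eval_le_of_le_one (v : AbsoluteValue K ℝ) (q : Polynomial K) {α : K} (hα : v α ≤ 1) :
    v (q.eval α) ≤ locConst ((q.natDegree : ℝ) + 1) (polyMS q) v := by
  have hterm : ∀ j ∈ Finset.range (q.natDegree + 1),
      v (q.coeff j * α ^ j) ≤ gamProd (polyMS q) v := by
    intro j hj
    rw [map_mul, map_pow]
    calc v (q.coeff j) * v α ^ j ≤ v (q.coeff j) * 1 :=
          mul_le_mul_of_nonneg_left (pow_le_one₀ (v.nonneg _) hα) (v.nonneg _)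
      _ = v (q.coeff j) := mul_one _
      _ ≤ gamProd (polyMS q) v := le_gamProd_of_mem (Multiset.mem_map_of_mem _ hj) v
  rw [Polynomial.eval_eq_sum_range,
    ← Fin.sum_univ_eq_sum_range (fun j => q.coeff j * α ^ j) (q.natDegree + 1)]
  have hsup : (⨆ a : Fin (q.natDegree + 1), v (q.coeff a * α ^ (a : ℕ))) ≤ gamProd (polyMS q) v :=
    ciSup_le fun a => hterm a (Finset.mem_range.mpr a.isLt)
  refine le_trans (abv_sum_le v (fun a : Fin (q.natDegree + 1) => q.coeff a * α ^ (a : ℕ))) ?_
  by_cases hv : IsNonarchimedean v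
  · rw [locConst_of_nonarch hv, locConst_of_nonarch hv, gamProd_zero, one_mul]
    exact hsup
  · rw [locConst_of_not_nonarch hv, locConst_of_not_nonarch hv, gamProd_zero, mul_one,
      Fintype.card_fin]
    push_cast
    exact mul_le_mul_of_nonneg_left hsup (by positivity)

variable {β : Type*} [Fintype β]

/-- The multiset of all coefficients of a finite family of univariate polynomials. -/
noncomputable def famPolyMS (q : β → Polynomial K) : Multiset K :=
  ∑ b, polyMS (q b)

/-- One plus the total number of coefficient slots of a finite family. -/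
noncomputable def famPolyCount (q : β → Polynomial K) : ℝ :=
  1 + ∑ b, (((q b).natDegree : ℝ) + 1)

theorem one_le_famPolyCount (q : β → Polynomial K) : 1 ≤ famPolyCount q := by
  unfold famPolyCount
  have : (0 : ℝ) ≤ ∑ b, (((q b).natDegree : ℝ) + 1) :=
    Finset.sum_nonneg fun b _ => by positivity
  linarith

/-- **Value bound on the unit disc** with the constant of the family. -/
theorem abv_eval_le_fam (v : AbsoluteValue K ℝ) (q : β → Polynomial K) (b : β) {α : K}
    (hα : v α ≤ 1) : v ((q b).eval α) ≤ locConst (famPolyCount q) (famPolyMS q) v := by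
  refine le_trans (abv_eval_le_of_le_one v (q b) hα) ?_
  refine locConst_mono (by positivity) ?_ ?_ v
  · unfold famPolyCount
    have h : ((q b).natDegree : ℝ) + 1 ≤ ∑ b, (((q b).natDegree : ℝ) + 1) :=
      Finset.single_le_sum (f := fun b => ((q b).natDegree : ℝ) + 1)
        (fun b _ => by positivity) (Finset.mem_univ b)
    linarith
  · exact Finset.single_le_sum (f := fun b => polyMS (q b)) (fun _ _ => Multiset.zero_le _)
      (Finset.mem_univ b)

/-- The value of a monic polynomial of degree `d`, in the shape of `abv_le_of_monic_rel`. -/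
theorem eval_monic_eq (q : Polynomial K) (hq : q.Monic) {d : ℕ} (hd : q.natDegree = d) (u : K) :
    q.eval u = u ^ d + ∑ i : Fin d, q.coeff (d - 1 - i.val) * u ^ (d - 1 - i.val) := by
  have hlead : q.coeff d = 1 := by
    rw [← hd]
    exact hq.coeff_natDegree
  rw [Polynomial.eval_eq_sum_range, hd, Finset.sum_range_succ, hlead, one_mul, add_comm]
  congr 1
  rw [Fin.sum_univ_eq_sum_range (fun i => q.coeff (d - 1 - i) * u ^ (d - 1 - i)) d]
  exact (Finset.sum_range_reflect (fun j => q.coeff j * u ^ j) d).symm

/-- A left eigenvalue of a matrix is a root of its characteristic polynomial. -/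
theorem eval_charpoly_eq_zero_of_vecMul {n : ℕ} (U : Matrix (Fin n) (Fin n) K) (ω : Fin n → K)
    (hω : ω ≠ 0) (lam : K) (h : ∀ j, ∑ i, ω i * U i j = lam * ω j) :
    U.charpoly.eval lam = 0 := by
  rw [Matrix.eval_charpoly]
  refine Matrix.exists_vecMul_eq_zero_iff.mp ⟨ω, hω, ?_⟩
  ext j
  rw [Matrix.vecMul, dotProduct]
  simp only [Matrix.sub_apply, Matrix.scalar_apply, Matrix.diagonal_apply, mul_sub,
    Finset.sum_sub_distrib, mul_ite, mul_zero, Finset.sum_ite_eq', Finset.mem_univ, if_true,
    Pi.zero_apply]
  rw [h j, mul_comm, sub_self]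

end Univariate

variable {K F : Type*} [Field K] [Field F] [Algebra K F]

/-- From helper29's form of "the place `P` lies over `x = α`" to the value form. -/
theorem mem_and_ev_eq_of_ord_pos {ev : Place K F → F → K} (hev : Glob.IsEval ev) {x : F}
    {P : Place K F} {α : K} (hα : 0 < P.ord (x - algebraMap K F α)) :
    x ∈ P.toValuationSubring ∧ ev P x = α := by
  have h1 : P.toValuationSubring.valuation (x - algebraMap K F α) < 1 :=
    (Glob.valuation_lt_one_iff P _).mpr (Or.inr hα)
  have h2 : x - algebraMap K F α ∈ P.toValuationSubring :=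
    (P.toValuationSubring.valuation_le_one_iff _).mp h1.le
  have h3 : x ∈ P.toValuationSubring := by
    have h4 := P.toValuationSubring.add_mem _ _ h2 (P.algebraMap_mem' α)
    rwa [sub_add_cancel] at h4
  exact ⟨h3, hev.eq_of_valuation_lt h3 h1⟩

/-- **CH0 (a).**  The value at a place where `x` is regular of a `K[x]`-combination of functions
regular wherever `x` is regular. -/
theorem ev_of_repr {ev : Place K F → F → K} (hev : Glob.IsEval ev) {x : F} {n : ℕ}
    {w : Fin n → F} (hw : ∀ i, w i ∈ regWhere K x) {P : Place K F}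
    (hxP : x ∈ P.toValuationSubring) (c : Fin n → Polynomial K) {f : F}
    (hfc : f = ∑ i, Polynomial.aeval x (c i) * w i) :
    ev P f = ∑ i, (c i).eval (ev P x) * ev P (w i) := by
  have hmem : ∀ i, Polynomial.aeval x (c i) ∈ P.toValuationSubring :=
    fun i => aeval_mem_regWhere x (c i) P hxP
  rw [hfc, hev.map_sum _ _ fun i _ =>
    P.toValuationSubring.mul_mem _ _ (hmem i) (hw i P hxP)]
  refine Finset.sum_congr rfl fun i _ => ?_
  rw [hev.map_mul (hmem i) (hw i P hxP), hev.map_aeval hxP]

/-- **CH0 (a), powers.**  If `y ^ j = ∑ i, aeval x (c i) * w i`, then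
`y(P) ^ j = ∑ i, (c i).eval α * w_i(P)`. -/
theorem ev_pow_of_repr {ev : Place K F → F → K} (hev : Glob.IsEval ev) {x : F} {n : ℕ}
    {w : Fin n → F} (hw : ∀ i, w i ∈ regWhere K x) {P : Place K F}
    (hxP : x ∈ P.toValuationSubring) (c : Fin n → Polynomial K) {y : F}
    (hy : y ∈ P.toValuationSubring) (j : ℕ)
    (hyc : y ^ j = ∑ i, Polynomial.aeval x (c i) * w i) :
    ev P y ^ j = ∑ i, (c i).eval (ev P x) * ev P (w i) := by
  rw [← ev_of_repr hev hw hxP c hyc, hev.map_pow hy]

/-- **CH0 (a), products.** -/
theorem ev_mul_of_repr {ev : Place K F → F → K} (hev : Glob.IsEval ev) {x : F} {n : ℕ}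
    {w : Fin n → F} (hw : ∀ i, w i ∈ regWhere K x) {P : Place K F}
    (hxP : x ∈ P.toValuationSubring) (c : Fin n → Polynomial K) {f g : F}
    (hf : f ∈ P.toValuationSubring) (hg : g ∈ P.toValuationSubring)
    (hfg : f * g = ∑ i, Polynomial.aeval x (c i) * w i) :
    ev P f * ev P g = ∑ i, (c i).eval (ev P x) * ev P (w i) := by
  rw [← ev_of_repr hev hw hxP c hfg, hev.map_mul hf hg]

/-- The vector `(w_j(P))_j` is not zero: `1` is a `K[x]`-combination of the `w j`. -/
theorem ev_basis_ne_zero {ev : Place K F → F → K} (hev : Glob.IsEval ev) {x : F} {n : ℕ}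
    {w : Fin n → F} (hw : ∀ i, w i ∈ regWhere K x)
    (hone : ∃ c : Fin n → Polynomial K, (1 : F) = ∑ i, Polynomial.aeval x (c i) * w i)
    {P : Place K F} (hxP : x ∈ P.toValuationSubring) :
    (fun j => ev P (w j)) ≠ 0 := by
  obtain ⟨c, hc⟩ := hone
  intro h0
  have h1 := ev_of_repr hev hw hxP c hc
  rw [hev.map_one] at h1
  have h3 : ∀ i, ev P (w i) = 0 := fun i => congrFun h0 i
  simp only [h3, mul_zero, Finset.sum_const_zero] at h1
  exact one_ne_zero h1

/-- The structure matrices of a chart: `w s * w j = ∑ i, aeval x (u s i j) * w i`. -/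
theorem exists_structure_matrix {x : F} {n : ℕ} {w : Fin n → F} (h : IsChart K x w) :
    ∃ u : Fin n → Matrix (Fin n) (Fin n) (Polynomial K),
      ∀ s j, w s * w j = ∑ i, Polynomial.aeval x (u s i j) * w i := by
  have h' : ∀ s j, ∃ c : Fin n → Polynomial K,
      w s * w j = ∑ i, Polynomial.aeval x (c i) * w i :=
    fun s j => (h.rep _ (Subalgebra.mul_mem _ (h.mem s) (h.mem j))).exists
  choose c hc using h'
  exact ⟨fun s i j => c s j i, hc⟩

/-- **CH0 (b): sizes on a chart.**  One constant of product type bounds the values of the basis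
`w` of a chart at all the places over the unit disc `v (x(P)) ≤ 1`, for all absolute values `v`
of `K` (and all value functions). -/
theorem exists_size_bound {x : F} {n : ℕ} {w : Fin n → F} (h : IsChart K x w) :
    ∃ (c : ℝ) (Γ : Multiset K), 1 ≤ c ∧
      ∀ (ev : Place K F → F → K), Glob.IsEval ev → ∀ (v : AbsoluteValue K ℝ) (P : Place K F),
        x ∈ P.toValuationSubring → v (ev P x) ≤ 1 →
          ∀ i, v (ev P (w i)) ≤ locConst c Γ v := by
  classical
  obtain ⟨u, hu⟩ := exists_structure_matrix h
  have hone : ∃ c : Fin n → Polynomial K, (1 : F) = ∑ i, Polynomial.aeval x (c i) * w i :=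
    (h.rep 1 (Subalgebra.one_mem _)).exists
  -- the coefficients of the characteristic polynomials of the structure matrices
  let q : Fin n × Fin n → Polynomial K := fun si => (u si.1).charpoly.coeff (n - 1 - si.2.val)
  have hq1 : 1 ≤ famPolyCount q := one_le_famPolyCount q
  refine ⟨2 * famPolyCount q, famPolyMS q, by linarith, fun ev hev v P hxP hvα s => ?_⟩
  have hC1 : 1 ≤ locConst (famPolyCount q) (famPolyMS q) v := one_le_locConst hq1 _ v
  -- the eigenvector
  have hω := ev_basis_ne_zero hev h.mem hone hxP
  have hrel : ∀ j, ∑ i, ev P (w i) * ((u s).map (Polynomial.evalRingHom (ev P x))) i j =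
      ev P (w s) * ev P (w j) := by
    intro j
    rw [ev_mul_of_repr hev h.mem hxP (fun i => u s i j) (h.mem s P hxP) (h.mem j P hxP) (hu s j)]
    refine Finset.sum_congr rfl fun i _ => ?_
    rw [Matrix.map_apply, Polynomial.coe_evalRingHom, mul_comm]
  have hroot := eval_charpoly_eq_zero_of_vecMul ((u s).map (Polynomial.evalRingHom (ev P x)))
    (fun j => ev P (w j)) hω (ev P (w s)) hrel
  have hmonic : ((u s).map (Polynomial.evalRingHom (ev P x))).charpoly.Monic :=
    Matrix.charpoly_monic _
  have hdeg : ((u s).map (Polynomial.evalRingHom (ev P x))).charpoly.natDegree = n := by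
    rw [Matrix.charpoly_natDegree_eq_dim, Fintype.card_fin]
  rw [eval_monic_eq _ hmonic hdeg] at hroot
  have hcoef : ∀ i : Fin n,
      ((u s).map (Polynomial.evalRingHom (ev P x))).charpoly.coeff (n - 1 - i.val) =
        (q (s, i)).eval (ev P x) := by
    intro i
    rw [Matrix.charpoly_map, Polynomial.coeff_map, Polynomial.coe_evalRingHom]
  have hb : ∀ i : Fin n,
      v (((u s).map (Polynomial.evalRingHom (ev P x))).charpoly.coeff (n - 1 - i.val)) ≤
        (locConst (famPolyCount q) (famPolyMS q) v * 1) ^ (i.val + 1) := by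
    intro i
    rw [hcoef i, mul_one]
    exact le_trans (abv_eval_le_fam v q (s, i) hvα) (le_self_pow₀ hC1 (Nat.succ_ne_zero _))
  have hfin := abv_le_locConst_of_monic_rel v
    (fun i : Fin n => ((u s).map (Polynomial.evalRingHom (ev P x))).charpoly.coeff (n - 1 - i.val))
    (ev P (w s)) (famPolyMS q) hq1 zero_le_one hb hroot
  rwa [mul_one] at hfin

/-- **CH0 (c).**  If one of the coordinates is the constant `1`, the point has size `≥ 1`. -/
theorem one_le_iSup_abv {ev : Place K F → F → K} (hev : Glob.IsEval ev) {r : ℕ} (φ : Fin r → F)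
    (a₀ : Fin r) (h1 : φ a₀ = 1) (P : Place K F) (v : AbsoluteValue K ℝ) :
    1 ≤ ⨆ a, v (ev P (φ a)) := by
  have h3 : v (ev P (φ a₀)) = 1 := by rw [h1, hev.map_one, map_one]
  rw [← h3]
  exact Finite.le_ciSup (fun a => v (ev P (φ a))) a₀

end Fermat.Agent.S17.H.Fib2.Chart0
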