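import Mathlib
import Fermat.Agent.S17.H.Cert.LocConst

/-!
# Program MW (S17), strand H, twin of D4 (FIB) by two charts: the chart lemma (leaf D4t.CORE)

One field `K`, fixed polynomial data

* `p : Fin r → Fin n → K[X]` (the coordinates of the sections in a basis `w`),
* `M k : Matrix (Fin n) (Fin n) K[X]` (`k < m`; the powers `1, y_k, …, y_k ^ (n-1)` of a local
  generator in the basis `w`), `u k : K[X]` with `∑ k, u k * det (M k) = 1` (Bezout).

For an absolute value `v`, a number `α` with `v α ≤ 1`, a table `W l i` (`= w_i(P_l)`, the values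
of the basis at the points of the fibre over `α`) with `v (W l i) ≤ B`, and numbers `y k l`
(`= y_k(P_l)`) with `y k l ^ j = ∑ i, (M k j i)(α) * W l i`, put
`θ l a = ∑ i, (p a i)(α) * W l i` and `σ l l' a b = θ l a * θ l' b - θ l b * θ l' a`.  Then

`∏_{l ≠ l'} v (σ l l' a b) ≤ locConst c Γ v * B ^ E * v (det W) ^ 2`

for every choice of `(a, b)` at each ordered pair (`chart_core`), hence for the product of the
suprema over `(a, b)` (`chart_core_iSup`); `c`, `Γ`, `E` depend on `(p, M, u)` only.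

Proof: evaluate the Bezout identity at `α`: one `k` has `v (det M_k(α))` bounded below.  The
Vandermonde matrix of `y k` is `W * M_k(α)ᵀ`; by the adjugate `det M_k(α) * θ l a` is a polynomial
in `y k l` with bounded coefficients, so `det M_k(α) ^ 2 * σ l l' a b` is divisible by
`y k l - y k l'` with a bounded quotient, and the product of the differences is the square of the
Vandermonde determinant `det W * det M_k(α)`.
-/

set_option autoImplicit false

namespace Fermat.Agent.S17.H.Fib2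

open Polynomial

variable {K : Type*} [Field K]

/-! ### Finite sums and local constants -/

/-- The ultrametric inequality for a finite sum, with an explicit bound. -/
theorem abv_sum_le_of_nonarch {v : AbsoluteValue K ℝ} (hv : IsNonarchimedean v) {ι : Type*}
    (s : Finset ι) (f : ι → K) {b : ℝ} (hb : 0 ≤ b) (h : ∀ i ∈ s, v (f i) ≤ b) :
    v (∑ i ∈ s, f i) ≤ b := by
  classical
  induction s using Finset.induction_on with
  | empty => simpa using hb
  | insert a s ha ih =>
    rw [Finset.sum_insert ha]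
    exact (hv _ _).trans (max_le (h a (Finset.mem_insert_self a s))
      (ih fun i hi => h i (Finset.mem_insert_of_mem hi)))

/-- A sum of at most `c` terms, each of size at most `b`, has size at most `locConst c Γ v * b`. -/
theorem abv_sum_le_locConst (v : AbsoluteValue K ℝ) {c : ℝ} (hc : 1 ≤ c) (Γ : Multiset K)
    {ι : Type*} (s : Finset ι) (f : ι → K) {b : ℝ} (hs : (s.card : ℝ) ≤ c) (hb : 0 ≤ b)
    (h : ∀ i ∈ s, v (f i) ≤ b) :
    v (∑ i ∈ s, f i) ≤ Cert.locConst c Γ v * b := by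
  by_cases hv : IsNonarchimedean v
  · rw [Cert.locConst_of_nonarch hv]
    exact (abv_sum_le_of_nonarch hv s f hb h).trans
      (le_mul_of_one_le_left hb (Cert.one_le_gamProd Γ v))
  · rw [Cert.locConst_of_not_nonarch hv]
    calc v (∑ i ∈ s, f i) ≤ ∑ i ∈ s, v (f i) := v.sum_le _ _
      _ ≤ ∑ _i ∈ s, b := Finset.sum_le_sum h
      _ = (s.card : ℝ) * b := by rw [Finset.sum_const, nsmul_eq_mul]
      _ ≤ c * Cert.gamProd Γ v * b := by
          refine mul_le_mul_of_nonneg_right ?_ hb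
          calc (s.card : ℝ) ≤ c := hs
            _ ≤ c * Cert.gamProd Γ v :=
              le_mul_of_one_le_right (le_trans zero_le_one hc) (Cert.one_le_gamProd Γ v)

/-- **Values of finitely many polynomials on the unit disc** are bounded by one local constant
of product type; the constant can be taken at least any given integer. -/
theorem exists_locConst_eval_le {ι : Type*} [Fintype ι] (q : ι → K[X]) (N₀ : ℕ) :
    ∃ (c : ℝ) (Γ : Multiset K), 1 ≤ c ∧ (N₀ : ℝ) ≤ c ∧
      ∀ (v : AbsoluteValue K ℝ) (α : K), v α ≤ 1 → ∀ i,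
        v ((q i).eval α) ≤ Cert.locConst c Γ v := by
  classical
  have h0 : (0 : ℝ) ≤ ∑ i, ((q i).support.card : ℝ) :=
    Finset.sum_nonneg fun i _ => Nat.cast_nonneg _
  have hN : (0 : ℝ) ≤ (N₀ : ℝ) := Nat.cast_nonneg _
  refine ⟨1 + N₀ + ∑ i, ((q i).support.card : ℝ), ∑ i, (q i).support.val.map (q i).coeff,
    by linarith, by linarith, ?_⟩
  intro v α hα i
  set Γ : Multiset K := ∑ i, (q i).support.val.map (q i).coeff with hΓ
  set c : ℝ := 1 + N₀ + ∑ i, ((q i).support.card : ℝ) with hc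
  have hc1 : 1 ≤ c := by linarith
  have hterm : ∀ e ∈ (q i).support, v ((q i).coeff e * α ^ e) ≤ Cert.gamProd Γ v := by
    intro e he
    rw [map_mul, map_pow]
    have h1 : v ((q i).coeff e) ≤ Cert.gamProd Γ v := by
      refine Cert.le_gamProd_of_mem ?_ v
      have hle : (q i).support.val.map (q i).coeff ≤ Γ :=
        Finset.single_le_sum (f := fun i => (q i).support.val.map (q i).coeff)
          (fun _ _ => Multiset.zero_le _) (Finset.mem_univ i)
      exact Multiset.mem_of_le hle (Multiset.mem_map_of_mem _ he)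
    have h2 : v α ^ e ≤ 1 := pow_le_one₀ (v.nonneg α) hα
    calc v ((q i).coeff e) * v α ^ e ≤ v ((q i).coeff e) * 1 :=
          mul_le_mul_of_nonneg_left h2 (v.nonneg _)
      _ = v ((q i).coeff e) := mul_one _
      _ ≤ _ := h1
  have hcard : (((q i).support.card : ℕ) : ℝ) ≤ c := by
    have h1 : ((q i).support.card : ℝ) ≤ ∑ i, ((q i).support.card : ℝ) :=
      Finset.single_le_sum (f := fun i => ((q i).support.card : ℝ))
        (fun _ _ => Nat.cast_nonneg _) (Finset.mem_univ i)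
    linarith
  have key := abv_sum_le_locConst v hc1 (0 : Multiset K) (q i).support
    (fun e => (q i).coeff e * α ^ e) hcard (Cert.gamProd_pos Γ v).le hterm
  rw [Polynomial.eval_eq_sum, Polynomial.sum_def]
  refine key.trans (le_of_eq ?_)
  unfold Cert.locConst
  rw [Cert.gamProd_zero, mul_one]

/-! ### The bracket `y ^ j * z ^ j' - y ^ j' * z ^ j` -/

/-- The bracket is divisible by `y - z` with a quotient of controlled size. -/
theorem abv_bracket_le (v : AbsoluteValue K ℝ) {L T : ℝ} (hT : 1 ≤ T) (N₀ : ℕ)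
    (hS : ∀ (s : Finset ℕ) (f : ℕ → K) (b : ℝ), s.card ≤ N₀ → 0 ≤ b →
      (∀ i ∈ s, v (f i) ≤ b) → v (∑ i ∈ s, f i) ≤ L * b)
    {y z : K} (hy : v y ≤ T) (hz : v z ≤ T) (j j' : ℕ) (hj : j ≤ N₀) (hj' : j' ≤ N₀) :
    v (y ^ j * z ^ j' - y ^ j' * z ^ j) ≤ L * T ^ (j + j') * v (y - z) := by
  have hT0 : 0 ≤ T := le_trans zero_le_one hT
  have key : ∀ (y z : K), v y ≤ T → v z ≤ T → ∀ j e : ℕ, e ≤ N₀ →
      v (y ^ j * z ^ (j + e) - y ^ (j + e) * z ^ j) ≤ L * T ^ (j + (j + e)) * v (y - z) := by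
    intro y z hy hz j e he
    have h1 : y ^ j * z ^ (j + e) - y ^ (j + e) * z ^ j =
        y ^ j * z ^ j * ((∑ i ∈ Finset.range e, z ^ i * y ^ (e - 1 - i)) * (z - y)) := by
      rw [geom_sum₂_mul]; ring
    have h2 : v (∑ i ∈ Finset.range e, z ^ i * y ^ (e - 1 - i)) ≤ L * T ^ e := by
      refine hS _ _ _ (by simpa using he) (pow_nonneg hT0 e) ?_
      intro i hi
      rw [map_mul, map_pow, map_pow]
      calc v z ^ i * v y ^ (e - 1 - i) ≤ T ^ i * T ^ (e - 1 - i) :=
            mul_le_mul (pow_le_pow_left₀ (v.nonneg _) hz i)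
              (pow_le_pow_left₀ (v.nonneg _) hy _) (pow_nonneg (v.nonneg _) _) (pow_nonneg hT0 _)
        _ = T ^ (i + (e - 1 - i)) := (pow_add T _ _).symm
        _ ≤ T ^ e := pow_le_pow_right₀ hT (by have := Finset.mem_range.mp hi; omega)
    have hL0 : 0 ≤ L * T ^ e := le_trans (v.nonneg _) h2
    rw [h1, map_mul, map_mul, map_mul, map_pow, map_pow, v.map_sub z y]
    calc v y ^ j * v z ^ j * (v (∑ i ∈ Finset.range e, z ^ i * y ^ (e - 1 - i)) * v (y - z))
        ≤ T ^ j * T ^ j * (L * T ^ e * v (y - z)) :=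
          mul_le_mul (mul_le_mul (pow_le_pow_left₀ (v.nonneg _) hy j)
            (pow_le_pow_left₀ (v.nonneg _) hz j) (pow_nonneg (v.nonneg _) _) (pow_nonneg hT0 _))
            (mul_le_mul_of_nonneg_right h2 (v.nonneg _))
            (mul_nonneg (v.nonneg _) (v.nonneg _)) (mul_nonneg (pow_nonneg hT0 _) (pow_nonneg hT0 _))
      _ = L * T ^ (j + (j + e)) * v (y - z) := by ring
  rcases le_total j j' with h | h
  · obtain ⟨e, rfl⟩ := Nat.exists_eq_add_of_le h
    exact key y z hy hz j e (by omega)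
  · obtain ⟨e, rfl⟩ := Nat.exists_eq_add_of_le h
    have h3 := key z y hz hy j' e (by omega)
    have e1 : y ^ (j' + e) * z ^ j' - y ^ j' * z ^ (j' + e) =
        z ^ j' * y ^ (j' + e) - z ^ (j' + e) * y ^ j' := by ring
    rw [e1, v.map_sub y z]
    refine h3.trans (le_of_eq ?_)
    ring

/-! ### Products over the ordered pairs of distinct indices -/

/-- For a symmetric `f`, the product over the ordered pairs of distinct indices is the square of
the product over the pairs `i < j`. -/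
theorem prod_offDiag_eq_sq {n : ℕ} (f : Fin n → Fin n → ℝ) (hf : ∀ i j, f i j = f j i) :
    ∏ q ∈ (Finset.univ : Finset (Fin n)).offDiag, f q.1 q.2 =
      (∏ i, ∏ j ∈ Finset.Ioi i, f i j) ^ 2 := by
  classical
  have h1 : (Finset.univ : Finset (Fin n)).offDiag =
      (Finset.univ ×ˢ Finset.univ).filter (fun q : Fin n × Fin n => q.1 ≠ q.2) := by
    ext q; simp
  have h2 : ∀ i j : Fin n, (if i ≠ j then f i j else 1) =
      (if i < j then f i j else 1) * (if j < i then f j i else 1) := by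
    intro i j
    rcases lt_trichotomy i j with h | h | h
    · rw [if_pos h.ne, if_pos h, if_neg h.not_gt, mul_one]
    · subst h; simp
    · rw [if_pos h.ne', if_neg h.not_gt, if_pos h, one_mul, hf i j]
  have h3 : ∀ i : Fin n, ∏ j, (if i < j then f i j else 1) = ∏ j ∈ Finset.Ioi i, f i j := by
    intro i
    rw [← Finset.prod_filter, Finset.filter_lt_eq_Ioi]
  rw [h1, Finset.prod_filter, Finset.prod_product]
  calc ∏ i, ∏ j, (if (i, j).1 ≠ (i, j).2 then f (i, j).1 (i, j).2 else 1)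
      = ∏ i, ∏ j, ((if i < j then f i j else 1) * (if j < i then f j i else 1)) :=
        Finset.prod_congr rfl fun i _ => Finset.prod_congr rfl fun j _ => h2 i j
    _ = (∏ i, ∏ j, (if i < j then f i j else 1)) * ∏ i, ∏ j, (if j < i then f j i else 1) := by
        simp only [Finset.prod_mul_distrib]
    _ = (∏ i, ∏ j, (if i < j then f i j else 1)) * ∏ j, ∏ i, (if j < i then f j i else 1) := by
        rw [Finset.prod_comm (f := fun i j => (if j < i then f j i else 1))]
    _ = (∏ i, ∏ j ∈ Finset.Ioi i, f i j) ^ 2 := by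
        simp only [h3]
        rw [pow_two]

/-! ### The abstract chart lemma -/

/-- The exponent of `B` in the chart lemma. -/
def chartE (n : ℕ) : ℕ := 2 * n * (n * n - n)

/-- The exponent of the local constant in the chart lemma. -/
def chartN (n : ℕ) : ℕ := (4 * n + 4) * (n * n - n) + 4 * (n * n - n)

/-- **Chart lemma, abstract form**: one absolute value, one number `L ≥ 1` which bounds finite
sums (`hS`), the coefficients `P` and `1 / v d`. -/
theorem chart_core_abs (v : AbsoluteValue K ℝ) {n r : ℕ} (hn : 2 ≤ n) {L B : ℝ} (hL : 1 ≤ L)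
    (hB : 1 ≤ B)
    (hS : ∀ (ι : Type) (s : Finset ι) (f : ι → K) (b : ℝ), s.card ≤ n * n → 0 ≤ b →
      (∀ i ∈ s, v (f i) ≤ b) → v (∑ i ∈ s, f i) ≤ L * b)
    {d w : K} (hd : 1 ≤ L * L * v d)
    (P : Fin r → Fin n → K) (hP : ∀ a j, v (P a j) ≤ L)
    (y : Fin n → K) (hy : ∀ l, v (y l) ≤ L * L * B)
    (hV : Matrix.det (Matrix.vandermonde y) = w * d)
    (θ : Fin n → Fin r → K) (hθ : ∀ l a, d * θ l a = ∑ j : Fin n, P a j * y l ^ (j : ℕ))
    (ab : Fin n × Fin n → Fin r × Fin r) :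
    ∏ q ∈ (Finset.univ : Finset (Fin n)).offDiag,
        v (θ q.1 (ab q).1 * θ q.2 (ab q).2 - θ q.1 (ab q).2 * θ q.2 (ab q).1)
      ≤ L ^ chartN n * B ^ chartE n * v w ^ 2 := by
  classical
  have hL0 : 0 ≤ L := le_trans zero_le_one hL
  have hB0 : 0 ≤ B := le_trans zero_le_one hB
  set T : ℝ := L * L * B with hT
  have hT1 : 1 ≤ T :=
    one_le_mul_of_one_le_of_one_le (one_le_mul_of_one_le_of_one_le hL hL) hB
  have hT0 : 0 ≤ T := le_trans zero_le_one hT1
  have hn1 : n ≤ n * n := Nat.le_mul_self n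
  -- Step 1: one ordered pair
  have step1 : ∀ (l l' : Fin n) (a b : Fin r),
      v d ^ 2 * v (θ l a * θ l' b - θ l b * θ l' a) ≤
        L ^ 4 * T ^ (2 * n) * v (y l - y l') := by
    intro l l' a b
    have hid : d ^ 2 * (θ l a * θ l' b - θ l b * θ l' a) =
        ∑ q ∈ (Finset.univ : Finset (Fin n × Fin n)), P a q.1 * P b q.2 *
          (y l ^ (q.1 : ℕ) * y l' ^ (q.2 : ℕ) - y l ^ (q.2 : ℕ) * y l' ^ (q.1 : ℕ)) := by
      have e1 : d ^ 2 * (θ l a * θ l' b - θ l b * θ l' a) =
          (d * θ l a) * (d * θ l' b) - (d * θ l b) * (d * θ l' a) := by ring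
      rw [e1, hθ, hθ, hθ, hθ, Finset.sum_mul_sum, Finset.sum_mul_sum,
        ← Finset.univ_product_univ, Finset.sum_product]
      rw [Finset.sum_comm (f := fun j j' => P b j * y l ^ (j : ℕ) * (P a j' * y l' ^ (j' : ℕ)))]
      rw [← Finset.sum_sub_distrib]
      refine Finset.sum_congr rfl fun j _ => ?_
      rw [← Finset.sum_sub_distrib]
      refine Finset.sum_congr rfl fun j' _ => ?_
      ring
    have hb : ∀ q ∈ (Finset.univ : Finset (Fin n × Fin n)),
        v (P a q.1 * P b q.2 *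
          (y l ^ (q.1 : ℕ) * y l' ^ (q.2 : ℕ) - y l ^ (q.2 : ℕ) * y l' ^ (q.1 : ℕ))) ≤
          L * L * (L * T ^ (2 * n) * v (y l - y l')) := by
      intro q _
      rw [map_mul, map_mul]
      have hbr := abv_bracket_le v hT1 (n * n) (fun s f b hs hb h => hS ℕ s f b hs hb h)
        (hy l) (hy l') q.1 q.2 (le_trans q.1.2.le hn1) (le_trans q.2.2.le hn1)
      have hpow : T ^ ((q.1 : ℕ) + (q.2 : ℕ)) ≤ T ^ (2 * n) :=
        pow_le_pow_right₀ hT1 (by have := q.1.2; have := q.2.2; omega)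
      have hbr' : v (y l ^ (q.1 : ℕ) * y l' ^ (q.2 : ℕ) - y l ^ (q.2 : ℕ) * y l' ^ (q.1 : ℕ)) ≤
          L * T ^ (2 * n) * v (y l - y l') :=
        hbr.trans (mul_le_mul_of_nonneg_right (mul_le_mul_of_nonneg_left hpow hL0) (v.nonneg _))
      exact mul_le_mul (mul_le_mul (hP a q.1) (hP b q.2) (v.nonneg _) hL0) hbr' (v.nonneg _)
        (mul_nonneg hL0 hL0)
    have h1 := hS (Fin n × Fin n) Finset.univ _ _ (by simp)
      (mul_nonneg (mul_nonneg hL0 hL0)
        (mul_nonneg (mul_nonneg hL0 (pow_nonneg hT0 _)) (v.nonneg _))) hb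
    rw [← hid, map_mul, map_pow] at h1
    refine h1.trans (le_of_eq ?_)
    ring
  -- Step 2: the product over the ordered pairs
  set D : ℕ := n * n - n with hD
  have hcard : (Finset.univ : Finset (Fin n)).offDiag.card = D := by
    rw [Finset.offDiag_card, Finset.card_univ, Fintype.card_fin]
  set σ : Fin n × Fin n → K :=
    fun q => θ q.1 (ab q).1 * θ q.2 (ab q).2 - θ q.1 (ab q).2 * θ q.2 (ab q).1 with hσ
  have hprod : ∏ q ∈ (Finset.univ : Finset (Fin n)).offDiag, (v d ^ 2 * v (σ q)) ≤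
      ∏ q ∈ (Finset.univ : Finset (Fin n)).offDiag, (L ^ 4 * T ^ (2 * n) * v (y q.1 - y q.2)) :=
    Finset.prod_le_prod (fun q _ => mul_nonneg (pow_nonneg (v.nonneg _) 2) (v.nonneg _))
      (fun q _ => step1 q.1 q.2 (ab q).1 (ab q).2)
  rw [Finset.prod_mul_distrib, Finset.prod_mul_distrib, Finset.prod_const, Finset.prod_const,
    hcard] at hprod
  -- Step 3: the Vandermonde determinant
  have hvand : ∏ q ∈ (Finset.univ : Finset (Fin n)).offDiag, v (y q.1 - y q.2) =
      v w ^ 2 * v d ^ 2 := by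
    rw [prod_offDiag_eq_sq (fun i j => v (y i - y j)) (fun i j => v.map_sub _ _)]
    have h1 : v (Matrix.det (Matrix.vandermonde y)) =
        ∏ i, ∏ j ∈ Finset.Ioi i, v (y i - y j) := by
      rw [Matrix.det_vandermonde, map_prod]
      refine Finset.prod_congr rfl fun i _ => ?_
      rw [map_prod]
      exact Finset.prod_congr rfl fun j _ => v.map_sub _ _
    rw [← h1, hV, map_mul, mul_pow]
  rw [hvand] at hprod
  have hd0 : 0 < v d := by
    by_contra h
    have h0 : v d = 0 := le_antisymm (not_lt.mp h) (v.nonneg d)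
    rw [h0, mul_zero] at hd
    exact absurd hd (by norm_num)
  have hD2 : 2 ≤ D := by
    have h1 : 2 * n ≤ n * n := Nat.mul_le_mul_right n hn
    omega
  obtain ⟨e, he⟩ : ∃ e, D = e + 1 := ⟨D - 1, by omega⟩
  set PP : ℝ := ∏ q ∈ (Finset.univ : Finset (Fin n)).offDiag, v (σ q) with hPP
  have hPP0 : 0 ≤ PP := Finset.prod_nonneg fun q _ => v.nonneg _
  have h3 : (v d ^ 2) ^ e * PP ≤ (L ^ 4 * T ^ (2 * n)) ^ D * v w ^ 2 := by
    have h4 : v d ^ 2 * ((v d ^ 2) ^ e * PP) ≤
        v d ^ 2 * ((L ^ 4 * T ^ (2 * n)) ^ D * v w ^ 2) := by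
      calc v d ^ 2 * ((v d ^ 2) ^ e * PP) = (v d ^ 2) ^ D * PP := by rw [he, pow_succ]; ring
        _ ≤ (L ^ 4 * T ^ (2 * n)) ^ D * (v w ^ 2 * v d ^ 2) := hprod
        _ = v d ^ 2 * ((L ^ 4 * T ^ (2 * n)) ^ D * v w ^ 2) := by ring
    exact le_of_mul_le_mul_left h4 (pow_pos hd0 2)
  have h5 : PP ≤ ((L * L) ^ 2) ^ e * ((v d ^ 2) ^ e * PP) := by
    have h6 : 1 ≤ ((L * L) ^ 2) ^ e * (v d ^ 2) ^ e := by
      rw [← mul_pow, ← mul_pow]
      exact one_le_pow₀ (one_le_pow₀ hd)
    calc PP = 1 * PP := (one_mul _).symm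
      _ ≤ (((L * L) ^ 2) ^ e * (v d ^ 2) ^ e) * PP := mul_le_mul_of_nonneg_right h6 hPP0
      _ = ((L * L) ^ 2) ^ e * ((v d ^ 2) ^ e * PP) := by ring
  have e2 : (L ^ 4 * T ^ (2 * n)) ^ D = L ^ ((4 * n + 4) * D) * B ^ (2 * n * D) := by
    rw [hT]; ring
  have e3 : ((L * L) ^ 2) ^ e = L ^ (4 * e) := by ring
  have h7 : L ^ (4 * e) ≤ L ^ (4 * D) := pow_le_pow_right₀ hL (by omega)
  have hw0 : 0 ≤ L ^ ((4 * n + 4) * D) * B ^ (2 * n * D) * v w ^ 2 :=
    mul_nonneg (mul_nonneg (pow_nonneg hL0 _) (pow_nonneg hB0 _)) (pow_nonneg (v.nonneg _) 2)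
  calc PP ≤ ((L * L) ^ 2) ^ e * ((v d ^ 2) ^ e * PP) := h5
    _ ≤ ((L * L) ^ 2) ^ e * ((L ^ 4 * T ^ (2 * n)) ^ D * v w ^ 2) :=
        mul_le_mul_of_nonneg_left h3 (pow_nonneg (pow_nonneg (mul_nonneg hL0 hL0) 2) e)
    _ = L ^ (4 * e) * (L ^ ((4 * n + 4) * D) * B ^ (2 * n * D) * v w ^ 2) := by rw [e2, e3]
    _ ≤ L ^ (4 * D) * (L ^ ((4 * n + 4) * D) * B ^ (2 * n * D) * v w ^ 2) :=
        mul_le_mul_of_nonneg_right h7 hw0
    _ = L ^ chartN n * B ^ chartE n * v w ^ 2 := by
        unfold chartN chartE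
        rw [← hD]
        ring

/-! ### The chart lemma -/

/-- `θ l a = ∑ i, (p a i)(α) * W l i`: the value at the `l`-th point of the fibre of the `a`-th
section. -/
noncomputable def chartTheta {r n : ℕ} (p : Fin r → Fin n → K[X]) (α : K)
    (W : Matrix (Fin n) (Fin n) K) (l : Fin n) (a : Fin r) : K :=
  ∑ i, (p a i).eval α * W l i

/-- `σ l l' a b = θ l a * θ l' b - θ l b * θ l' a`. -/
noncomputable def chartSig {r n : ℕ} (p : Fin r → Fin n → K[X]) (α : K)
    (W : Matrix (Fin n) (Fin n) K) (l l' : Fin n) (a b : Fin r) : K :=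
  chartTheta p α W l a * chartTheta p α W l' b - chartTheta p α W l b * chartTheta p α W l' a

/-- **The chart lemma** (CORE of the two-chart proof of D4). -/
theorem chart_core {r n m : ℕ} (hn : 2 ≤ n) (p : Fin r → Fin n → K[X])
    (M : Fin m → Matrix (Fin n) (Fin n) K[X]) (u : Fin m → K[X])
    (hu : ∑ k, u k * (M k).det = 1) :
    ∃ (c : ℝ) (Γ : Multiset K) (E : ℕ), 1 ≤ c ∧
      ∀ (v : AbsoluteValue K ℝ) (α : K) (B : ℝ) (W : Matrix (Fin n) (Fin n) K)
        (y : Fin m → Fin n → K), v α ≤ 1 → 1 ≤ B → (∀ l i, v (W l i) ≤ B) →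
        (∀ k l (j : Fin n), y k l ^ (j : ℕ) = ∑ i, ((M k) j i).eval α * W l i) →
        ∀ ab : Fin n × Fin n → Fin r × Fin r,
          ∏ q ∈ (Finset.univ : Finset (Fin n)).offDiag,
              v (chartSig p α W q.1 q.2 (ab q).1 (ab q).2)
            ≤ Cert.locConst c Γ v * B ^ E * v W.det ^ 2 := by
  classical
  let Q : Fin m → Fin r → Fin n → K[X] := fun k a j => ∑ i, p a i * (M k).adjugate i j
  let fam : (Fin m ⊕ (Fin m × Fin n)) ⊕ (Fin m × Fin r × Fin n) → K[X] :=
    Sum.elim (Sum.elim u (fun ki => M ki.1 ⟨1, hn⟩ ki.2)) (fun kaj => Q kaj.1 kaj.2.1 kaj.2.2)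
  obtain ⟨c, Γ, hc1, hcN, hfam⟩ := exists_locConst_eval_le fam (n * n + m)
  refine ⟨c ^ chartN n, chartN n • Γ, chartE n, one_le_pow₀ hc1, ?_⟩
  intro v α B W y hα hB hW hy ab
  have hL : 1 ≤ Cert.locConst c Γ v := Cert.one_le_locConst hc1 Γ v
  have hL0 : 0 ≤ Cert.locConst c Γ v := le_trans zero_le_one hL
  have hB0 : 0 ≤ B := le_trans zero_le_one hB
  have hS : ∀ (ι : Type) (s : Finset ι) (f : ι → K) (b : ℝ), s.card ≤ n * n + m → 0 ≤ b →
      (∀ i ∈ s, v (f i) ≤ b) → v (∑ i ∈ s, f i) ≤ Cert.locConst c Γ v * b := by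
    intro ι s f b hs hb h
    refine abv_sum_le_locConst v hc1 Γ s f ?_ hb h
    exact le_trans (by exact_mod_cast hs) hcN
  have hu' : ∀ k, v ((u k).eval α) ≤ Cert.locConst c Γ v :=
    fun k => hfam v α hα (Sum.inl (Sum.inl k))
  have hM1 : ∀ k i, v ((M k ⟨1, hn⟩ i).eval α) ≤ Cert.locConst c Γ v :=
    fun k i => hfam v α hα (Sum.inl (Sum.inr (k, i)))
  have hQ : ∀ k a j, v ((Q k a j).eval α) ≤ Cert.locConst c Γ v :=
    fun k a j => hfam v α hα (Sum.inr (k, a, j))
  -- the Bezout identity at `α`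
  have hbez : ∑ k, (u k).eval α * ((M k).det).eval α = 1 := by
    have h1 := congrArg (Polynomial.eval α) hu
    rw [Polynomial.eval_finsetSum, Polynomial.eval_one] at h1
    rw [← h1]
    exact Finset.sum_congr rfl fun k _ => (Polynomial.eval_mul).symm
  have hm : Nonempty (Fin m) := by
    by_contra h
    rw [not_nonempty_iff] at h
    rw [Finset.univ_eq_empty, Finset.sum_empty] at hbez
    exact zero_ne_one hbez
  obtain ⟨k, -, hk⟩ := Finset.exists_max_image Finset.univ
    (fun k => v (((M k).det).eval α)) Finset.univ_nonempty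
  have hd : 1 ≤ Cert.locConst c Γ v * Cert.locConst c Γ v * v (((M k).det).eval α) := by
    have h1 := hS (Fin m) Finset.univ (fun k' => (u k').eval α * ((M k').det).eval α)
      (Cert.locConst c Γ v * v (((M k).det).eval α)) (by simp)
      (mul_nonneg hL0 (v.nonneg _)) (fun k' _ => by
        rw [map_mul]
        exact mul_le_mul (hu' k') (hk k' (Finset.mem_univ _)) (v.nonneg _) hL0)
    rw [hbez, map_one] at h1
    linarith [h1]
  -- the matrices at `α`
  set Mα : Matrix (Fin n) (Fin n) K := (Polynomial.evalRingHom α).mapMatrix (M k) with hMα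
  have hdet : Mα.det = ((M k).det).eval α := by
    rw [hMα, ← RingHom.map_det]; rfl
  have hadj : ∀ i j, Mα.adjugate i j = ((M k).adjugate i j).eval α := by
    intro i j
    rw [hMα, ← RingHom.map_adjugate]; rfl
  have hMα_apply : ∀ j i, Mα j i = (M k j i).eval α := fun j i => rfl
  -- the size of `y`
  have hy1 : ∀ l, v (y k l) ≤ Cert.locConst c Γ v * Cert.locConst c Γ v * B := by
    intro l
    have h1 := hy k l ⟨1, hn⟩
    rw [pow_one] at h1
    rw [h1]
    have h2 := hS (Fin n) Finset.univ (fun i => (M k ⟨1, hn⟩ i).eval α * W l i)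
      (Cert.locConst c Γ v * B)
      (by rw [Finset.card_univ, Fintype.card_fin]; exact le_trans (Nat.le_mul_self n) (Nat.le_add_right _ _))
      (mul_nonneg hL0 hB0) (fun i _ => by
        rw [map_mul]
        exact mul_le_mul (hM1 k i) (hW l i) (v.nonneg _) hL0)
    refine h2.trans (le_of_eq ?_)
    ring
  -- the Vandermonde matrix of `y k`
  have hV : Matrix.det (Matrix.vandermonde (y k)) = W.det * Mα.det := by
    have h1 : Matrix.vandermonde (y k) = W * Mα.transpose := by
      ext l j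
      rw [Matrix.vandermonde_apply, Matrix.mul_apply, hy k l j]
      refine Finset.sum_congr rfl fun i _ => ?_
      rw [Matrix.transpose_apply, hMα_apply, mul_comm]
    rw [h1, Matrix.det_mul, Matrix.det_transpose]
  -- the adjugate
  have hW' : ∀ l i, Mα.det * W l i = ∑ j, Mα.adjugate i j * y k l ^ (j : ℕ) := by
    intro l i
    have h1 : (fun j : Fin n => y k l ^ (j : ℕ)) = Mα.mulVec (W l) := by
      ext j
      rw [hy k l j]
      rfl
    have h2 : Mα.adjugate.mulVec (Mα.mulVec (W l)) = Mα.det • W l := by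
      rw [Matrix.mulVec_mulVec, Matrix.adjugate_mul, Matrix.smul_mulVec, Matrix.one_mulVec]
    have h3 := congrFun h2 i
    rw [← h1] at h3
    exact h3.symm
  have hθ : ∀ l a, Mα.det * chartTheta p α W l a =
      ∑ j : Fin n, (Q k a j).eval α * y k l ^ (j : ℕ) := by
    intro l a
    unfold chartTheta
    rw [Finset.mul_sum]
    have h1 : ∀ i, Mα.det * ((p a i).eval α * W l i) =
        ∑ j, (p a i).eval α * Mα.adjugate i j * y k l ^ (j : ℕ) := by
      intro i
      rw [mul_left_comm, hW', Finset.mul_sum]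
      exact Finset.sum_congr rfl fun j _ => by ring
    simp only [h1]
    rw [Finset.sum_comm]
    refine Finset.sum_congr rfl fun j _ => ?_
    rw [← Finset.sum_mul]
    congr 1
    simp only [Q, Polynomial.eval_finsetSum, Polynomial.eval_mul, hadj]
  have key := chart_core_abs v hn hL hB
    (fun ι s f b hs => hS ι s f b (le_trans hs (Nat.le_add_right _ _)))
    (d := Mα.det) (w := W.det) (by rw [hdet]; exact hd)
    (fun a j => (Q k a j).eval α) (fun a j => hQ k a j) (y k) hy1 hV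
    (chartTheta p α W) hθ ab
  rw [Cert.locConst_pow] at key
  exact key

/-- **The chart lemma, supremum form**: the product over the ordered pairs of the suprema over
`(a, b)`. -/
theorem chart_core_iSup {r n m : ℕ} (hn : 2 ≤ n) (p : Fin r → Fin n → K[X])
    (M : Fin m → Matrix (Fin n) (Fin n) K[X]) (u : Fin m → K[X])
    (hu : ∑ k, u k * (M k).det = 1) :
    ∃ (c : ℝ) (Γ : Multiset K) (E : ℕ), 1 ≤ c ∧
      ∀ (v : AbsoluteValue K ℝ) (α : K) (B : ℝ) (W : Matrix (Fin n) (Fin n) K)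
        (y : Fin m → Fin n → K), v α ≤ 1 → 1 ≤ B → (∀ l i, v (W l i) ≤ B) →
        (∀ k l (j : Fin n), y k l ^ (j : ℕ) = ∑ i, ((M k) j i).eval α * W l i) →
          ∏ q ∈ (Finset.univ : Finset (Fin n)).offDiag,
              (⨆ ab : Fin r × Fin r, v (chartSig p α W q.1 q.2 ab.1 ab.2))
            ≤ Cert.locConst c Γ v * B ^ E * v W.det ^ 2 := by
  classical
  obtain ⟨c, Γ, E, hc, h⟩ := chart_core hn p M u hu
  refine ⟨c, Γ, E, hc, ?_⟩
  intro v α B W y hα hB hW hy
  rcases isEmpty_or_nonempty (Fin r × Fin r) with hr | hr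
  · have hq : ((⟨0, by omega⟩ : Fin n), (⟨1, hn⟩ : Fin n)) ∈
        (Finset.univ : Finset (Fin n)).offDiag := by
      rw [Finset.mem_offDiag]
      refine ⟨Finset.mem_univ _, Finset.mem_univ _, ?_⟩
      intro h0
      exact absurd (congrArg Fin.val h0) (by norm_num)
    rw [Finset.prod_eq_zero hq (Real.iSup_of_isEmpty _)]
    exact mul_nonneg (mul_nonneg (Cert.locConst_nonneg (le_trans zero_le_one hc) Γ v)
      (pow_nonneg (le_trans zero_le_one hB) _)) (pow_nonneg (v.nonneg _) 2)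
  · have hex : ∀ q : Fin n × Fin n, ∃ ab : Fin r × Fin r,
        v (chartSig p α W q.1 q.2 ab.1 ab.2) =
          ⨆ ab : Fin r × Fin r, v (chartSig p α W q.1 q.2 ab.1 ab.2) :=
      fun q => exists_eq_ciSup_of_finite
    choose ab hab using hex
    have key := h v α B W y hα hB hW hy ab
    simp only [hab] at key
    exact key

end Fermat.Agent.S17.H.Fib2
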