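/-
MW strand H, block D4 (two-chart twin), leaf GEN: local generators of a chart.

`F / K` a function field over an algebraically closed field of characteristic zero, `x : F`
transcendental, `w` a `K[x]`-basis of the ring `regWhere K x` of the functions regular wherever
`x` is regular (`IsChart K x w`).

* `exists_simple_separating` : for every `α : K` there is `y`, integral over `K[x]`, with pairwise
  distinct values and simple (`ord (y - y(P)) = 1`) at the places over `x = α` (Chinese remainder
  theorem in the integral closure of `K[x]`, a Dedekind domain: `S24/FF/Dedekind`);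
* `finrank_le_natDegree` : for such a `y`, a relation `q(y) ∈ (x - α) · regWhere K x` with
  `q ∈ K[T] ∖ 0` forces `deg q ≥ ∑ e_P = [F : K(x)]`;
* `exists_local_generator` : hence the matrix `M` of the powers `1, y, .., y ^ (n - 1)` in the
  basis `w` has `(det M)(α) ≠ 0` (LOCAL MONOGENICITY at `α`);
* `exists_generators` (GEN) : finitely many such `y k`, `M k` with `∑ k, u k * det (M k) = 1`
  (the determinants have no common root and `K` is algebraically closed).
-/
import Mathlib
import Fermat.Prelude.Def_AlgebraicCurve_Repartitions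
import Fermat.Agent.S24.FF.Dedekind
import Fermat.Agent.S17.H.Fib2.Chart

set_option autoImplicit false

namespace Fermat.Agent.S17.H.Fib2.LocalMono

open AlgebraicCurve IsDedekindDomain IntermediateField
open Fermat.Agent.S24.FF
open scoped IntermediateField.algebraAdjoinAdjoin

attribute [local instance] Fermat.Agent.S24.FF.instPID Fermat.Agent.S24.FF.instDedekindClosure
  Fermat.Agent.S24.FF.instFracClosure Fermat.Agent.S24.FF.instFiniteClosure
  Fermat.Agent.S24.FF.instTowerClosure

variable {K F : Type*} [Field K] [Field F] [Algebra K F]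

/-- `K[x] ⊆ O_v` when `x ∈ O_v`. -/
theorem algebraMap_adjoin_mem (v : Place K F) {x : F} (hx : x ∈ v.toValuationSubring)
    (r : Algebra.adjoin K {x}) :
    algebraMap (Algebra.adjoin K {x}) F r ∈ v.toValuationSubring := by
  let Osub : Subalgebra K F :=
    { v.toValuationSubring.toSubring with algebraMap_mem' := v.algebraMap_mem' }
  have hle : Algebra.adjoin K {x} ≤ Osub := Algebra.adjoin_le (by
    intro y hy
    rw [Set.mem_singleton_iff] at hy
    rw [hy]
    exact hx)
  exact hle r.2

/-- Elements integral over `K[x]` are regular wherever `x` is regular. -/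
theorem mem_regWhere_of_isIntegral {x f : F} (hf : IsIntegral (Algebra.adjoin K {x}) f) :
    f ∈ regWhere K x := fun v hv =>
  mem_of_isIntegral v (algebraMap_adjoin_mem v hv) hf

section General

variable {R : Type*} [CommRing R] [IsDedekindDomain R] [Algebra R F] [IsFractionRing R F]
  [Algebra K R] [IsScalarTower K R F]

/-- Membership in a power of a height-one prime, read off the order at its place. -/
theorem mem_pow_iff_le_ord (w : HeightOneSpectrum R) {r : R} (hr : r ≠ 0) (m : ℕ) :
    r ∈ w.asIdeal ^ m ↔
      (m : ℤ) ≤ (Place.ofHeightOneSpectrum (K := K) (F := F) w).ord (algebraMap R F r) := by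
  have hr' : algebraMap R F r ≠ 0 := by
    simpa using (IsFractionRing.injective R F).ne hr
  have hne : w.intValuation r ≠ 0 := by
    rw [← HeightOneSpectrum.valuation_of_algebraMap (K := F)]
    exact (Valuation.ne_zero_iff _).mpr hr'
  rw [ord_ofHeightOneSpectrum (K := K) w hr', HeightOneSpectrum.valuation_of_algebraMap,
    ← HeightOneSpectrum.intValuation_le_pow_iff_mem, ← WithZero.log_le_iff_le_exp hne]
  omega

end General

/-- Counting the values of an injective family in a multiset. -/
theorem sum_count_le_card {ι κ : Type*} [Fintype ι] [DecidableEq κ] (c : ι → κ)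
    (hc : Function.Injective c) (s : Multiset κ) :
    ∑ q : ι, s.count (c q) ≤ Multiset.card s := by
  classical
  have h1 : ∑ q : ι, s.count (c q) = ∑ a ∈ Finset.univ.image c, s.count a := by
    rw [Finset.sum_image (fun a _ b _ h => hc h)]
  rw [h1]
  calc ∑ a ∈ Finset.univ.image c, s.count a
      ≤ ∑ a ∈ Finset.univ.image c ∪ s.toFinset, s.count a :=
        Finset.sum_le_sum_of_subset Finset.subset_union_left
    _ = Multiset.card s :=
        Multiset.sum_count_eq_card
          (fun a ha => Finset.mem_union_right _ (Multiset.mem_toFinset.mpr ha))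

section Fiber

variable (K) (x : F) [CharZero K] [hx : Fact (Transcendental K x)] [Module.Finite K⟮x⟯ F]

/-- A function, integral over `K[x]`, with pairwise distinct values and simple at the places
over `x = α`. -/
theorem exists_simple_separating (α : K) :
    ∃ (y : integralClosure (Algebra.adjoin K {x}) F)
      (c : (fiberPrime K x α).asIdeal.primesOver (integralClosure (Algebra.adjoin K {x}) F) → K),
      Function.Injective c ∧
        ∀ q, (fiberPlace K x α q).ord ((y : F) - algebraMap K F (c q)) = 1 := by
  classical
  let c : (fiberPrime K x α).asIdeal.primesOver (integralClosure (Algebra.adjoin K {x}) F) → K :=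
    fun q => ((Fintype.equivFin _ q : ℕ) : K)
  have hcinj : Function.Injective c := by
    intro q q' h
    have h1 : ((Fintype.equivFin _ q : ℕ)) = (Fintype.equivFin _ q' : ℕ) := Nat.cast_injective h
    exact (Fintype.equivFin _).injective (Fin.ext h1)
  have hne : ∀ q : (fiberPrime K x α).asIdeal.primesOver
      (integralClosure (Algebra.adjoin K {x}) F), q.1 ≠ ⊥ := fun q =>
    Ideal.ne_bot_of_mem_primesOver (fiberPrime K x α).ne_bot q.2
  have hprime : ∀ q : (fiberPrime K x α).asIdeal.primesOver
      (integralClosure (Algebra.adjoin K {x}) F), q.1.IsPrime := fun q => q.2.1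
  have hπ : ∀ q : (fiberPrime K x α).asIdeal.primesOver
      (integralClosure (Algebra.adjoin K {x}) F),
      ∃ π : integralClosure (Algebra.adjoin K {x}) F, π ∈ q.1 ∧ π ∉ q.1 ^ 2 := by
    intro q
    have hlt := Ideal.pow_lt_self q.1 (hne q) (hprime q).ne_top 2 le_rfl
    exact SetLike.exists_of_lt hlt
  choose π hπ1 hπ2 using hπ
  obtain ⟨y, hy⟩ := IsDedekindDomain.exists_forall_sub_mem_ideal
    (s := (Finset.univ : Finset ((fiberPrime K x α).asIdeal.primesOver
      (integralClosure (Algebra.adjoin K {x}) F))))
    (fun q => q.1) (fun _ => 2) (fun q _ => Ideal.prime_of_isPrime (hne q) (hprime q))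
    (fun q _ q' _ hqq' h => hqq' (Subtype.ext h))
    (fun q => algebraMap K (integralClosure (Algebra.adjoin K {x}) F) (c q.1) + π q.1)
  refine ⟨y, c, hcinj, fun q => ?_⟩
  set w : HeightOneSpectrum (integralClosure (Algebra.adjoin K {x}) F) :=
    ⟨q.1, q.2.1, hne q⟩ with hw
  have hplace : fiberPlace K x α q = Place.ofHeightOneSpectrum (K := K) (F := F) w := rfl
  rw [hplace]
  set z : integralClosure (Algebra.adjoin K {x}) F :=
    y - (algebraMap K (integralClosure (Algebra.adjoin K {x}) F) (c q) + π q) with hz
  have hzmem : z ∈ w.asIdeal ^ 2 := hy q (Finset.mem_univ q)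
  have hπ0 : π q ≠ 0 := by
    intro h0
    exact hπ2 q (h0 ▸ Ideal.zero_mem _)
  have hπ0' : algebraMap (integralClosure (Algebra.adjoin K {x}) F) F (π q) ≠ 0 := by
    simpa using (IsFractionRing.injective (integralClosure (Algebra.adjoin K {x}) F) F).ne hπ0
  have hordπ : (Place.ofHeightOneSpectrum (K := K) (F := F) w).ord
      (algebraMap (integralClosure (Algebra.adjoin K {x}) F) F (π q)) = 1 := by
    have hπmem : π q ∈ w.asIdeal ^ 1 := by
      rw [pow_one]
      exact hπ1 q
    have h1 := (mem_pow_iff_le_ord (K := K) (F := F) w hπ0 1).mp hπmem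
    have h2 : ¬ ((2 : ℕ) : ℤ) ≤ (Place.ofHeightOneSpectrum (K := K) (F := F) w).ord
        (algebraMap (integralClosure (Algebra.adjoin K {x}) F) F (π q)) :=
      fun h => hπ2 q ((mem_pow_iff_le_ord (K := K) (F := F) w hπ0 2).mpr h)
    push_cast at h1 h2
    omega
  have hsplit : (y : F) - algebraMap K F (c q)
      = algebraMap (integralClosure (Algebra.adjoin K {x}) F) F (π q)
        + algebraMap (integralClosure (Algebra.adjoin K {x}) F) F z := by
    have e1 : algebraMap (integralClosure (Algebra.adjoin K {x}) F) F
        (algebraMap K (integralClosure (Algebra.adjoin K {x}) F) (c q))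
        = algebraMap K F (c q) :=
      (IsScalarTower.algebraMap_apply K (integralClosure (Algebra.adjoin K {x}) F) F (c q)).symm
    have e3 : algebraMap (integralClosure (Algebra.adjoin K {x}) F) F y = (y : F) := rfl
    rw [hz, map_sub, map_add, e1, e3]
    ring
  by_cases hz0 : z = 0
  · rw [hsplit, hz0, map_zero, add_zero]
    exact hordπ
  · have hz0' : algebraMap (integralClosure (Algebra.adjoin K {x}) F) F z ≠ 0 := by
      simpa using (IsFractionRing.injective (integralClosure (Algebra.adjoin K {x}) F) F).ne hz0
    have hordz := (mem_pow_iff_le_ord (K := K) (F := F) w hz0 2).mp hzmem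
    push_cast at hordz
    rw [hsplit, ord_add_eq_of_lt _ (by rw [hordπ]; omega) hπ0' hz0', hordπ]

/-- The ramification indices in the fibre, indexed by the primes over `(x - α)`. -/
theorem sum_ord_fiberPlace [IsAlgClosed K] (htr : Algebra.trdeg K F = 1) (α : K) :
    ∑ q : (fiberPrime K x α).asIdeal.primesOver (integralClosure (Algebra.adjoin K {x}) F),
      (fiberPlace K x α q).ord (x - algebraMap K F α) = (Module.finrank K⟮x⟯ F : ℤ) := by
  rw [← sum_ord_fiber K x htr α, ← range_fiberPlace K x α,
    finsum_mem_range (fiberPlace_injective K x α), finsum_eq_sum_of_fintype]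

/-- **Independence modulo `x - α`.**  If `y` has pairwise distinct values and is simple at the
places over `x = α`, a relation `q(y) = (x - α) * r` with `r` regular wherever `x` is regular and
`q ≠ 0` forces `deg q ≥ [F : K(x)]`. -/
theorem finrank_le_natDegree [IsAlgClosed K] (htr : Algebra.trdeg K F = 1) (α : K)
    (y : integralClosure (Algebra.adjoin K {x}) F)
    (c : (fiberPrime K x α).asIdeal.primesOver (integralClosure (Algebra.adjoin K {x}) F) → K)
    (hc : Function.Injective c)
    (hy : ∀ q, (fiberPlace K x α q).ord ((y : F) - algebraMap K F (c q)) = 1)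
    (p : Polynomial K) (hp : p ≠ 0) (r : F) (hr : r ∈ regWhere K x)
    (h : Polynomial.aeval (y : F) p = (x - algebraMap K F α) * r) :
    Module.finrank K⟮x⟯ F ≤ p.natDegree := by
  classical
  have hkey : ∀ q, (fiberPlace K x α q).ord (x - algebraMap K F α)
      ≤ (p.rootMultiplicity (c q) : ℤ) := by
    intro q
    set v := fiberPlace K x α q with hv
    have hpos : 0 < v.ord (x - algebraMap K F α) := by
      have hmem : v ∈ Set.range (fiberPlace K x α) := ⟨q, rfl⟩
      rw [range_fiberPlace] at hmem
      exact hmem
    have hxa : x - algebraMap K F α ∈ v.toValuationSubring := mem_of_ord_pos v hpos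
    have hxv : x ∈ v.toValuationSubring := by
      have := add_mem hxa (v.algebraMap_mem' α)
      simpa using this
    have hxa0 : x - algebraMap K F α ≠ 0 := by
      intro h0
      rw [h0, Place.ord_zero] at hpos
      exact lt_irrefl _ hpos
    obtain ⟨p₁, hp₁, hnd⟩ := p.exists_eq_pow_rootMultiplicity_mul_and_not_dvd hp (c q)
    set m := p.rootMultiplicity (c q) with hm
    have hp₁c : p₁.eval (c q) ≠ 0 := by
      intro h0
      exact hnd (Polynomial.dvd_iff_isRoot.mpr h0)
    set t : F := (y : F) - algebraMap K F (c q) with ht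
    have ht1 : v.ord t = 1 := hy q
    have ht0 : t ≠ 0 := by
      intro h0
      rw [h0, Place.ord_zero] at ht1
      exact zero_ne_one ht1
    -- the value of `p₁` at `y`
    obtain ⟨s, hs⟩ := Polynomial.sub_dvd_eval_sub y
      (algebraMap K (integralClosure (Algebra.adjoin K {x}) F) (c q))
      (p₁.map (algebraMap K (integralClosure (Algebra.adjoin K {x}) F)))
    rw [Polynomial.eval_map_algebraMap, Polynomial.eval_map_algebraMap,
      Polynomial.aeval_algebraMap_apply_eq_algebraMap_eval] at hs
    have hsF : Polynomial.aeval (y : F) p₁ = algebraMap K F (p₁.eval (c q)) + t * (s : F) := by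
      have h1 := congrArg (algebraMap (integralClosure (Algebra.adjoin K {x}) F) F) hs
      rw [map_sub, map_mul, map_sub, ← Polynomial.aeval_algebraMap_apply,
        ← IsScalarTower.algebraMap_apply K (integralClosure (Algebra.adjoin K {x}) F) F,
        ← IsScalarTower.algebraMap_apply K (integralClosure (Algebra.adjoin K {x}) F) F] at h1
      have e3 : algebraMap (integralClosure (Algebra.adjoin K {x}) F) F y = (y : F) := rfl
      have e4 : algebraMap (integralClosure (Algebra.adjoin K {x}) F) F s = (s : F) := rfl
      rw [e3, e4] at h1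
      rw [ht]
      linear_combination h1
    have hsmem : (s : F) ∈ v.toValuationSubring :=
      mem_of_isIntegral v (algebraMap_adjoin_mem v hxv) s.2
    have hκ0 : algebraMap K F (p₁.eval (c q)) ≠ 0 := by
      simpa using hp₁c
    have hval : Polynomial.aeval (y : F) p₁ ≠ 0 ∧ v.ord (Polynomial.aeval (y : F) p₁) = 0 := by
      rw [hsF]
      by_cases hs0 : (s : F) = 0
      · rw [hs0, mul_zero, add_zero]
        exact ⟨hκ0, ord_algebraMap v _⟩
      · have hts0 : t * (s : F) ≠ 0 := mul_ne_zero ht0 hs0
        have hord_ts : 1 ≤ v.ord (t * (s : F)) := by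
          rw [v.ord_mul ht0 hs0, ht1]
          have := ord_nonneg_of_mem v hsmem
          omega
        have hlt : v.ord (algebraMap K F (p₁.eval (c q))) < v.ord (t * (s : F)) := by
          rw [ord_algebraMap]
          omega
        refine ⟨?_, by rw [ord_add_eq_of_lt v hlt hκ0 hts0, ord_algebraMap]⟩
        intro h0
        have h2 : t * (s : F) = -algebraMap K F (p₁.eval (c q)) := by
          linear_combination h0
        rw [h2, ord_neg, ord_algebraMap] at hord_ts
        omega
    have hfac : Polynomial.aeval (y : F) p = t ^ m * Polynomial.aeval (y : F) p₁ := by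
      conv_lhs => rw [hp₁]
      rw [map_mul, map_pow, map_sub, Polynomial.aeval_X, Polynomial.aeval_C]
    have hpow : v.ord (t ^ m) = (m : ℤ) := by
      have h1 := v.ord_zpow t (m : ℤ)
      rw [zpow_natCast] at h1
      rw [h1, ht1, mul_one]
    have hord_p : v.ord (Polynomial.aeval (y : F) p) = (m : ℤ) := by
      rw [hfac, v.ord_mul (pow_ne_zero _ ht0) hval.1, hval.2, add_zero, hpow]
    have hp0 : Polynomial.aeval (y : F) p ≠ 0 := by
      rw [hfac]
      exact mul_ne_zero (pow_ne_zero _ ht0) hval.1
    have hr0 : r ≠ 0 := by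
      rintro rfl
      rw [mul_zero] at h
      exact hp0 h
    have hrv : 0 ≤ v.ord r := ord_nonneg_of_mem v (hr v hxv)
    rw [h, v.ord_mul hxa0 hr0] at hord_p
    omega
  have h1 : (Module.finrank K⟮x⟯ F : ℤ) ≤ ∑ q, (p.rootMultiplicity (c q) : ℤ) := by
    rw [← sum_ord_fiberPlace K x htr α]
    exact Finset.sum_le_sum fun q _ => hkey q
  have h2 : ∑ q, p.rootMultiplicity (c q) ≤ p.natDegree := by
    calc ∑ q, p.rootMultiplicity (c q) = ∑ q, p.roots.count (c q) := by
          simp [Polynomial.count_roots]
      _ ≤ Multiset.card p.roots := sum_count_le_card c hc p.roots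
      _ ≤ p.natDegree := p.card_roots'
  have h3 : (Module.finrank K⟮x⟯ F : ℤ) ≤ (p.natDegree : ℤ) := by
    refine le_trans h1 ?_
    exact_mod_cast h2
  exact_mod_cast h3

end Fiber

/-- The basis of a chart is linearly independent over `K(x)`; so its length is at most
`[F : K(x)]`. -/
theorem card_le_finrank_of_isChart {x : F} (hx : Transcendental K x) [Module.Finite K⟮x⟯ F]
    {n : ℕ} {w : Fin n → F} (hw : IsChart K x w) : n ≤ Module.finrank K⟮x⟯ F := by
  classical
  have hli : LinearIndependent K⟮x⟯ w := by
    rw [Fintype.linearIndependent_iff]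
    intro g hg i
    have hrs : ∀ i, ∃ r s : Polynomial K, s ≠ 0 ∧
        (g i : F) * Polynomial.aeval x s = Polynomial.aeval x r := by
      intro i
      obtain ⟨r, s, hrs⟩ := (IntermediateField.mem_adjoin_simple_iff K (g i : F)).mp (g i).2
      by_cases hs : Polynomial.aeval x s = 0
      · refine ⟨0, 1, one_ne_zero, ?_⟩
        rw [hrs, hs, div_zero, zero_mul, map_zero]
      · refine ⟨r, s, ?_, ?_⟩
        · rintro rfl
          exact hs (map_zero _)
        · rw [hrs, div_mul_cancel₀ _ hs]
    choose r s hs hrs using hrs
    set c : Fin n → Polynomial K := fun i => r i * ∏ l ∈ Finset.univ.erase i, s l with hc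
    have hsum : ∑ i, Polynomial.aeval x (c i) * w i = 0 := by
      have h1 : ∀ i, Polynomial.aeval x (c i) = (g i : F) * Polynomial.aeval x (∏ l, s l) := by
        intro i
        have h2 : c i = r i * ∏ l ∈ Finset.univ.erase i, s l := rfl
        rw [h2, map_mul, ← hrs i, mul_assoc, ← map_mul,
          Finset.mul_prod_erase Finset.univ s (Finset.mem_univ i)]
      have h2 : ∑ i, Polynomial.aeval x (c i) * w i
          = Polynomial.aeval x (∏ l, s l) * ∑ i, g i • w i := by
        rw [Finset.mul_sum]
        refine Finset.sum_congr rfl fun i _ => ?_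
        rw [h1 i, Algebra.smul_def, IntermediateField.algebraMap_apply]
        ring
      rw [h2, hg, mul_zero]
    have hc0 := hw.eq_zero_of_sum_eq_zero c hsum
    have hci : r i * ∏ l ∈ Finset.univ.erase i, s l = 0 := by
      have h2 : c i = 0 := by rw [hc0]; rfl
      exact h2
    have hri : r i = 0 := by
      rcases mul_eq_zero.mp hci with h | h
      · exact h
      · exfalso
        rw [Finset.prod_eq_zero_iff] at h
        obtain ⟨l, _, hl⟩ := h
        exact hs l hl
    have hgi : (g i : F) * Polynomial.aeval x (s i) = 0 := by rw [hrs i, hri, map_zero]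
    have hsi : Polynomial.aeval x (s i) ≠ 0 := fun h0 =>
      hs i ((transcendental_iff.mp hx) (s i) h0)
    have h3 : (g i : F) = 0 := (mul_eq_zero.mp hgi).resolve_right hsi
    exact_mod_cast h3
  have h4 := hli.fintype_card_le_finrank
  simpa using h4

variable [IsAlgClosed K] [CharZero K] [Algebra.EssFiniteType K F]

/-- **Local monogenicity of a chart at `α`.**  There is `y`, regular wherever `x` is regular,
whose powers `1, y, .., y ^ (n - 1)` have in the basis `w` a coordinate matrix `M` over `K[X]`
with `(det M)(α) ≠ 0`. -/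
theorem exists_local_generator (htr : Algebra.trdeg K F = 1) {x : F} (hx : Transcendental K x)
    {n : ℕ} {w : Fin n → F} (hw : IsChart K x w) (α : K) :
    ∃ (y : F) (M : Matrix (Fin n) (Fin n) (Polynomial K)), y ∈ regWhere K x ∧
      (∀ j : Fin n, y ^ (j : ℕ) = ∑ i, Polynomial.aeval x (M j i) * w i) ∧
      M.det.eval α ≠ 0 := by
  classical
  have : Fact (Transcendental K x) := ⟨hx⟩
  have : Module.Finite K⟮x⟯ F := finite_adjoin_simple htr hx
  obtain ⟨y, c, hc, hy⟩ := exists_simple_separating K x α
  have hyreg : (y : F) ∈ regWhere K x := mem_regWhere_of_isIntegral y.2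
  have hrep : ∀ j : Fin n, ∃ cj : Fin n → Polynomial K,
      (y : F) ^ (j : ℕ) = ∑ i, Polynomial.aeval x (cj i) * w i := by
    intro j
    obtain ⟨cj, hcj, -⟩ := hw.rep ((y : F) ^ (j : ℕ)) (Subalgebra.pow_mem _ hyreg _)
    exact ⟨cj, hcj⟩
  choose M hM using hrep
  refine ⟨(y : F), Matrix.of M, hyreg, fun j => hM j, ?_⟩
  intro hdet
  -- the matrix evaluated at `α` is singular
  have hdet' : (Matrix.of fun j i => (M j i).eval α).det = 0 := by
    have h1 := RingHom.map_det (Polynomial.evalRingHom α) (Matrix.of M)
    rw [Polynomial.coe_evalRingHom, hdet] at h1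
    rw [h1]
    rfl
  obtain ⟨a, ha0, ha⟩ := Matrix.exists_vecMul_eq_zero_iff.mpr hdet'
  set p : Polynomial K := ∑ j : Fin n, Polynomial.C (a j) * Polynomial.X ^ (j : ℕ) with hp
  have hcoeff : ∀ j : Fin n, p.coeff (j : ℕ) = a j := by
    intro j
    rw [hp, Polynomial.finsetSum_coeff]
    rw [Finset.sum_eq_single j]
    · rw [Polynomial.coeff_C_mul_X_pow, if_pos rfl]
    · intro l _ hl
      rw [Polynomial.coeff_C_mul_X_pow, if_neg]
      intro h
      exact hl (Fin.ext h.symm)
    · intro h
      exact absurd (Finset.mem_univ j) h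
  have hp0 : p ≠ 0 := by
    obtain ⟨j, hj⟩ := Function.ne_iff.mp ha0
    intro h0
    apply hj
    rw [← hcoeff j, h0, Polynomial.coeff_zero]
    rfl
  have hpdeg : p.natDegree < n := by
    have h1 := Polynomial.degree_sum_fin_lt a
    rw [← hp] at h1
    exact (Polynomial.natDegree_lt_iff_degree_lt hp0).mpr h1
  -- the coordinates of `p(y)` vanish at `α`
  set d : Fin n → Polynomial K := fun i => ∑ j : Fin n, Polynomial.C (a j) * M j i with hd
  have hdα : ∀ i, (d i).eval α = 0 := by
    intro i
    have h1 := congrFun ha i
    rw [Matrix.vecMul, dotProduct] at h1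
    have h2 : (d i).eval α = ∑ j : Fin n, a j * (M j i).eval α := by
      rw [hd]
      simp only [Polynomial.eval_finsetSum, Polynomial.eval_mul, Polynomial.eval_C]
    rw [h2]
    exact h1
  have hd' : ∀ i, ∃ d' : Polynomial K, d i = (Polynomial.X - Polynomial.C α) * d' := by
    intro i
    exact Polynomial.dvd_iff_isRoot.mpr (hdα i)
  choose d' hd' using hd'
  have hpy : Polynomial.aeval (y : F) p
      = (x - algebraMap K F α) * ∑ i, Polynomial.aeval x (d' i) * w i := by
    have h1 : Polynomial.aeval (y : F) p = ∑ i, Polynomial.aeval x (d i) * w i := by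
      rw [hp, map_sum]
      have h2 : ∀ j : Fin n, Polynomial.aeval (y : F) (Polynomial.C (a j) * Polynomial.X ^ (j : ℕ))
          = ∑ i, Polynomial.aeval x (Polynomial.C (a j) * M j i) * w i := by
        intro j
        rw [map_mul, map_pow, Polynomial.aeval_X, Polynomial.aeval_C, hM j, Finset.mul_sum]
        refine Finset.sum_congr rfl fun i _ => ?_
        rw [map_mul, Polynomial.aeval_C, mul_assoc]
      simp_rw [h2]
      rw [Finset.sum_comm]
      refine Finset.sum_congr rfl fun i _ => ?_
      rw [hd]
      simp only
      rw [map_sum, Finset.sum_mul]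
    rw [h1, Finset.mul_sum]
    refine Finset.sum_congr rfl fun i _ => ?_
    rw [hd' i, map_mul, map_sub, Polynomial.aeval_X, Polynomial.aeval_C, mul_assoc]
  have hr : (∑ i, Polynomial.aeval x (d' i) * w i) ∈ regWhere K x := hw.sum_mem d'
  have h1 := finrank_le_natDegree K x htr α y c hc hy p hp0 _ hr hpy
  have h2 := card_le_finrank_of_isChart hx hw
  omega

/-- **GEN.**  Finitely many local generators `y k` of a chart whose coordinate matrices `M k`
satisfy a Bezout identity `∑ k, u k * det (M k) = 1`. -/
theorem exists_generators (htr : Algebra.trdeg K F = 1) {x : F} (hx : Transcendental K x)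
    {n : ℕ} {w : Fin n → F} (hw : IsChart K x w) :
    ∃ (m : ℕ) (y : Fin m → F) (M : Fin m → Matrix (Fin n) (Fin n) (Polynomial K))
      (u : Fin m → Polynomial K),
      (∀ k, y k ∈ regWhere K x) ∧
      (∀ k (j : Fin n), y k ^ (j : ℕ) = ∑ i, Polynomial.aeval x (M k j i) * w i) ∧
      ∑ k, u k * (M k).det = 1 := by
  classical
  choose y M hyreg hyM hdet using exists_local_generator htr hx hw
  have htop : Ideal.span (Set.range fun α : K => (M α).det) = ⊤ := by
    by_contra hne
    obtain ⟨g, hg⟩ : ∃ g : Polynomial K,
        Ideal.span (Set.range fun α : K => (M α).det) = Ideal.span {g} :=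
      ⟨_, (Ideal.span_singleton_generator _).symm⟩
    have hgdvd : ∀ α, g ∣ (M α).det := by
      intro α
      have h1 : (M α).det ∈ Ideal.span {g} := by
        rw [← hg]
        exact Ideal.subset_span ⟨α, rfl⟩
      exact Ideal.mem_span_singleton.mp h1
    have hgunit : ¬ IsUnit g := by
      intro hu
      apply hne
      rw [hg, Ideal.span_singleton_eq_top]
      exact hu
    have hdeg : g.degree ≠ 0 := by
      intro h0
      exact hgunit (Polynomial.isUnit_iff_degree_eq_zero.mpr h0)
    obtain ⟨α₀, hα₀⟩ := IsAlgClosed.exists_root g hdeg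
    obtain ⟨q, hq⟩ := hgdvd α₀
    apply hdet α₀
    rw [hq, Polynomial.eval_mul, hα₀, zero_mul]
  have h1 : (1 : Polynomial K) ∈
      Submodule.span (Polynomial K) (Set.range fun α : K => (M α).det) := by
    have h2 : (1 : Polynomial K) ∈ Ideal.span (Set.range fun α : K => (M α).det) := by
      rw [htop]
      exact Submodule.mem_top
    exact h2
  obtain ⟨cf, hcf⟩ := Finsupp.mem_span_range_iff_exists_finsupp.mp h1
  refine ⟨cf.support.card, fun k => y (cf.support.equivFin.symm k),
    fun k => M (cf.support.equivFin.symm k), fun k => cf (cf.support.equivFin.symm k),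
    fun k => hyreg _, fun k j => hyM _ j, ?_⟩
  rw [← hcf, Finsupp.sum, ← Finset.sum_coe_sort cf.support (fun a => cf a • (M a).det)]
  exact Equiv.sum_comp cf.support.equivFin.symm (fun a : cf.support => cf a * (M a).det)

end Fermat.Agent.S17.H.Fib2.LocalMono
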