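/-
PROGRAM MW (S17), strand H, block D4 (FIB), racing twin "two charts": the CHART CLAIM (helper145).

The local claim of the two-chart proof on the unit disc of ONE chart, i.e. the chart lemma
(`ChartCore.chart_core_iSup`, helper274) fed with the curve leaves:

* the values of a `K[x]`-combination at a place (`Chart0.ev_of_repr`, `Chart0.ev_pow_of_repr`),
* the sizes of the basis on the unit disc (`Chart0.exists_size_bound`),
* the local generators with their Bezout identity (GEN, `LocalMono.exists_generators`, helper57).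

`chart_claim` : for a chart `IsChart K x w` of rank `n ≥ 2` (`x` transcendental) and functions
`φ a` regular wherever `x` is regular there is ONE pair `(c, Γ)` such that for every absolute value
`v` of `K`, every value function `ev`, every `α` with `v α ≤ 1` and all places `P l` (`l : Fin n`)
over `x = α`

`∏_{l ≠ l'} sup_{a,b} v (φ_a(P_l) φ_b(P_l') - φ_b(P_l) φ_a(P_l')) ≤ locConst c Γ v * v (det [w_i(P_l)]) ^ 2`.

The expression under `v` is `Glob.sigVec ev φ (P l) (P l') (a, b)` (by `rfl`).  Chart 0 is
`isChart_zero` with `α = x(P)`; chart infinity is `(x⁻¹, w')` with `α = 1 / x(P)`.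
`chart_claim_of_generators` is the same statement with the GEN data as hypotheses (no curve
hypothesis at all).
-/
import Mathlib
import Fermat.Agent.S17.H.Fib2.ChartCore
import Fermat.Agent.S17.H.Fib2.LocalMono
import Fermat.Agent.S17.H.Fib2.Chart0

set_option autoImplicit false
set_option linter.unusedSectionVars false
set_option linter.unusedVariables false

namespace Fermat.Agent.S17.H.Fib2.ChartClaim

open AlgebraicCurve Matrix
open Fermat.Agent.S17.H.Cert

variable {K F : Type*} [Field K] [Field F] [Algebra K F]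

/-- **The chart claim, from generators.**  The chart lemma read on a chart with given local
generators `y k` (coordinate matrices `M k`, Bezout identity `∑ k, u k * det (M k) = 1`). -/
theorem chart_claim_of_generators {x : F} {n : ℕ} (hn : 2 ≤ n) {w : Fin n → F}
    (hw : IsChart K x w) {m : ℕ} (y : Fin m → F)
    (M : Fin m → Matrix (Fin n) (Fin n) (Polynomial K)) (u : Fin m → Polynomial K)
    (hy : ∀ k, y k ∈ regWhere K x)
    (hyM : ∀ k (j : Fin n), y k ^ (j : ℕ) = ∑ i, Polynomial.aeval x (M k j i) * w i)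
    (hu : ∑ k, u k * (M k).det = 1)
    {r : ℕ} (φ : Fin r → F) (hφ : ∀ a, φ a ∈ regWhere K x) :
    ∃ (c : ℝ) (Γ : Multiset K), 1 ≤ c ∧
      ∀ (ev : Place K F → F → K), Glob.IsEval ev → ∀ (v : AbsoluteValue K ℝ) (α : K)
        (P : Fin n → Place K F), (∀ l, x ∈ (P l).toValuationSubring) → (∀ l, ev (P l) x = α) →
        v α ≤ 1 →
        ∏ q ∈ (Finset.univ : Finset (Fin n)).offDiag,
            (⨆ ab : Fin r × Fin r, v (ev (P q.1) (φ ab.1) * ev (P q.2) (φ ab.2) -
              ev (P q.1) (φ ab.2) * ev (P q.2) (φ ab.1)))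
          ≤ locConst c Γ v * v (Matrix.of fun l i => ev (P l) (w i)).det ^ 2 := by
  classical
  -- the coordinates of `φ`
  have hp' : ∀ a, ∃ c : Fin n → Polynomial K, φ a = ∑ i, Polynomial.aeval x (c i) * w i :=
    fun a => (hw.rep _ (hφ a)).exists
  choose p hp using hp'
  obtain ⟨c1, Γ1, E, hc1, hcore⟩ := chart_core_iSup hn p M u hu
  obtain ⟨c2, Γ2, hc2, hsize⟩ := Chart0.exists_size_bound hw
  refine ⟨c1 * c2 ^ E, Γ1 + E • Γ2, one_le_mul_of_one_le_of_one_le hc1 (one_le_pow₀ hc2), ?_⟩
  intro ev hev v α P hxP hα hvα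
  obtain ⟨W, hWdef⟩ : ∃ W : Matrix (Fin n) (Fin n) K, W = Matrix.of fun l i => ev (P l) (w i) :=
    ⟨_, rfl⟩
  have hWa : ∀ l i, W l i = ev (P l) (w i) := fun l i => by rw [hWdef]; rfl
  rw [← hWdef]
  have hB : 1 ≤ locConst c2 Γ2 v := one_le_locConst hc2 Γ2 v
  have hWB : ∀ l i, v (W l i) ≤ locConst c2 Γ2 v := by
    intro l i
    rw [hWa]
    exact hsize ev hev v (P l) (hxP l) (by rw [hα l]; exact hvα) i
  have hy' : ∀ k l (j : Fin n),
      (fun k l => ev (P l) (y k)) k l ^ (j : ℕ) = ∑ i, ((M k) j i).eval α * W l i := by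
    intro k l j
    have h1 := Chart0.ev_pow_of_repr hev hw.mem (hxP l) (fun i => M k j i)
      (hy k (P l) (hxP l)) (j : ℕ) (hyM k j)
    rw [hα l] at h1
    rw [h1]
    exact Finset.sum_congr rfl fun i _ => by rw [hWa]
  have key := hcore v α (locConst c2 Γ2 v) W (fun k l => ev (P l) (y k)) hvα hB hWB hy'
  have hθ : ∀ l a, chartTheta p α W l a = ev (P l) (φ a) := by
    intro l a
    have h1 := Chart0.ev_of_repr hev hw.mem (hxP l) (p a) (hp a)
    rw [hα l] at h1
    rw [h1]
    unfold chartTheta
    exact Finset.sum_congr rfl fun i _ => by rw [hWa]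
  have hsig : ∀ (q : Fin n × Fin n) (ab : Fin r × Fin r),
      chartSig p α W q.1 q.2 ab.1 ab.2 =
        ev (P q.1) (φ ab.1) * ev (P q.2) (φ ab.2) - ev (P q.1) (φ ab.2) * ev (P q.2) (φ ab.1) := by
    intro q ab
    unfold chartSig
    rw [hθ, hθ, hθ, hθ]
  simp only [hsig] at key
  refine le_trans key (le_of_eq ?_)
  rw [locConst_pow, locConst_mul]

variable [IsAlgClosed K] [CharZero K] [Algebra.EssFiniteType K F]

/-- **The chart claim.**  On the unit disc of a chart of rank `n ≥ 2` the product over the ordered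
pairs of points of a fibre of the sizes of the secant vectors is bounded by a constant of product
type times the square of the determinant of the value matrix of the basis. -/
theorem chart_claim (htr : Algebra.trdeg K F = 1) {x : F} (hx : Transcendental K x) {n : ℕ}
    (hn : 2 ≤ n) {w : Fin n → F} (hw : IsChart K x w) {r : ℕ} (φ : Fin r → F)
    (hφ : ∀ a, φ a ∈ regWhere K x) :
    ∃ (c : ℝ) (Γ : Multiset K), 1 ≤ c ∧
      ∀ (ev : Place K F → F → K), Glob.IsEval ev → ∀ (v : AbsoluteValue K ℝ) (α : K)
        (P : Fin n → Place K F), (∀ l, x ∈ (P l).toValuationSubring) → (∀ l, ev (P l) x = α) →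
        v α ≤ 1 →
        ∏ q ∈ (Finset.univ : Finset (Fin n)).offDiag,
            (⨆ ab : Fin r × Fin r, v (ev (P q.1) (φ ab.1) * ev (P q.2) (φ ab.2) -
              ev (P q.1) (φ ab.2) * ev (P q.2) (φ ab.1)))
          ≤ locConst c Γ v * v (Matrix.of fun l i => ev (P l) (w i)).det ^ 2 := by
  obtain ⟨m, y, M, u, hy, hyM, hu⟩ := LocalMono.exists_generators htr hx hw
  exact chart_claim_of_generators hn hw y M u hy hyM hu φ hφ

end Fermat.Agent.S17.H.Fib2.ChartClaim
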