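/-
MW strand H, block D4, two-chart twin, leaf CHoo: the chart at infinity.

`F / K` a function field of one variable over an algebraically closed field of characteristic
zero, `v₀` a place, `x` regular off `v₀` with a pole of order `n0 > 0` at `v₀`, and `(ν, w)` an
Apery basis of `regOff v₀` over `K[x]` (the conclusion of leaf R14, `R.exists_apery_basis`,
taken as hypotheses).  Put `cc i := ⌈ν i / n0⌉ = (ν i + n0 - 1) / n0` and
`w' i := w i * x⁻¹ ^ cc i`.  Then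

* `isChart_inv`      : `w'` is a `K[x⁻¹]`-basis of `regWhere K x⁻¹`, the ring of the functions
                       regular wherever `x⁻¹` is regular (chart infinity);
* `sum_ceil`         : `∑ cc i = gR + n0 - 1`;
* `coords_inv`       : a function `φ ∈ L(n0 μ v₀)` with chart-0 coordinates `p i` has
                       `deg p i + cc i ≤ μ`, and `φ * x⁻¹ ^ μ` has the chart-infinity coordinates
                       `reflect (μ - cc i) (p i)`;
* `exists_unit_comb` : `x⁻¹ ^ μ` and `φ₁ * x⁻¹ ^ μ`, `φ₁ ∈ L(n0 μ v₀)` of exact pole order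
                       `n0 μ`, generate the unit ideal of `regWhere K x⁻¹`;
* `finrank_adjoin_eq`, `finrank_adjoin_inv_eq` : `[F : K(x)] = [F : K(x⁻¹)] = n0`.
-/
import Mathlib
import Fermat.Prelude.Def_AlgebraicCurve_Repartitions
import Fermat.Agent.S24.FF.Principal
import Fermat.Agent.S24.FF.Residue
import Fermat.Agent.S24.FF.Dedekind
import Fermat.Agent.S17.R.LSpace
import Fermat.Agent.S17.R.Eval
import Fermat.Agent.S17.R.Apery
import Fermat.Agent.S17.H.Fib2.Chart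

set_option autoImplicit false
set_option linter.unusedSectionVars false
set_option linter.unusedVariables false
set_option linter.style.haveILetI false

namespace Fermat.Agent.S17.H.Fib2

open AlgebraicCurve
open Fermat.Agent.S24

namespace ChartInf

section Arith

/-- `⌈ν / n0⌉ = ⌊ν / n0⌋ + [n0 ∤ ν]`. -/
theorem ceil_eq {n0 : ℕ} (hn0 : 0 < n0) (ν : ℕ) :
    (ν + n0 - 1) / n0 = ν / n0 + if ν % n0 = 0 then 0 else 1 := by
  have h := Nat.div_add_mod ν n0
  have hr := Nat.mod_lt ν hn0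
  split_ifs with h0
  · rw [add_zero]
    apply Nat.div_eq_of_lt_le
    · have h1 : ν / n0 * n0 = n0 * (ν / n0) := Nat.mul_comm _ _
      omega
    · have h1 : (ν / n0 + 1) * n0 = n0 * (ν / n0) + n0 := by ring
      omega
  · apply Nat.div_eq_of_lt_le
    · have h1 : (ν / n0 + 1) * n0 = n0 * (ν / n0) + n0 := by ring
      omega
    · have h1 : (ν / n0 + 1 + 1) * n0 = n0 * (ν / n0) + n0 + n0 := by ring
      omega

theorem le_mul_ceil {n0 : ℕ} (hn0 : 0 < n0) (ν : ℕ) : ν ≤ n0 * ((ν + n0 - 1) / n0) := by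
  have h := Nat.div_add_mod ν n0
  have hr := Nat.mod_lt ν hn0
  rw [ceil_eq hn0]
  split_ifs with h0
  · rw [add_zero]
    omega
  · rw [Nat.mul_add, Nat.mul_one]
    omega

theorem add_ceil_le {n0 : ℕ} (hn0 : 0 < n0) {d ν k : ℕ} (h : n0 * d + ν ≤ n0 * k) :
    d + (ν + n0 - 1) / n0 ≤ k := by
  have hdk : d ≤ k := by
    rcases Nat.lt_or_ge k d with hlt | hge
    · exfalso
      have h1 : n0 * (k + 1) ≤ n0 * d := Nat.mul_le_mul_left _ hlt
      have h2 : n0 * (k + 1) = n0 * k + n0 := by ring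
      omega
    · exact hge
  obtain ⟨e, rfl⟩ := Nat.exists_eq_add_of_le hdk
  have h1 : n0 * (d + e) = n0 * d + n0 * e := Nat.mul_add _ _ _
  have h2 : (ν + n0 - 1) / n0 < e + 1 := by
    rw [Nat.div_lt_iff_lt_mul hn0]
    have h3 : (e + 1) * n0 = n0 * e + n0 := by ring
    omega
  omega

theorem mul_ceil_eq {n0 : ℕ} (hn0 : 0 < n0) (ν r : ℕ) (hr : r < n0)
    (hν : ν % n0 = (n0 - r) % n0) : n0 * ((ν + n0 - 1) / n0) = ν + r := by
  have h := Nat.div_add_mod ν n0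
  rw [ceil_eq hn0]
  rcases Nat.eq_zero_or_pos r with h0 | hpos
  · subst h0
    rw [Nat.sub_zero, Nat.mod_self] at hν
    rw [if_pos hν, add_zero]
    omega
  · have h1 : (n0 - r) % n0 = n0 - r := Nat.mod_eq_of_lt (by omega)
    rw [h1] at hν
    rw [if_neg (by omega), Nat.mul_add, Nat.mul_one]
    omega

theorem sum_range_ite (n : ℕ) :
    ∑ i ∈ Finset.range (n + 1), (if i = 0 then 0 else 1 : ℕ) = n := by
  induction n with
  | zero => simp
  | succ n ih =>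
    rw [Finset.sum_range_succ, ih]
    simp

end Arith

section Ord

variable {K F : Type*} [Field K] [Field F] [Algebra K F]

theorem ord_pow (v : Place K F) (f : F) (k : ℕ) : v.ord (f ^ k) = (k : ℤ) * v.ord f := by
  rw [← zpow_natCast, v.ord_zpow]

theorem inv_mem_iff (v : Place K F) {x : F} (hx0 : x ≠ 0) :
    x⁻¹ ∈ v.toValuationSubring ↔ v.ord x ≤ 0 := by
  rw [← FF.ord_nonneg_iff v (inv_ne_zero hx0), v.ord_inv]
  omega

theorem pow_mul_inv_pow {x : F} (hx0 : x ≠ 0) (N : ℕ) : x ^ N * x⁻¹ ^ N = 1 := by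
  rw [← mul_pow, mul_inv_cancel₀ hx0, one_pow]

/-- `p(x) = x ^ N * (reflect N p)(x⁻¹)`. -/
theorem aeval_inv_reflect_mul_pow {x : F} (hx0 : x ≠ 0) (N : ℕ) (p : Polynomial K)
    (hp : p.natDegree ≤ N) :
    Polynomial.aeval x⁻¹ (p.reflect N) * x ^ N = Polynomial.aeval x p := by
  letI : Invertible x := invertibleOfNonzero hx0
  have h := Polynomial.eval₂_reflect_mul_pow (algebraMap K F) x N p hp
  rw [invOf_eq_inv] at h
  rw [Polynomial.aeval_def, Polynomial.aeval_def]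
  exact h

/-- `p(x⁻¹) = x⁻¹ ^ N * (reflect N p)(x)`. -/
theorem aeval_reflect_mul_inv_pow {x : F} (hx0 : x ≠ 0) (N : ℕ) (p : Polynomial K)
    (hp : p.natDegree ≤ N) :
    Polynomial.aeval x (p.reflect N) * x⁻¹ ^ N = Polynomial.aeval x⁻¹ p := by
  have h := aeval_inv_reflect_mul_pow (inv_ne_zero hx0) N p hp
  rwa [inv_inv] at h

/-- One term of the passage from chart 0 to chart infinity. -/
theorem term_inv {x : F} (hx0 : x ≠ 0) (p : Polynomial K) (wi : F) {c k : ℕ}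
    (hp : p ≠ 0 → p.natDegree + c ≤ k) :
    Polynomial.aeval x p * wi * x⁻¹ ^ k =
      Polynomial.aeval x⁻¹ (p.reflect (k - c)) * (wi * x⁻¹ ^ c) := by
  by_cases hp0 : p = 0
  · rw [hp0, Polynomial.reflect_zero, map_zero, map_zero, zero_mul, zero_mul, zero_mul]
  · have h1 := hp hp0
    obtain ⟨N, hN⟩ : ∃ N, k = N + c := ⟨k - c, by omega⟩
    subst hN
    rw [Nat.add_sub_cancel]
    have h2 : p.natDegree ≤ N := by omega
    have h4 := aeval_inv_reflect_mul_pow hx0 N p h2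
    have h5 := pow_mul_inv_pow hx0 N
    rw [← h4, pow_add]
    linear_combination (Polynomial.aeval x⁻¹ (p.reflect N) * wi * x⁻¹ ^ c) * h5

/-- The members `w i / x ^ ⌈ν i / n0⌉` of the basis at infinity are regular wherever `1 / x`
is regular. -/
theorem basis_mem (v₀ : Place K F) {x : F} (hx : x ∈ R.regOff v₀) {n0 : ℕ} (hn0 : 0 < n0)
    (hord : v₀.ord x = -(n0 : ℤ)) {wi : F} {νi : ℕ} (hwi : wi ∈ R.regOff v₀)
    (hwo : v₀.ord wi = -(νi : ℤ)) :
    wi * x⁻¹ ^ ((νi + n0 - 1) / n0) ∈ regWhere K x⁻¹ := by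
  have hx0 : x ≠ 0 := by
    rintro rfl
    rw [Place.ord_zero] at hord
    omega
  intro v hv
  by_cases hvv : v = v₀
  · subst hvv
    by_cases hw0 : wi = 0
    · rw [hw0, zero_mul]
      exact zero_mem _
    · have hne : wi * x⁻¹ ^ ((νi + n0 - 1) / n0) ≠ 0 :=
        mul_ne_zero hw0 (pow_ne_zero _ (inv_ne_zero hx0))
      refine (FF.ord_nonneg_iff v hne).mp ?_
      rw [v.ord_mul hw0 (pow_ne_zero _ (inv_ne_zero hx0)), ord_pow, v.ord_inv, hord, hwo,
        neg_neg]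
      have h1 : (νi : ℤ) ≤ (((νi + n0 - 1) / n0 : ℕ) : ℤ) * (n0 : ℤ) := by
        have h2 : νi ≤ (νi + n0 - 1) / n0 * n0 := by
          rw [Nat.mul_comm]
          exact le_mul_ceil hn0 νi
        exact_mod_cast h2
      linarith
  · exact mul_mem (hwi v hvv) (pow_mem hv _)

/-- The pole-order control of leaf R14 as a degree bound: the chart-0 coordinates of a function
with pole order at most `n0 * k` at `v₀`. -/
theorem natDegree_add_ceil_le (v₀ : Place K F) {x : F} {n0 : ℕ} (hn0 : 0 < n0)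
    (ν : Fin n0 → ℕ) (w : Fin n0 → F)
    (hle : ∀ c : Fin n0 → Polynomial K, (∑ i, Polynomial.aeval x (c i) * w i) ≠ 0 →
      ∀ i, c i ≠ 0 → v₀.ord (∑ i, Polynomial.aeval x (c i) * w i) ≤
        -((n0 * (c i).natDegree + ν i : ℕ) : ℤ))
    {g : F} (hg0 : g ≠ 0) {k : ℕ} (hgo : -((n0 * k : ℕ) : ℤ) ≤ v₀.ord g)
    (p : Fin n0 → Polynomial K) (hp : g = ∑ i, Polynomial.aeval x (p i) * w i) (i : Fin n0)
    (hpi : p i ≠ 0) : (p i).natDegree + (ν i + n0 - 1) / n0 ≤ k := by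
  have h1 := hle p (by rw [← hp]; exact hg0) i hpi
  rw [← hp] at h1
  have h2 : n0 * (p i).natDegree + ν i ≤ n0 * k := by
    have h3 : -((n0 * k : ℕ) : ℤ) ≤ -((n0 * (p i).natDegree + ν i : ℕ) : ℤ) := le_trans hgo h1
    have h4 : ((n0 * (p i).natDegree + ν i : ℕ) : ℤ) ≤ ((n0 * k : ℕ) : ℤ) :=
      neg_le_neg_iff.mp h3
    exact_mod_cast h4
  exact add_ceil_le hn0 h2

/-- Freeness of the basis at infinity. -/
theorem eq_zero_of_sum_inv_eq_zero {x : F} (hx0 : x ≠ 0) {n0 : ℕ} (ν : Fin n0 → ℕ)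
    (w : Fin n0 → F) (h0 : IsChart K x w) (d : Fin n0 → Polynomial K)
    (hd : (∑ i, Polynomial.aeval x⁻¹ (d i) * (w i * x⁻¹ ^ ((ν i + n0 - 1) / n0))) = 0) :
    d = 0 := by
  classical
  obtain ⟨N, hN⟩ : ∃ N : ℕ, ∀ i, (d i).natDegree + (ν i + n0 - 1) / n0 ≤ N :=
    ⟨∑ i, ((d i).natDegree + (ν i + n0 - 1) / n0), fun i =>
      Finset.single_le_sum (f := fun i => (d i).natDegree + (ν i + n0 - 1) / n0)
        (fun _ _ => Nat.zero_le _) (Finset.mem_univ i)⟩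
  have h1 : (∑ i, Polynomial.aeval x ((d i).reflect (N - (ν i + n0 - 1) / n0)) * w i) = 0 := by
    have h2 : (∑ i, Polynomial.aeval x ((d i).reflect (N - (ν i + n0 - 1) / n0)) * w i) =
        (∑ i, Polynomial.aeval x⁻¹ (d i) * (w i * x⁻¹ ^ ((ν i + n0 - 1) / n0))) * x ^ N := by
      rw [Finset.sum_mul]
      refine Finset.sum_congr rfl fun i _ => ?_
      have hNi := hN i
      obtain ⟨M, hM⟩ : ∃ M, N = M + (ν i + n0 - 1) / n0 :=
        ⟨N - (ν i + n0 - 1) / n0, by omega⟩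
      rw [hM, Nat.add_sub_cancel]
      have h3 : (d i).natDegree ≤ M := by omega
      have h4 := aeval_reflect_mul_inv_pow hx0 M (d i) h3
      have h5 := pow_mul_inv_pow hx0 M
      have h6 := pow_mul_inv_pow hx0 ((ν i + n0 - 1) / n0)
      rw [← h4, pow_add]
      linear_combination
        (-(Polynomial.aeval x ((d i).reflect M) * w i) *
          (x ^ ((ν i + n0 - 1) / n0) * x⁻¹ ^ ((ν i + n0 - 1) / n0))) * h5 -
        (Polynomial.aeval x ((d i).reflect M) * w i) * h6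
    rw [h2, hd, zero_mul]
  have h7 := h0.eq_zero_of_sum_eq_zero _ h1
  funext i
  have h8 : (d i).reflect (N - (ν i + n0 - 1) / n0) = 0 := congrFun h7 i
  exact Polynomial.reflect_eq_zero_iff.mp h8

/-- Every order `j ≥ 0` at `v₀` is attained by a function regular wherever `1 / x` is. -/
theorem exists_ord_eq (v₀ : Place K F) {x : F} (hx : x ∈ R.regOff v₀) {n0 : ℕ} (hn0 : 0 < n0)
    (hord : v₀.ord x = -(n0 : ℤ)) (ν : Fin n0 → ℕ) (w : Fin n0 → F)
    (hw : ∀ i, w i ∈ R.regOff v₀ ∧ v₀.ord (w i) = -(ν i : ℤ) ∧ ν i % n0 = (i : ℕ))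
    (hw0 : ∀ i, w i ≠ 0) (j : ℕ) :
    ∃ u : F, u ∈ regWhere K x⁻¹ ∧ u ≠ 0 ∧ v₀.ord u = (j : ℤ) := by
  have hx0 : x ≠ 0 := by
    rintro rfl
    rw [Place.ord_zero] at hord
    omega
  have hr : j % n0 < n0 := Nat.mod_lt _ hn0
  obtain ⟨i, hi⟩ : ∃ i : Fin n0, ν i % n0 = (n0 - j % n0) % n0 :=
    ⟨⟨(n0 - j % n0) % n0, Nat.mod_lt _ hn0⟩, (hw _).2.2⟩
  have hc : (ν i + n0 - 1) / n0 * n0 = ν i + j % n0 := by
    rw [Nat.mul_comm]
    exact mul_ceil_eq hn0 (ν i) (j % n0) hr hi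
  have hxi : x⁻¹ ≠ 0 := inv_ne_zero hx0
  refine ⟨w i * x⁻¹ ^ ((ν i + n0 - 1) / n0) * x⁻¹ ^ (j / n0), ?_, ?_, ?_⟩
  · exact Subalgebra.mul_mem _ (basis_mem v₀ hx hn0 hord (hw i).1 (hw i).2.1)
      (Subalgebra.pow_mem _ (self_mem_regWhere x⁻¹) _)
  · exact mul_ne_zero (mul_ne_zero (hw0 i) (pow_ne_zero _ hxi)) (pow_ne_zero _ hxi)
  · rw [v₀.ord_mul (mul_ne_zero (hw0 i) (pow_ne_zero _ hxi)) (pow_ne_zero _ hxi),
      v₀.ord_mul (hw0 i) (pow_ne_zero _ hxi), ord_pow, ord_pow, v₀.ord_inv, hord, (hw i).2.1,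
      neg_neg]
    have h1 : j / n0 * n0 + j % n0 = j := by
      rw [Nat.mul_comm]
      exact Nat.div_add_mod j n0
    have h2 : (((ν i + n0 - 1) / n0 : ℕ) : ℤ) * (n0 : ℤ) = (ν i : ℤ) + ((j % n0 : ℕ) : ℤ) := by
      exact_mod_cast hc
    have h3 : ((j / n0 : ℕ) : ℤ) * (n0 : ℤ) + ((j % n0 : ℕ) : ℤ) = (j : ℤ) := by
      exact_mod_cast h1
    linarith

end Ord

section Curve

variable {K F : Type*} [Field K] [Field F] [Algebra K F]
variable [IsAlgClosed K] [CharZero K] [Algebra.EssFiniteType K F]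

/-- A function regular wherever `1 / x` is regular becomes regular off `v₀` after
multiplication by a power of `x`. -/
theorem exists_pow_mul_mem (htr : Algebra.trdeg K F = 1) (v₀ : Place K F) {x : F}
    (hx : x ∈ R.regOff v₀) (hx0 : x ≠ 0) {f : F} (hf : f ∈ regWhere K x⁻¹) :
    ∃ k : ℕ, x ^ k * f ∈ R.regOff v₀ := by
  classical
  by_cases hf0 : f = 0
  · refine ⟨0, ?_⟩
    rw [hf0, mul_zero]
    exact Subalgebra.zero_mem _
  · obtain ⟨k, hk⟩ : ∃ k : ℕ, ∀ v : Place K F, -v.ord f ≤ (k : ℤ) := by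
      refine ⟨∑ v ∈ (R.divOf K f).support, (-v.ord f).toNat, fun v => ?_⟩
      by_cases hs : v ∈ (R.divOf K f).support
      · have h1 : (-v.ord f).toNat ≤ ∑ v ∈ (R.divOf K f).support, (-v.ord f).toNat :=
          Finset.single_le_sum (f := fun v : Place K F => (-v.ord f).toNat)
            (fun _ _ => Nat.zero_le _) hs
        have h2 : -v.ord f ≤ ((-v.ord f).toNat : ℤ) := Int.self_le_toNat _
        have h3 : (((-v.ord f).toNat : ℕ) : ℤ) ≤
            ((∑ v ∈ (R.divOf K f).support, (-v.ord f).toNat : ℕ) : ℤ) := by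
          exact_mod_cast h1
        exact le_trans h2 h3
      · have h1 : R.divOf K f v = 0 := by
          by_contra h
          exact hs (Finsupp.mem_support_iff.mpr h)
        rw [R.divOf_apply htr] at h1
        rw [h1, neg_zero]
        exact Int.natCast_nonneg _
    refine ⟨k, fun v hv => ?_⟩
    by_cases hvx : v.ord x ≤ 0
    · exact mul_mem (pow_mem (hx v hv) _) (hf v ((inv_mem_iff v hx0).mpr hvx))
    · have hne : x ^ k * f ≠ 0 := mul_ne_zero (pow_ne_zero _ hx0) hf0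
      refine (FF.ord_nonneg_iff v hne).mp ?_
      rw [v.ord_mul (pow_ne_zero _ hx0) hf0, ord_pow]
      have hx1 : 1 ≤ v.ord x := by omega
      have hk0 : (0 : ℤ) ≤ (k : ℤ) := Int.natCast_nonneg _
      have h5 : (k : ℤ) * 1 ≤ (k : ℤ) * v.ord x := mul_le_mul_of_nonneg_left hx1 hk0
      have h6 := hk v
      linarith

/-- Existence of the coordinates at infinity. -/
theorem exists_repr_inv (htr : Algebra.trdeg K F = 1) (v₀ : Place K F) {x : F}
    (hx : x ∈ R.regOff v₀) {n0 : ℕ} (hn0 : 0 < n0) (hord : v₀.ord x = -(n0 : ℤ))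
    (ν : Fin n0 → ℕ) (w : Fin n0 → F)
    (hrep : ∀ f ∈ R.regOff v₀,
      ∃! c : Fin n0 → Polynomial K, f = ∑ i, Polynomial.aeval x (c i) * w i)
    (hle : ∀ c : Fin n0 → Polynomial K, (∑ i, Polynomial.aeval x (c i) * w i) ≠ 0 →
      ∀ i, c i ≠ 0 → v₀.ord (∑ i, Polynomial.aeval x (c i) * w i) ≤
        -((n0 * (c i).natDegree + ν i : ℕ) : ℤ))
    {f : F} (hf : f ∈ regWhere K x⁻¹) :
    ∃ c : Fin n0 → Polynomial K,
      f = ∑ i, Polynomial.aeval x⁻¹ (c i) * (w i * x⁻¹ ^ ((ν i + n0 - 1) / n0)) := by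
  have hx0 : x ≠ 0 := by
    rintro rfl
    rw [Place.ord_zero] at hord
    omega
  by_cases hf0 : f = 0
  · refine ⟨0, ?_⟩
    rw [hf0]
    simp
  · obtain ⟨k, hk⟩ := exists_pow_mul_mem htr v₀ hx hx0 hf
    have hg0 : x ^ k * f ≠ 0 := mul_ne_zero (pow_ne_zero _ hx0) hf0
    obtain ⟨p, hp, -⟩ := hrep _ hk
    have hfv : 0 ≤ v₀.ord f :=
      FF.ord_nonneg_of_mem v₀ (hf v₀ ((inv_mem_iff v₀ hx0).mpr (by rw [hord]; omega)))
    have hgo : -((n0 * k : ℕ) : ℤ) ≤ v₀.ord (x ^ k * f) := by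
      rw [v₀.ord_mul (pow_ne_zero _ hx0) hf0, ord_pow, hord]
      push_cast
      linarith
    have hdeg := natDegree_add_ceil_le v₀ hn0 ν w hle hg0 hgo p hp
    refine ⟨fun i => (p i).reflect (k - (ν i + n0 - 1) / n0), ?_⟩
    have h1 : f = (x ^ k * f) * x⁻¹ ^ k := by
      have h2 := pow_mul_inv_pow hx0 k
      linear_combination (-f) * h2
    have h3 : (x ^ k * f) * x⁻¹ ^ k =
        ∑ i, Polynomial.aeval x⁻¹ ((p i).reflect (k - (ν i + n0 - 1) / n0)) *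
          (w i * x⁻¹ ^ ((ν i + n0 - 1) / n0)) := by
      rw [hp, Finset.sum_mul]
      exact Finset.sum_congr rfl fun i _ => term_inv hx0 (p i) (w i) (hdeg i)
    exact h1.trans h3

/-- **Chart infinity.**  `w i / x ^ ⌈ν i / n0⌉` is a `K[1/x]`-basis of the ring of the
functions regular wherever `1 / x` is regular. -/
theorem isChart_inv (htr : Algebra.trdeg K F = 1) (v₀ : Place K F) {x : F}
    (hx : x ∈ R.regOff v₀) {n0 : ℕ} (hn0 : 0 < n0) (hord : v₀.ord x = -(n0 : ℤ))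
    (ν : Fin n0 → ℕ) (w : Fin n0 → F)
    (hw : ∀ i, w i ∈ R.regOff v₀ ∧ v₀.ord (w i) = -(ν i : ℤ) ∧ ν i % n0 = (i : ℕ))
    (hrep : ∀ f ∈ R.regOff v₀,
      ∃! c : Fin n0 → Polynomial K, f = ∑ i, Polynomial.aeval x (c i) * w i)
    (hle : ∀ c : Fin n0 → Polynomial K, (∑ i, Polynomial.aeval x (c i) * w i) ≠ 0 →
      ∀ i, c i ≠ 0 → v₀.ord (∑ i, Polynomial.aeval x (c i) * w i) ≤
        -((n0 * (c i).natDegree + ν i : ℕ) : ℤ)) :
    IsChart K x⁻¹ (fun i => w i * x⁻¹ ^ ((ν i + n0 - 1) / n0)) := by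
  have hx0 : x ≠ 0 := by
    rintro rfl
    rw [Place.ord_zero] at hord
    omega
  have h0 : IsChart K x w :=
    isChart_zero v₀ hx (by rw [hord]; omega) (fun i => (hw i).1) hrep
  refine ⟨fun i => basis_mem v₀ hx hn0 hord (hw i).1 (hw i).2.1, fun f hf => ?_⟩
  obtain ⟨c, hc⟩ := exists_repr_inv htr v₀ hx hn0 hord ν w hrep hle hf
  refine ⟨c, hc, fun c' hc' => ?_⟩
  have hs := R.Apery.sum_sub x⁻¹ (fun i => w i * x⁻¹ ^ ((ν i + n0 - 1) / n0)) c' c
  have h1 : (∑ i, Polynomial.aeval x⁻¹ ((c' - c) i) *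
      (w i * x⁻¹ ^ ((ν i + n0 - 1) / n0))) = 0 := by
    refine hs.trans ?_
    have hc2 : f = ∑ i, Polynomial.aeval x⁻¹ (c' i) *
        (w i * x⁻¹ ^ ((ν i + n0 - 1) / n0)) := hc'
    exact sub_eq_zero.mpr (hc2.symm.trans hc)
  exact sub_eq_zero.mp (eq_zero_of_sum_inv_eq_zero hx0 ν w h0 (c' - c) h1)

/-- `∑ ⌈ν i / n0⌉ = gR + n0 - 1`. -/
theorem sum_ceil {n0 : ℕ} (hn0 : 0 < n0) (ν : Fin n0 → ℕ) (hwm : ∀ i, ν i % n0 = (i : ℕ))
    (hg : (R.gR K F : ℤ) = ∑ i, ((ν i / n0 : ℕ) : ℤ)) :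
    ∑ i, (ν i + n0 - 1) / n0 = R.gR K F + n0 - 1 := by
  have h1 : ∀ i : Fin n0,
      (ν i + n0 - 1) / n0 = ν i / n0 + if (i : ℕ) = 0 then 0 else 1 := by
    intro i
    rw [ceil_eq hn0, hwm i]
  have h2 : ∑ i : Fin n0, (if (i : ℕ) = 0 then 0 else 1 : ℕ) = n0 - 1 := by
    obtain ⟨m, rfl⟩ : ∃ m, n0 = m + 1 := ⟨n0 - 1, by omega⟩
    rw [Fin.sum_univ_eq_sum_range (fun i => if i = 0 then 0 else 1) (m + 1), sum_range_ite]
    omega
  have h3 : (∑ i, ν i / n0) = R.gR K F :=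
    Nat.cast_injective (R := ℤ) (by rw [Nat.cast_sum]; exact hg.symm)
  rw [Finset.sum_congr rfl (fun i _ => h1 i), Finset.sum_add_distrib, h2, h3]
  omega

/-- The coordinates at infinity of `φ / x ^ μ`, `φ ∈ L(n0 μ v₀)`: the reflected chart-0
coordinates. -/
theorem coords_inv (htr : Algebra.trdeg K F = 1) (v₀ : Place K F) {x : F}
    (hx : x ∈ R.regOff v₀) {n0 : ℕ} (hn0 : 0 < n0) (hord : v₀.ord x = -(n0 : ℤ))
    (ν : Fin n0 → ℕ) (w : Fin n0 → F)
    (hw : ∀ i, w i ∈ R.regOff v₀ ∧ v₀.ord (w i) = -(ν i : ℤ) ∧ ν i % n0 = (i : ℕ))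
    (hrep : ∀ f ∈ R.regOff v₀,
      ∃! c : Fin n0 → Polynomial K, f = ∑ i, Polynomial.aeval x (c i) * w i)
    (hle : ∀ c : Fin n0 → Polynomial K, (∑ i, Polynomial.aeval x (c i) * w i) ≠ 0 →
      ∀ i, c i ≠ 0 → v₀.ord (∑ i, Polynomial.aeval x (c i) * w i) ≤
        -((n0 * (c i).natDegree + ν i : ℕ) : ℤ))
    (μ : ℕ) {φ : F}
    (hφ : φ ∈ riemannRochSpace (((n0 * μ : ℕ) : ℤ) • Finsupp.single v₀ (1 : ℤ)))
    (p : Fin n0 → Polynomial K) (hp : φ = ∑ i, Polynomial.aeval x (p i) * w i) :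
    (∀ i, p i ≠ 0 → (p i).natDegree + (ν i + n0 - 1) / n0 ≤ μ) ∧
      φ * x⁻¹ ^ μ ∈ regWhere K x⁻¹ ∧
      φ * x⁻¹ ^ μ = ∑ i, Polynomial.aeval x⁻¹ ((p i).reflect (μ - (ν i + n0 - 1) / n0)) *
        (w i * x⁻¹ ^ ((ν i + n0 - 1) / n0)) := by
  have hx0 : x ≠ 0 := by
    rintro rfl
    rw [Place.ord_zero] at hord
    omega
  have h0 : IsChart K x w :=
    isChart_zero v₀ hx (by rw [hord]; omega) (fun i => (hw i).1) hrep
  have hdeg : ∀ i, p i ≠ 0 → (p i).natDegree + (ν i + n0 - 1) / n0 ≤ μ := by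
    intro i hpi
    by_cases hφ0 : φ = 0
    · exfalso
      have h1 := h0.eq_zero_of_sum_eq_zero p (by rw [← hp]; exact hφ0)
      exact hpi (congrFun h1 i)
    · exact natDegree_add_ceil_le v₀ hn0 ν w hle hφ0
        (R.Apery.neg_le_ord_of_mem_L hφ0 hφ) p hp i hpi
  have heq : φ * x⁻¹ ^ μ =
      ∑ i, Polynomial.aeval x⁻¹ ((p i).reflect (μ - (ν i + n0 - 1) / n0)) *
        (w i * x⁻¹ ^ ((ν i + n0 - 1) / n0)) := by
    have h3 : (∑ i, Polynomial.aeval x (p i) * w i) * x⁻¹ ^ μ =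
        ∑ i, Polynomial.aeval x⁻¹ ((p i).reflect (μ - (ν i + n0 - 1) / n0)) *
          (w i * x⁻¹ ^ ((ν i + n0 - 1) / n0)) := by
      rw [Finset.sum_mul]
      exact Finset.sum_congr rfl fun i _ => term_inv hx0 (p i) (w i) (hdeg i)
    rw [← h3, ← hp]
  refine ⟨hdeg, ?_, heq⟩
  rw [heq]
  exact Subalgebra.sum_mem _ fun i _ =>
    Subalgebra.mul_mem _ (aeval_mem_regWhere x⁻¹ _)
      (basis_mem v₀ hx hn0 hord (hw i).1 (hw i).2.1)

/-- Approximation at `v₀` by functions regular wherever `1 / x` is regular. -/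
theorem exists_approx (htr : Algebra.trdeg K F = 1) (v₀ : Place K F) {x : F}
    (hx : x ∈ R.regOff v₀) {n0 : ℕ} (hn0 : 0 < n0) (hord : v₀.ord x = -(n0 : ℤ))
    (ν : Fin n0 → ℕ) (w : Fin n0 → F)
    (hw : ∀ i, w i ∈ R.regOff v₀ ∧ v₀.ord (w i) = -(ν i : ℤ) ∧ ν i % n0 = (i : ℕ))
    (hw0 : ∀ i, w i ≠ 0) {t : F} (ht : t ∈ v₀.toValuationSubring) (N : ℕ) :
    ∃ h : F, h ∈ regWhere K x⁻¹ ∧ (t - h = 0 ∨ (N : ℤ) ≤ v₀.ord (t - h)) := by
  induction N with
  | zero =>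
    refine ⟨0, Subalgebra.zero_mem _, Or.inr ?_⟩
    rw [sub_zero]
    exact_mod_cast FF.ord_nonneg_of_mem v₀ ht
  | succ N ih =>
    obtain ⟨h, hh, hcase⟩ := ih
    by_cases e0 : t - h = 0
    · exact ⟨h, hh, Or.inl e0⟩
    · have hN : (N : ℤ) ≤ v₀.ord (t - h) := hcase.resolve_left e0
      by_cases hlt : ((N + 1 : ℕ) : ℤ) ≤ v₀.ord (t - h)
      · exact ⟨h, hh, Or.inr hlt⟩
      · have heq : v₀.ord (t - h) = (N : ℤ) := by omega
        obtain ⟨u, hu, hu0, huo⟩ := exists_ord_eq v₀ hx hn0 hord ν w hw hw0 N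
        have hs0 : (t - h) * u⁻¹ ≠ 0 := mul_ne_zero e0 (inv_ne_zero hu0)
        have hso : v₀.ord ((t - h) * u⁻¹) = 0 := by
          rw [v₀.ord_mul e0 (inv_ne_zero hu0), v₀.ord_inv, heq, huo]
          ring
        have hs : (t - h) * u⁻¹ ∈ v₀.toValuationSubring :=
          (FF.ord_nonneg_iff v₀ hs0).mp hso.ge
        obtain ⟨c, hc⟩ := FF.exists_residue htr v₀ hs
        refine ⟨h + algebraMap K F c * u,
          Subalgebra.add_mem _ hh (Subalgebra.mul_mem _ (Subalgebra.algebraMap_mem _ c) hu), ?_⟩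
        have hid : t - (h + algebraMap K F c * u) =
            u * ((t - h) * u⁻¹ - algebraMap K F c) := by
          have h1 : u * u⁻¹ = 1 := mul_inv_cancel₀ hu0
          linear_combination (-(t - h)) * h1
        by_cases e1 : t - (h + algebraMap K F c * u) = 0
        · exact Or.inl e1
        · refine Or.inr ?_
          rcases hc with hc | hc
          · exfalso
            apply e1
            rw [hid, hc, sub_self, mul_zero]
          · have hne : (t - h) * u⁻¹ - algebraMap K F c ≠ 0 := by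
              intro h0
              rw [hid, h0, mul_zero] at e1
              exact e1 rfl
            rw [hid, v₀.ord_mul hu0 hne, huo]
            omega

/-- **The unit ideal at infinity.**  For `φ₁ ∈ L(n0 μ v₀)` of exact pole order `n0 μ` the
functions `x⁻¹ ^ μ` and `φ₁ * x⁻¹ ^ μ` generate the unit ideal of `regWhere K x⁻¹`. -/
theorem exists_unit_comb (htr : Algebra.trdeg K F = 1) (v₀ : Place K F) {x : F}
    (hx : x ∈ R.regOff v₀) {n0 : ℕ} (hn0 : 0 < n0) (hord : v₀.ord x = -(n0 : ℤ))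
    (ν : Fin n0 → ℕ) (w : Fin n0 → F)
    (hw : ∀ i, w i ∈ R.regOff v₀ ∧ v₀.ord (w i) = -(ν i : ℤ) ∧ ν i % n0 = (i : ℕ))
    (hrep : ∀ f ∈ R.regOff v₀,
      ∃! c : Fin n0 → Polynomial K, f = ∑ i, Polynomial.aeval x (c i) * w i)
    (μ : ℕ) {φ₁ : F}
    (hφ₁ : φ₁ ∈ riemannRochSpace (((n0 * μ : ℕ) : ℤ) • Finsupp.single v₀ (1 : ℤ)))
    (hφ₁o : v₀.ord φ₁ = -((n0 * μ : ℕ) : ℤ)) :
    ∃ g h : F, g ∈ regWhere K x⁻¹ ∧ h ∈ regWhere K x⁻¹ ∧
      g * x⁻¹ ^ μ + h * (φ₁ * x⁻¹ ^ μ) = 1 := by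
  have hx0 : x ≠ 0 := by
    rintro rfl
    rw [Place.ord_zero] at hord
    omega
  have h0 : IsChart K x w :=
    isChart_zero v₀ hx (by rw [hord]; omega) (fun i => (hw i).1) hrep
  by_cases hφ0 : φ₁ = 0
  · rw [hφ0, Place.ord_zero] at hφ₁o
    have hμ : μ = 0 := by
      have h1 : n0 * μ = 0 := by omega
      rcases Nat.mul_eq_zero.mp h1 with h | h
      · omega
      · exact h
    subst hμ
    refine ⟨1, 0, Subalgebra.one_mem _, Subalgebra.zero_mem _, ?_⟩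
    simp
  · have hpx : x⁻¹ ^ μ ≠ 0 := pow_ne_zero _ (inv_ne_zero hx0)
    have hφ'0 : φ₁ * x⁻¹ ^ μ ≠ 0 := mul_ne_zero hφ0 hpx
    have hφ'o : v₀.ord (φ₁ * x⁻¹ ^ μ) = 0 := by
      rw [v₀.ord_mul hφ0 hpx, ord_pow, v₀.ord_inv, hord, hφ₁o, neg_neg]
      push_cast
      ring
    have hφR : φ₁ ∈ R.regOff v₀ := R.Apery.mem_regOff_of_mem_L hφ₁
    have ht : (φ₁ * x⁻¹ ^ μ)⁻¹ ∈ v₀.toValuationSubring :=
      (FF.ord_nonneg_iff v₀ (inv_ne_zero hφ'0)).mp (by rw [v₀.ord_inv, hφ'o, neg_zero])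
    obtain ⟨h, hh, hcase⟩ :=
      exists_approx htr v₀ hx hn0 hord ν w hw h0.ne_zero ht (n0 * μ)
    refine ⟨(1 - h * (φ₁ * x⁻¹ ^ μ)) * x ^ μ, h, ?_, hh, ?_⟩
    · intro v hv
      by_cases hvv : v = v₀
      · subst hvv
        have hid : (1 - h * (φ₁ * x⁻¹ ^ μ)) * x ^ μ =
            (φ₁ * x⁻¹ ^ μ) * ((φ₁ * x⁻¹ ^ μ)⁻¹ - h) * x ^ μ := by
          have h1 := mul_inv_cancel₀ hφ'0
          linear_combination (-(x ^ μ)) * h1
        rcases hcase with hc | hc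
        · rw [hid, hc, mul_zero, zero_mul]
          exact zero_mem _
        · by_cases e0 : (φ₁ * x⁻¹ ^ μ)⁻¹ - h = 0
          · rw [hid, e0, mul_zero, zero_mul]
            exact zero_mem _
          · have hne : (φ₁ * x⁻¹ ^ μ) * ((φ₁ * x⁻¹ ^ μ)⁻¹ - h) * x ^ μ ≠ 0 :=
              mul_ne_zero (mul_ne_zero hφ'0 e0) (pow_ne_zero _ hx0)
            rw [hid]
            refine (FF.ord_nonneg_iff v hne).mp ?_
            rw [v.ord_mul (mul_ne_zero hφ'0 e0) (pow_ne_zero _ hx0), v.ord_mul hφ'0 e0,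
              hφ'o, ord_pow, hord]
            push_cast at hc ⊢
            linarith
      · have hxv : x ∈ v.toValuationSubring := hx v hvv
        have hφv : φ₁ * x⁻¹ ^ μ ∈ v.toValuationSubring :=
          mul_mem (hφR v hvv) (pow_mem hv _)
        exact mul_mem (sub_mem (one_mem _) (mul_mem (hh v hv) hφv)) (pow_mem hxv _)
    · have h1 := pow_mul_inv_pow hx0 μ
      linear_combination (1 - h * (φ₁ * x⁻¹ ^ μ)) * h1

/-- `v₀` is totally ramified for `x`: `[F : K(x)] = n0`. -/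
theorem finrank_adjoin_eq (htr : Algebra.trdeg K F = 1) (v₀ : Place K F) {x : F}
    (hx : x ∈ R.regOff v₀) {n0 : ℕ} (hn0 : 0 < n0) (hord : v₀.ord x = -(n0 : ℤ)) :
    Module.finrank ↥(IntermediateField.adjoin K ({x} : Set F)) F = n0 := by
  have hxt : Transcendental K x := FF.transcendental_of_not_mem_range (by
    rintro ⟨c, rfl⟩
    rw [FF.ord_algebraMap] at hord
    omega)
  have h := FF.sum_ord_poles htr hxt
  have hset : {v : Place K F | v.ord x < 0} = {v₀} := by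
    ext v
    constructor
    · intro hv
      have hv' : v.ord x < 0 := hv
      by_contra hne
      have hne' : v ≠ v₀ := hne
      have h1 := FF.ord_nonneg_of_mem v (hx v hne')
      omega
    · intro hv
      have hv' : v = v₀ := hv
      subst hv'
      show v.ord x < 0
      rw [hord]
      omega
  rw [hset, finsum_mem_singleton, hord, neg_neg] at h
  exact_mod_cast h.symm

/-- `[F : K(1/x)] = n0`. -/
theorem finrank_adjoin_inv_eq (htr : Algebra.trdeg K F = 1) (v₀ : Place K F) {x : F}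
    (hx : x ∈ R.regOff v₀) {n0 : ℕ} (hn0 : 0 < n0) (hord : v₀.ord x = -(n0 : ℤ)) :
    Module.finrank ↥(IntermediateField.adjoin K ({x⁻¹} : Set F)) F = n0 := by
  rw [FF.adjoin_simple_inv]
  exact finrank_adjoin_eq htr v₀ hx hn0 hord

end Curve

end ChartInf

end Fermat.Agent.S17.H.Fib2
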