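/-
MW strand H, block D4, two-chart twin: the value bridge at infinity.

Setting of `ChartInf.lean`: `x` regular off `v₀` with a pole of order `n0` at `v₀`, `(ν, w)` an
Apery basis (leaf R14), chart infinity `(x⁻¹, w')`, `w' i = w i * x⁻¹ ^ ⌈ν i / n0⌉`.  For a value
function `ev` (`Glob.IsEval ev`) and a place `P` over `x = α`, `α ≠ 0`:

* `inv_mem_and_ev_inv` : `x⁻¹` is regular at `P` and `x⁻¹(P) = α⁻¹`;
* `ev_mul_inv_pow`     : `(f * x⁻¹ ^ c)(P) = f(P) * α⁻¹ ^ c`;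
* `sig_mul_inv_pow`    : the `2 × 2` minors of `φ * x⁻¹ ^ μ` are `α⁻¹ ^ (2 μ)` times those of `φ`;
* `det_basis_inv`      : `det [w'_i(P_l)] = α⁻¹ ^ (gR + n0 - 1) * det [w_i(P_l)]`;
* `exists_size_bound_of_mem` : ONE constant of product type bounds the values of a fixed
  function `f ∈ regWhere K x` over the unit disc of ANY chart;
* `exists_lower_bound`, `exists_lower_bound_iSup` : for `φ₁ ∈ L(n0 μ v₀)` of exact pole order
  `n0 μ`,  `|α|^μ ≤ locConst * max 1 |φ₁(P)|`  whenever `|α⁻¹| ≤ 1`  (the point `φ(P)` is large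
  when `α` is large);
* `transcendental_of_pole` : `x` and `x⁻¹` are transcendental (for GEN on both charts).
-/
import Mathlib
import Fermat.Prelude.Def_AlgebraicCurve_Repartitions
import Fermat.Agent.S17.H.Cert.LocConst
import Fermat.Agent.S17.H.Glob.Eval
import Fermat.Agent.S17.H.Fib2.Chart
import Fermat.Agent.S17.H.Fib2.Chart0
import Fermat.Agent.S17.H.Fib2.ChartInf

set_option autoImplicit false
set_option linter.unusedSectionVars false
set_option linter.unusedVariables false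

namespace Fermat.Agent.S17.H.Fib2.ChartInfVal

open AlgebraicCurve
open Fermat.Agent.S24
open Fermat.Agent.S17.H.Cert

section Generic

variable {K F : Type*} [Field K] [Field F] [Algebra K F]

/-- The local bound for a sum of two terms. -/
theorem abv_add_le (v : AbsoluteValue K ℝ) (a b : K) :
    v (a + b) ≤ locConst 2 (0 : Multiset K) v * max (v a) (v b) := by
  by_cases hv : IsNonarchimedean v
  · rw [locConst_of_nonarch hv, gamProd_zero, one_mul]
    exact hv a b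
  · rw [locConst_of_not_nonarch hv, gamProd_zero, mul_one]
    have h1 := v.add_le a b
    have h2 := le_max_left (v a) (v b)
    have h3 := le_max_right (v a) (v b)
    linarith

/-- **Sizes of a fixed function on a chart.**  One constant of product type bounds the values
of `f ∈ regWhere K x` at all the places over the unit disc `v (x(P)) ≤ 1`. -/
theorem exists_size_bound_of_mem {x : F} {n : ℕ} {w : Fin n → F} (h : IsChart K x w) {f : F}
    (hf : f ∈ regWhere K x) :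
    ∃ (c : ℝ) (Γ : Multiset K), 1 ≤ c ∧
      ∀ (ev : Place K F → F → K), Glob.IsEval ev → ∀ (v : AbsoluteValue K ℝ) (P : Place K F),
        x ∈ P.toValuationSubring → v (ev P x) ≤ 1 → v (ev P f) ≤ locConst c Γ v := by
  obtain ⟨c0, Γ0, hc0, hsize⟩ := Chart0.exists_size_bound h
  obtain ⟨cf, hcf⟩ := (h.rep f hf).exists
  have hq1 : 1 ≤ Chart0.famPolyCount cf := Chart0.one_le_famPolyCount cf
  have hprod : 1 ≤ Chart0.famPolyCount cf * c0 := one_le_mul_of_one_le_of_one_le hq1 hc0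
  have hn : (0 : ℝ) ≤ (n : ℝ) := Nat.cast_nonneg n
  refine ⟨((n : ℝ) + 1) * (Chart0.famPolyCount cf * c0), Chart0.famPolyMS cf + Γ0,
    one_le_mul_of_one_le_of_one_le (by linarith) hprod, fun ev hev v P hxP hvα => ?_⟩
  rw [Chart0.ev_of_repr hev h.mem hxP cf hcf]
  have hA : (0 : ℝ) ≤ locConst (Chart0.famPolyCount cf) (Chart0.famPolyMS cf) v :=
    locConst_nonneg (by linarith) _ v
  have hB : (0 : ℝ) ≤ locConst c0 Γ0 v := locConst_nonneg (by linarith) _ v
  have hterm : ∀ i, v ((cf i).eval (ev P x) * ev P (w i)) ≤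
      locConst (Chart0.famPolyCount cf) (Chart0.famPolyMS cf) v * locConst c0 Γ0 v := by
    intro i
    rw [map_mul]
    exact mul_le_mul (Chart0.abv_eval_le_fam v cf i hvα) (hsize ev hev v P hxP hvα i)
      (v.nonneg _) hA
  have hsup : (⨆ i, v ((cf i).eval (ev P x) * ev P (w i))) ≤
      locConst (Chart0.famPolyCount cf) (Chart0.famPolyMS cf) v * locConst c0 Γ0 v :=
    Real.iSup_le hterm (mul_nonneg hA hB)
  have hsum := abv_sum_le v (fun i : Fin n => (cf i).eval (ev P x) * ev P (w i))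
  have hC : (0 : ℝ) ≤ locConst ((Fintype.card (Fin n) : ℕ) : ℝ) (0 : Multiset K) v :=
    locConst_nonneg (Nat.cast_nonneg _) _ v
  refine le_trans hsum (le_trans (mul_le_mul_of_nonneg_left hsup hC) ?_)
  rw [locConst_mul, locConst_mul, zero_add, Fintype.card_fin]
  exact locConst_mono (mul_nonneg hn (by linarith))
    (mul_le_mul_of_nonneg_right (by linarith) (by linarith)) le_rfl v

/-- Over `x = α`, `α ≠ 0`, the function `x⁻¹` is regular with value `α⁻¹`. -/
theorem inv_mem_and_ev_inv {ev : Place K F → F → K} (hev : Glob.IsEval ev) {x : F}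
    {P : Place K F} {α : K} (hα0 : α ≠ 0) (hα : 0 < P.ord (x - algebraMap K F α)) :
    x⁻¹ ∈ P.toValuationSubring ∧ ev P x⁻¹ = α⁻¹ := by
  obtain ⟨hxP, hxe⟩ := Chart0.mem_and_ev_eq_of_ord_pos hev hα
  have hc0 : algebraMap K F α ≠ 0 := fun h => hα0 ((map_eq_zero (algebraMap K F)).mp h)
  have hd0 : x - algebraMap K F α ≠ 0 := by
    intro h
    rw [h, Place.ord_zero] at hα
    exact lt_irrefl _ hα
  have hxo : P.ord x = 0 := by
    have h1 : P.ord (algebraMap K F α) < P.ord (x - algebraMap K F α) := by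
      rw [FF.ord_algebraMap]
      exact hα
    have h2 := FF.ord_add_eq_of_lt P h1 hc0 hd0
    have h4 : algebraMap K F α + (x - algebraMap K F α) = x := by ring
    rw [h4, FF.ord_algebraMap] at h2
    exact h2
  have hx0 : x ≠ 0 := by
    rintro rfl
    rw [hev.map_zero] at hxe
    exact hα0 hxe.symm
  have hxi : x⁻¹ ∈ P.toValuationSubring := (ChartInf.inv_mem_iff P hx0).mpr hxo.le
  refine ⟨hxi, ?_⟩
  have h3 := hev.map_mul hxP hxi
  rw [mul_inv_cancel₀ hx0, hev.map_one, hxe] at h3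
  exact eq_inv_of_mul_eq_one_right h3.symm

/-- The value of `f * x⁻¹ ^ c` over `x = α`. -/
theorem ev_mul_inv_pow {ev : Place K F → F → K} (hev : Glob.IsEval ev) {x : F}
    {P : Place K F} {α : K} (hxi : x⁻¹ ∈ P.toValuationSubring) (he : ev P x⁻¹ = α⁻¹) {f : F}
    (hf : f ∈ P.toValuationSubring) (c : ℕ) :
    ev P (f * x⁻¹ ^ c) = ev P f * α⁻¹ ^ c := by
  rw [hev.map_mul hf (P.toValuationSubring.pow_mem hxi c), hev.map_pow hxi, he]

/-- The `2 × 2` minors of the point `φ * x⁻¹ ^ μ` at two places over `x = α`. -/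
theorem sig_mul_inv_pow {ev : Place K F → F → K} (hev : Glob.IsEval ev) {x : F}
    {P Q : Place K F} {α : K} (hxP : x⁻¹ ∈ P.toValuationSubring) (heP : ev P x⁻¹ = α⁻¹)
    (hxQ : x⁻¹ ∈ Q.toValuationSubring) (heQ : ev Q x⁻¹ = α⁻¹) {φa φb : F}
    (haP : φa ∈ P.toValuationSubring) (hbP : φb ∈ P.toValuationSubring)
    (haQ : φa ∈ Q.toValuationSubring) (hbQ : φb ∈ Q.toValuationSubring) (μ : ℕ) :
    ev P (φa * x⁻¹ ^ μ) * ev Q (φb * x⁻¹ ^ μ) - ev P (φb * x⁻¹ ^ μ) * ev Q (φa * x⁻¹ ^ μ) =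
      α⁻¹ ^ (2 * μ) * (ev P φa * ev Q φb - ev P φb * ev Q φa) := by
  rw [ev_mul_inv_pow hev hxP heP haP, ev_mul_inv_pow hev hxQ heQ hbQ,
    ev_mul_inv_pow hev hxP heP hbP, ev_mul_inv_pow hev hxQ heQ haQ]
  ring

/-- Scaling the columns of a matrix by powers of one scalar. -/
theorem det_mul_inv_pow {n : ℕ} (W : Fin n → Fin n → K) (a : K) (cc : Fin n → ℕ) :
    (Matrix.of fun l i => W l i * a ^ cc i).det =
      a ^ (∑ i, cc i) * (Matrix.of fun l i => W l i).det := by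
  have h : (Matrix.of fun l i => W l i * a ^ cc i) =
      Matrix.of fun l i => a ^ cc i * (Matrix.of fun l i => W l i) l i := by
    ext l i
    exact mul_comm _ _
  rw [h, Matrix.det_mul_row, Finset.prod_pow_eq_pow_sum]

end Generic

section Curve

variable {K F : Type*} [Field K] [Field F] [Algebra K F]
variable [IsAlgClosed K] [CharZero K] [Algebra.EssFiniteType K F]

/-- A function with a pole is transcendental, and so is its inverse. -/
theorem transcendental_of_pole (v₀ : Place K F) {x : F} {n0 : ℕ} (hn0 : 0 < n0)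
    (hord : v₀.ord x = -(n0 : ℤ)) : Transcendental K x ∧ Transcendental K x⁻¹ := by
  constructor
  · refine FF.transcendental_of_not_mem_range ?_
    rintro ⟨c, rfl⟩
    rw [FF.ord_algebraMap] at hord
    omega
  · refine FF.transcendental_of_not_mem_range ?_
    rintro ⟨c, hc⟩
    have h1 : v₀.ord x⁻¹ = 0 := by rw [← hc, FF.ord_algebraMap]
    rw [v₀.ord_inv, hord] at h1
    omega

/-- **The value matrix at infinity.**  `det [w'_i(P_l)] = α⁻¹ ^ (gR + n0 - 1) * det [w_i(P_l)]`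
for places `P_l` over `x = α`, `α ≠ 0`. -/
theorem det_basis_inv {ev : Place K F → F → K} (hev : Glob.IsEval ev) (v₀ : Place K F)
    {x : F} {n0 : ℕ} (hn0 : 0 < n0) (hord : v₀.ord x = -(n0 : ℤ)) (ν : Fin n0 → ℕ)
    (w : Fin n0 → F)
    (hw : ∀ i, w i ∈ R.regOff v₀ ∧ v₀.ord (w i) = -(ν i : ℤ) ∧ ν i % n0 = (i : ℕ))
    (hg : (R.gR K F : ℤ) = ∑ i, ((ν i / n0 : ℕ) : ℤ)) {α : K} (hα0 : α ≠ 0)
    (P : Fin n0 → Place K F) (hα : ∀ l, 0 < (P l).ord (x - algebraMap K F α)) :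
    (Matrix.of fun l i => ev (P l) (w i * x⁻¹ ^ ((ν i + n0 - 1) / n0))).det =
      α⁻¹ ^ (R.gR K F + n0 - 1) * (Matrix.of fun l i => ev (P l) (w i)).det := by
  have hP : ∀ l, P l ≠ v₀ := by
    intro l hl
    have h1 := FF.ord_nonneg_of_mem (P l) (Chart0.mem_and_ev_eq_of_ord_pos hev (hα l)).1
    rw [hl, hord] at h1
    omega
  have hM : (Matrix.of fun l i => ev (P l) (w i * x⁻¹ ^ ((ν i + n0 - 1) / n0))) =
      Matrix.of fun l i => ev (P l) (w i) * α⁻¹ ^ ((ν i + n0 - 1) / n0) := by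
    ext l i
    obtain ⟨hxi, he⟩ := inv_mem_and_ev_inv hev hα0 (hα l)
    exact ev_mul_inv_pow hev hxi he ((hw i).1 (P l) (hP l)) _
  rw [hM, det_mul_inv_pow (fun l i => ev (P l) (w i)) α⁻¹ (fun i => (ν i + n0 - 1) / n0),
    ChartInf.sum_ceil hn0 ν (fun i => (hw i).2.2) hg]

/-- **The point is large at infinity.**  For `φ₁ ∈ L(n0 μ v₀)` of exact pole order `n0 μ`:
`|α| ^ μ ≤ locConst * max 1 |φ₁(P)|` at the places `P` over `x = α` with `|α⁻¹| ≤ 1`. -/
theorem exists_lower_bound (htr : Algebra.trdeg K F = 1) (v₀ : Place K F) {x : F}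
    (hx : x ∈ R.regOff v₀) {n0 : ℕ} (hn0 : 0 < n0) (hord : v₀.ord x = -(n0 : ℤ))
    (ν : Fin n0 → ℕ) (w : Fin n0 → F)
    (hw : ∀ i, w i ∈ R.regOff v₀ ∧ v₀.ord (w i) = -(ν i : ℤ) ∧ ν i % n0 = (i : ℕ))
    (hrep : ∀ f ∈ R.regOff v₀,
      ∃! c : Fin n0 → Polynomial K, f = ∑ i, Polynomial.aeval x (c i) * w i)
    (hle : ∀ c : Fin n0 → Polynomial K, (∑ i, Polynomial.aeval x (c i) * w i) ≠ 0 →
      ∀ i, c i ≠ 0 → v₀.ord (∑ i, Polynomial.aeval x (c i) * w i) ≤
        -((n0 * (c i).natDegree + ν i : ℕ) : ℤ))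
    (μ : ℕ) {φ₁ : F}
    (hφ₁ : φ₁ ∈ riemannRochSpace (((n0 * μ : ℕ) : ℤ) • Finsupp.single v₀ (1 : ℤ)))
    (hφ₁o : v₀.ord φ₁ = -((n0 * μ : ℕ) : ℤ)) :
    ∃ (c : ℝ) (Γ : Multiset K), 1 ≤ c ∧
      ∀ (ev : Place K F → F → K), Glob.IsEval ev → ∀ (v : AbsoluteValue K ℝ) (α : K)
        (P : Place K F), α ≠ 0 → 0 < P.ord (x - algebraMap K F α) → v α⁻¹ ≤ 1 →
          v α ^ μ ≤ locConst c Γ v * max 1 (v (ev P φ₁)) := by
  obtain ⟨g, h, hg, hh, hgh⟩ :=
    ChartInf.exists_unit_comb htr v₀ hx hn0 hord ν w hw hrep μ hφ₁ hφ₁o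
  have hchart := ChartInf.isChart_inv htr v₀ hx hn0 hord ν w hw hrep hle
  obtain ⟨cg, Γg, hcg, hgb⟩ := exists_size_bound_of_mem hchart hg
  obtain ⟨ch, Γh, hch, hhb⟩ := exists_size_bound_of_mem hchart hh
  have hcc : 1 ≤ cg * ch := one_le_mul_of_one_le_of_one_le hcg hch
  refine ⟨2 * (cg * ch), 0 + (Γg + Γh), by linarith, fun ev hev v α P hα0 hα hvα => ?_⟩
  obtain ⟨hxi, he⟩ := inv_mem_and_ev_inv hev hα0 hα
  have hxP := (Chart0.mem_and_ev_eq_of_ord_pos hev hα).1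
  have hPv : P ≠ v₀ := by
    intro hl
    have h1 := FF.ord_nonneg_of_mem P hxP
    rw [hl, hord] at h1
    omega
  have hφP : φ₁ ∈ P.toValuationSubring := (R.Apery.mem_regOff_of_mem_L hφ₁) P hPv
  have hgP : g ∈ P.toValuationSubring := hg P hxi
  have hhP : h ∈ P.toValuationSubring := hh P hxi
  have hpowP : x⁻¹ ^ μ ∈ P.toValuationSubring := P.toValuationSubring.pow_mem hxi μ
  have hφpP : φ₁ * x⁻¹ ^ μ ∈ P.toValuationSubring :=
    P.toValuationSubring.mul_mem _ _ hφP hpowP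
  have hid : ev P g * α⁻¹ ^ μ + ev P h * (ev P φ₁ * α⁻¹ ^ μ) = 1 := by
    have h1 := congrArg (ev P) hgh
    rw [hev.map_one, hev.map_add (P.toValuationSubring.mul_mem _ _ hgP hpowP)
      (P.toValuationSubring.mul_mem _ _ hhP hφpP), hev.map_mul hgP hpowP,
      hev.map_mul hhP hφpP, hev.map_mul hφP hpowP, hev.map_pow hxi, he] at h1
    exact h1
  have hpow : α ^ μ = ev P g + ev P h * ev P φ₁ := by
    have h2 : α ^ μ * α⁻¹ ^ μ = 1 := ChartInf.pow_mul_inv_pow hα0 μ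
    linear_combination (-(α ^ μ)) * hid + (ev P g + ev P h * ev P φ₁) * h2
  have hve : v (ev P x⁻¹) ≤ 1 := by
    rw [he]
    exact hvα
  have hG := hgb ev hev v P hxi hve
  have hH := hhb ev hev v P hxi hve
  have hLg := one_le_locConst hcg Γg v
  have hLh := one_le_locConst hch Γh v
  have hm1 : (1 : ℝ) ≤ max 1 (v (ev P φ₁)) := le_max_left _ _
  have hmΦ : v (ev P φ₁) ≤ max 1 (v (ev P φ₁)) := le_max_right _ _
  have hLL : (0 : ℝ) ≤ locConst cg Γg v * locConst ch Γh v :=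
    mul_nonneg (by linarith) (by linarith)
  have hmax : max (v (ev P g)) (v (ev P h * ev P φ₁)) ≤
      locConst cg Γg v * locConst ch Γh v * max 1 (v (ev P φ₁)) := by
    apply max_le
    · have h5 : locConst cg Γg v ≤ locConst cg Γg v * locConst ch Γh v :=
        le_mul_of_one_le_right (by linarith) hLh
      have h6 : locConst cg Γg v * locConst ch Γh v ≤
          locConst cg Γg v * locConst ch Γh v * max 1 (v (ev P φ₁)) :=
        le_mul_of_one_le_right hLL hm1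
      linarith
    · rw [map_mul]
      have h5 : v (ev P h) * v (ev P φ₁) ≤ locConst ch Γh v * max 1 (v (ev P φ₁)) :=
        mul_le_mul hH hmΦ (v.nonneg _) (by linarith)
      have h6 : locConst ch Γh v * max 1 (v (ev P φ₁)) ≤
          locConst cg Γg v * (locConst ch Γh v * max 1 (v (ev P φ₁))) :=
        le_mul_of_one_le_left (mul_nonneg (by linarith) (by linarith)) hLg
      rw [mul_assoc]
      exact le_trans h5 h6
  have h3 := abv_add_le v (ev P g) (ev P h * ev P φ₁)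
  have h7 : (0 : ℝ) ≤ locConst 2 (0 : Multiset K) v := locConst_nonneg (by norm_num) _ v
  have h8 : v α ^ μ = v (ev P g + ev P h * ev P φ₁) := by rw [← map_pow, hpow]
  rw [h8, ← locConst_mul 2 (cg * ch) 0 (Γg + Γh) v, ← locConst_mul cg ch Γg Γh v, mul_assoc]
  exact le_trans h3 (mul_le_mul_of_nonneg_left hmax h7)

/-- `exists_lower_bound` for a family `φ` containing `1` and an element of exact pole order
`n0 μ`: `|α| ^ μ ≤ locConst * sup_a |φ_a(P)|`. -/
theorem exists_lower_bound_iSup (htr : Algebra.trdeg K F = 1) (v₀ : Place K F) {x : F}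
    (hx : x ∈ R.regOff v₀) {n0 : ℕ} (hn0 : 0 < n0) (hord : v₀.ord x = -(n0 : ℤ))
    (ν : Fin n0 → ℕ) (w : Fin n0 → F)
    (hw : ∀ i, w i ∈ R.regOff v₀ ∧ v₀.ord (w i) = -(ν i : ℤ) ∧ ν i % n0 = (i : ℕ))
    (hrep : ∀ f ∈ R.regOff v₀,
      ∃! c : Fin n0 → Polynomial K, f = ∑ i, Polynomial.aeval x (c i) * w i)
    (hle : ∀ c : Fin n0 → Polynomial K, (∑ i, Polynomial.aeval x (c i) * w i) ≠ 0 →
      ∀ i, c i ≠ 0 → v₀.ord (∑ i, Polynomial.aeval x (c i) * w i) ≤
        -((n0 * (c i).natDegree + ν i : ℕ) : ℤ))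
    (μ : ℕ) {r : ℕ} (φ : Fin r → F) (a₀ a₁ : Fin r) (h1 : φ a₀ = 1)
    (hφ₁ : φ a₁ ∈ riemannRochSpace (((n0 * μ : ℕ) : ℤ) • Finsupp.single v₀ (1 : ℤ)))
    (hφ₁o : v₀.ord (φ a₁) = -((n0 * μ : ℕ) : ℤ)) :
    ∃ (c : ℝ) (Γ : Multiset K), 1 ≤ c ∧
      ∀ (ev : Place K F → F → K), Glob.IsEval ev → ∀ (v : AbsoluteValue K ℝ) (α : K)
        (P : Place K F), α ≠ 0 → 0 < P.ord (x - algebraMap K F α) → v α⁻¹ ≤ 1 →
          v α ^ μ ≤ locConst c Γ v * ⨆ a, v (ev P (φ a)) := by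
  obtain ⟨c, Γ, hc, hb⟩ :=
    exists_lower_bound htr v₀ hx hn0 hord ν w hw hrep hle μ hφ₁ hφ₁o
  refine ⟨c, Γ, hc, fun ev hev v α P hα0 hα hvα =>
    le_trans (hb ev hev v α P hα0 hα hvα)
      (mul_le_mul_of_nonneg_left ?_ (locConst_nonneg (by linarith) Γ v))⟩
  apply max_le
  · exact Chart0.one_le_iSup_abv hev φ a₀ h1 P v
  · exact Finite.le_ciSup (fun a => v (ev P (φ a))) a₁

end Curve

end Fermat.Agent.S17.H.Fib2.ChartInfVal
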