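/-
MW strand H, block D4, two-chart twin, leaf EXITCORE: the heights bookkeeping of the fibre
inequality.

No curve theory here.  `F` is a field over `Qb = AlgebraicClosure ℚ`, `ev` any value function,
`x : F`, `φ : Fin r → F` the family of the height and `w : Fin n0 → F` a second family (for the
twin: the Apery basis).  The inputs are, as HYPOTHESES in their literal shapes,

* `hloc` : the two-chart local claim (leaf LOC, `Fib2/Local.lean`) at EVERY absolute value `v`
  of `Qb`, with the constants `Cert.locConst c Γ v`;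
* `hdet` : the value matrix `[w i (P l)]` of an injective fibre is invertible (leaf VAL);
* `hval`, `hsig` : the value vectors and the secant vectors on a fibre are non-zero.

The output is the fibre inequality `(2 n0 + 2 g - 2) hQ α - C ≤ ∑_{P ≠ Q in the fibre} plD P Q`
with `C = log c + ∑ γ ∈ Γ, hQ γ`.  The proof is the product form of the local-global assembly
(`ProdForm.HasHT.le_of_locConst`): both sides of `hloc` are local functions with a height.
-/
import Mathlib
import Fermat.Agent.S17.H.A.ProdForm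
import Fermat.Agent.S17.H.Glob.PlaceHeight
import Fermat.Agent.S17.H.F.Theta

set_option autoImplicit false

namespace Fermat.Agent.S17.H.Fib2.ExitCore

open AlgebraicCurve
open Fermat.Agent.S17.H.Glob Fermat.Agent.S17.H.ProdForm

local notation "Qb" => AlgebraicClosure ℚ

/-- The sup-norm of the pair `(α, 1)`. -/
theorem iSup_pair (v : AbsoluteValue Qb ℝ) (α : Qb) :
    (⨆ i : Fin 2, v ((![α, 1] : Fin 2 → Qb) i)) = max 1 (v α) := by
  apply le_antisymm
  · refine ciSup_le fun i => ?_
    fin_cases i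
    · exact le_max_right _ _
    · simp
  · refine max_le ?_ ?_
    · have h := Finite.le_ciSup (fun i : Fin 2 => v ((![α, 1] : Fin 2 → Qb) i)) 1
      simpa using h
    · have h := Finite.le_ciSup (fun i : Fin 2 => v ((![α, 1] : Fin 2 → Qb) i)) 0
      simpa using h

/-- `v ↦ max 1 (v α)` is a local function of height `hQ α`. -/
theorem hasHT_max_one (α : Qb) : HasHT (fun v => max 1 (v α)) (hQ α) := by
  have hne : (![α, 1] : Fin 2 → Qb) ≠ 0 := by
    intro h
    have h1 := congrFun h 1
    simp at h1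
  exact (hasHT_tuple hne).congr (fun v => (iSup_pair v α).symm) rfl

/-- A sum over the ordered pairs of distinct indices. -/
theorem sum_offDiag_fin {n : ℕ} (f : Fin n → Fin n → ℝ) :
    ∑ q ∈ (Finset.univ : Finset (Fin n)).offDiag, f q.1 q.2 =
      ∑ l, ∑ l', if l = l' then 0 else f l l' := by
  classical
  have h : (Finset.univ : Finset (Fin n)).offDiag =
      (Finset.univ ×ˢ Finset.univ).filter (fun q : Fin n × Fin n => q.1 ≠ q.2) := by
    ext q
    simp [Finset.mem_offDiag]
  rw [h, Finset.sum_filter, Finset.sum_product]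
  refine Finset.sum_congr rfl fun l _ => Finset.sum_congr rfl fun l' _ => ?_
  by_cases hl : l = l'
  · simp [hl]
  · simp [hl]

open Classical in
/-- The off-diagonal sum of a finite set enumerated by an injective family. -/
theorem offDiag_eq_sum {X : Type*} (D : X → X → ℝ) {n : ℕ} (P : Fin n → X)
    (hP : Function.Injective P) :
    Fermat.Agent.S17.H.F.offDiag D (Finset.univ.image P) =
      ∑ q ∈ (Finset.univ : Finset (Fin n)).offDiag, D (P q.1) (P q.2) := by
  rw [sum_offDiag_fin fun l l' => D (P l) (P l')]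
  unfold Fermat.Agent.S17.H.F.offDiag
  rw [Finset.sum_image fun a _ b _ h => hP h]
  refine Finset.sum_congr rfl fun l _ => ?_
  rw [Finset.sum_image fun a _ b _ h => hP h]
  refine Finset.sum_congr rfl fun l' _ => ?_
  by_cases hl : l = l'
  · simp [hl]
  · have hne : P l ≠ P l' := fun h => hl (hP h)
    simp [hl, hne]

variable {F : Type*} [Field F] [Algebra Qb F]

open Classical in
/-- **The fibre inequality from the two-chart local claim** (heights bookkeeping). -/
theorem fibre_lower_of_local {ev : Place Qb F → F → Qb} {x : F} {n0 : ℕ} (hn0 : 0 < n0) (g : ℕ)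
    {r : ℕ} (φ : Fin r → F) (w : Fin n0 → F) {c : ℝ} (hc : 1 ≤ c) (Γ : Multiset Qb)
    (hloc : ∀ (v : AbsoluteValue Qb ℝ) (α : Qb) (P : Fin n0 → Place Qb F),
      (∀ l, 0 < (P l).ord (x - algebraMap Qb F α)) →
      max 1 (v α) ^ (2 * g + 2 * n0 - 2) *
          ∏ q ∈ (Finset.univ : Finset (Fin n0)).offDiag, ⨆ ab : Fin r × Fin r,
            v (ev (P q.1) (φ ab.1) * ev (P q.2) (φ ab.2) -
              ev (P q.1) (φ ab.2) * ev (P q.2) (φ ab.1)) ≤
        Cert.locConst c Γ v * v (Matrix.of fun l i => ev (P l) (w i)).det ^ 2 *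
          ∏ q ∈ (Finset.univ : Finset (Fin n0)).offDiag,
            ((⨆ a, v (ev (P q.1) (φ a))) * ⨆ a, v (ev (P q.2) (φ a))))
    (hdet : ∀ (α : Qb) (P : Fin n0 → Place Qb F), Function.Injective P →
      (∀ l, 0 < (P l).ord (x - algebraMap Qb F α)) →
      (Matrix.of fun l i => ev (P l) (w i)).det ≠ 0)
    (hval : ∀ (α : Qb) (P : Place Qb F), 0 < P.ord (x - algebraMap Qb F α) →
      valVec ev φ P ≠ 0)
    (hsig : ∀ (α : Qb) (P Q : Place Qb F), 0 < P.ord (x - algebraMap Qb F α) →
      0 < Q.ord (x - algebraMap Qb F α) → P ≠ Q → sigVec ev φ P Q ≠ 0)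
    (α : Qb) (Fib : Finset (Place Qb F)) (hcard : Fib.card = n0)
    (hFib : ∀ u ∈ Fib, 0 < u.ord (x - algebraMap Qb F α)) :
    (2 * (n0 : ℝ) + 2 * (g : ℝ) - 2) * hQ α - (Real.log c + (Γ.map hQ).sum) ≤
      Fermat.Agent.S17.H.F.offDiag (plD ev φ) Fib := by
  -- enumerate the fibre
  let e : Fin n0 ≃ Fib := (Fib.equivFinOfCardEq hcard).symm
  let P : Fin n0 → Place Qb F := fun l => (e l : Place Qb F)
  have hPinj : Function.Injective P := fun a b h => e.injective (Subtype.ext h)
  have hPmem : ∀ l, P l ∈ Fib := fun l => (e l).2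
  have hPα : ∀ l, 0 < (P l).ord (x - algebraMap Qb F α) := fun l => hFib _ (hPmem l)
  have himg : Finset.univ.image P = Fib := by
    ext u
    constructor
    · intro hu
      obtain ⟨l, -, rfl⟩ := Finset.mem_image.mp hu
      exact hPmem l
    · intro hu
      refine Finset.mem_image.mpr ⟨e.symm ⟨u, hu⟩, Finset.mem_univ _, ?_⟩
      show ((e (e.symm ⟨u, hu⟩) : Fib) : Place Qb F) = u
      rw [Equiv.apply_symm_apply]
  -- the local functions
  have hW : (Matrix.of fun l i => ev (P l) (w i)).det ≠ 0 := hdet α P hPinj hPα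
  have hV : ∀ l, HasHT (fun v => ⨆ a, v (valVec ev φ (P l) a)) (hT (valVec ev φ (P l))) :=
    fun l => hasHT_tuple (hval α (P l) (hPα l))
  have hS : ∀ q ∈ (Finset.univ : Finset (Fin n0)).offDiag,
      HasHT (fun v => ⨆ ab : Fin r × Fin r, v (sigVec ev φ (P q.1) (P q.2) ab))
        (hT (sigVec ev φ (P q.1) (P q.2))) := by
    intro q hq
    have hne : q.1 ≠ q.2 := (Finset.mem_offDiag.mp hq).2.2
    exact hasHT_tuple (hsig α (P q.1) (P q.2) (hPα q.1) (hPα q.2) fun h => hne (hPinj h))
  have hL := ((hasHT_max_one α).pow (2 * g + 2 * n0 - 2)).mul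
    (HasHT.prod (Finset.univ : Finset (Fin n0)).offDiag
      (L := fun q v => ⨆ ab : Fin r × Fin r, v (sigVec ev φ (P q.1) (P q.2) ab))
      (h := fun q => hT (sigVec ev φ (P q.1) (P q.2))) hS)
  have hL' := ((hasHT_scalar hW).pow 2).mul
    (HasHT.prod (Finset.univ : Finset (Fin n0)).offDiag
      (L := fun q v => (⨆ a, v (valVec ev φ (P q.1) a)) * ⨆ a, v (valVec ev φ (P q.2) a))
      (h := fun q => hT (valVec ev φ (P q.1)) + hT (valVec ev φ (P q.2)))
      fun q _ => (hV q.1).mul (hV q.2))
  have key := hL.le_of_locConst hL' hc Γ fun v => by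
    have h := hloc v α P hPα
    rw [mul_assoc] at h
    exact h
  -- the sum over the fibre
  rw [← himg, offDiag_eq_sum (plD ev φ) P hPinj]
  have hsum : ∑ q ∈ (Finset.univ : Finset (Fin n0)).offDiag, plD ev φ (P q.1) (P q.2) =
      ∑ q ∈ (Finset.univ : Finset (Fin n0)).offDiag,
          (hT (valVec ev φ (P q.1)) + hT (valVec ev φ (P q.2))) -
        ∑ q ∈ (Finset.univ : Finset (Fin n0)).offDiag, hT (sigVec ev φ (P q.1) (P q.2)) := by
    rw [← Finset.sum_sub_distrib]
    rfl
  rw [hsum]
  have hE : ((2 * g + 2 * n0 - 2 : ℕ) : ℝ) = 2 * (n0 : ℝ) + 2 * (g : ℝ) - 2 := by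
    have h2 : 2 ≤ 2 * g + 2 * n0 := by omega
    rw [Nat.cast_sub h2]
    push_cast
    ring
  rw [hE] at key
  linarith

end Fermat.Agent.S17.H.Fib2.ExitCore
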