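/-
PROGRAM MW (S17), strand H, block D4 (FIB), racing twin "two charts", leaf VAL (helper145).

The value matrix `W(α) = [w_i(P_l)]` of a chart on an unramified fibre is invertible.

* `det_ne_zero_of_simple` (any chart `IsChart K x w`, any value function `Glob.IsEval ev`): if the
  places `P l` (`l : Fin n`, `n` the rank of the chart) are simple zeros of `x - α` and `x - α`
  has no other zero among the places where `x` is regular, then `det [ev (P l) (w i)] ≠ 0`.
  Proof: a `K`-combination `f = ∑ c_j w_j` vanishing at all the `P l` is divisible by `x - α` in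
  `regWhere K x`; comparing coordinates, `C (c j) = (X - C α) * cg j`, so `c = 0`.
* `det_fibre_ne_zero` (chart 0): `x` regular off `v₀` with a pole of order `n0 > 0` at `v₀`, `w` a
  `K[x]`-basis of `regOff v₀` (R14), `P : Fin n0 → Place K F` injective with `0 < (P i).ord (x - α)`
  (helper29's form of an unramified fibre, `Fib.fibre_ord`): `det [ev (P l) (w i)] ≠ 0`.
* `fibre_complete` : such a `P` is the whole fibre - every zero of `x - α` is one of the `P i`.
* `fibre_mem`, `fibre_ev_eq`, `fibre_ne` : `x` is regular at the `P i`, with value `α`, and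
  `P i ≠ v₀`.
-/
import Mathlib
import Fermat.Agent.S17.H.Fib.FibreValue
import Fermat.Agent.S17.H.Fib2.Chart0

set_option autoImplicit false
set_option linter.unusedSectionVars false
set_option linter.unusedVariables false

namespace Fermat.Agent.S17.H.Fib2.Val

open AlgebraicCurve Matrix
open Fermat.Agent.S24.FF

variable {K F : Type*} [Field K] [Field F] [Algebra K F]

/-- **VAL, general chart.**  On a fibre of simple zeros of `x - α` which exhausts the zeros of
`x - α` (among the places where `x` is regular), the value matrix of the basis of a chart is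
invertible. -/
theorem det_ne_zero_of_simple {ev : Place K F → F → K} (hev : Glob.IsEval ev) {x : F} {n : ℕ}
    {w : Fin n → F} (h : IsChart K x w) (α : K) (P : Fin n → Place K F)
    (h1 : ∀ l, (P l).ord (x - algebraMap K F α) = 1)
    (h0 : ∀ v : Place K F, x ∈ v.toValuationSubring → (∀ l, v ≠ P l) →
      v.ord (x - algebraMap K F α) = 0) :
    (Matrix.of fun l i => ev (P l) (w i)).det ≠ 0 := by
  classical
  intro hdet0
  obtain ⟨c, hc0, hc⟩ := Matrix.exists_mulVec_eq_zero_iff.mpr hdet0
  have hxP : ∀ l, x ∈ (P l).toValuationSubring := fun l =>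
    (Chart0.mem_and_ev_eq_of_ord_pos hev (by rw [h1 l]; exact one_pos)).1
  obtain ⟨f, hf⟩ : ∃ f : F, f = ∑ j, Polynomial.aeval x (Polynomial.C (c j)) * w j := ⟨_, rfl⟩
  have hfmem : f ∈ regWhere K x := by
    rw [hf]
    exact h.sum_mem _
  have hevf : ∀ l, ev (P l) f = 0 := by
    intro l
    rw [Chart0.ev_of_repr hev h.mem (hxP l) (fun j => Polynomial.C (c j)) hf]
    have h' := congrFun hc l
    simp only [Matrix.mulVec, dotProduct, Matrix.of_apply, Pi.zero_apply] at h'
    rw [← h']
    refine Finset.sum_congr rfl fun j _ => ?_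
    rw [Polynomial.eval_C, mul_comm]
  have hf0 : f = 0 := by
    by_contra hne
    have hy0 : x - algebraMap K F α ≠ 0 := by
      intro hz
      have hex : ∃ l : Fin n, True := by
        by_contra hno
        apply hc0
        funext j
        exact absurd ⟨j, trivial⟩ hno
      obtain ⟨l, -⟩ := hex
      have h2 := h1 l
      rw [hz, Place.ord_zero] at h2
      exact zero_ne_one h2
    have hg : f / (x - algebraMap K F α) ∈ regWhere K x := by
      intro v hv
      have hgne : f / (x - algebraMap K F α) ≠ 0 := div_ne_zero hne hy0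
      rw [← ord_nonneg_iff v hgne, div_eq_mul_inv, v.ord_mul hne (inv_ne_zero hy0), v.ord_inv]
      by_cases hvP : ∃ l, v = P l
      · obtain ⟨l, rfl⟩ := hvP
        rw [h1 l]
        have hpos : 0 < (P l).ord f := by
          rcases (hev.eq_zero_iff (hfmem (P l) hv)).mp (hevf l) with h' | h'
          · exact absurd h' hne
          · exact h'
        omega
      · have hvP' : ∀ l, v ≠ P l := fun l hl => hvP ⟨l, hl⟩
        rw [h0 v hv hvP']
        have h3 := ord_nonneg_of_mem v (hfmem v hv)
        omega
    obtain ⟨cg, hcg, -⟩ := h.rep _ hg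
    have h2 : f = ∑ j, Polynomial.aeval x ((Polynomial.X - Polynomial.C α) * cg j) * w j := by
      have h3 : f = (x - algebraMap K F α) * (f / (x - algebraMap K F α)) := by
        field_simp
      rw [h3, hcg, Finset.mul_sum]
      refine Finset.sum_congr rfl fun j _ => ?_
      rw [map_mul, map_sub, Polynomial.aeval_X, Polynomial.aeval_C, mul_assoc]
    have huniq := h.eq_of_sum_eq (fun j => Polynomial.C (c j))
      (fun j => (Polynomial.X - Polynomial.C α) * cg j) (hf.symm.trans h2)
    apply hc0
    funext j
    have hj : Polynomial.C (c j) = (Polynomial.X - Polynomial.C α) * cg j := congrFun huniq j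
    by_cases hz : cg j = 0
    · rw [hz, mul_zero] at hj
      exact Polynomial.C_eq_zero.mp hj
    · have hdeg := congrArg Polynomial.natDegree hj
      rw [Polynomial.natDegree_C, Polynomial.natDegree_mul (Polynomial.X_sub_C_ne_zero α) hz,
        Polynomial.natDegree_X_sub_C] at hdeg
      omega
  have hzero := h.eq_zero_of_sum_eq_zero (fun j => Polynomial.C (c j)) (hf.symm.trans hf0)
  apply hc0
  funext j
  exact Polynomial.C_eq_zero.mp (congrFun hzero j)

variable [IsAlgClosed K] [CharZero K] [Algebra.EssFiniteType K F]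

/-- The points of an unramified fibre are different from the pole `v₀` of `x`. -/
theorem fibre_ne (htr : Algebra.trdeg K F = 1) (v₀ : Place K F) {x : F} (hx : x ∈ R.regOff v₀)
    {n0 : ℕ} (hn0 : 0 < n0) (hord : v₀.ord x = -(n0 : ℤ)) (α : K) (P : Fin n0 → Place K F)
    (hP : Function.Injective P) (hα : ∀ i, 0 < (P i).ord (x - algebraMap K F α)) (i : Fin n0) :
    P i ≠ v₀ :=
  (Fib.fibre_ord htr v₀ hx hn0 hord α P hP hα).1 i

/-- `x` is regular at the points of a fibre. -/
theorem fibre_mem {x : F} {α : K} {P : Place K F} (hα : 0 < P.ord (x - algebraMap K F α)) :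
    x ∈ P.toValuationSubring := by
  have h2 : x - algebraMap K F α ∈ P.toValuationSubring := mem_of_ord_pos P hα
  have h4 := P.toValuationSubring.add_mem _ _ h2 (P.algebraMap_mem' α)
  rwa [sub_add_cancel] at h4

/-- The value of `x` at the points of the fibre over `α` is `α`. -/
theorem fibre_ev_eq {ev : Place K F → F → K} (hev : Glob.IsEval ev) {x : F} {α : K}
    {P : Place K F} (hα : 0 < P.ord (x - algebraMap K F α)) : ev P x = α :=
  (Chart0.mem_and_ev_eq_of_ord_pos hev hα).2

/-- **VAL, chart 0.**  On an unramified fibre of `x` (`n0` distinct zeros of `x - α`, `n0` the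
pole order of `x` at its only pole `v₀`), the value matrix `[w_i(P_l)]` of a `K[x]`-basis `w` of
`regOff v₀` is invertible. -/
theorem det_fibre_ne_zero (htr : Algebra.trdeg K F = 1) (v₀ : Place K F) {x : F}
    (hx : x ∈ R.regOff v₀) {n0 : ℕ} (hn0 : 0 < n0) (hord : v₀.ord x = -(n0 : ℤ))
    {w : Fin n0 → F} (hw : ∀ i, w i ∈ R.regOff v₀)
    (hbasis : ∀ f ∈ R.regOff v₀, ∃! c : Fin n0 → Polynomial K,
      f = ∑ i, Polynomial.aeval x (c i) * w i)
    {ev : Place K F → F → K} (hev : Glob.IsEval ev) (α : K) (P : Fin n0 → Place K F)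
    (hP : Function.Injective P) (hα : ∀ i, 0 < (P i).ord (x - algebraMap K F α)) :
    (Matrix.of fun l i => ev (P l) (w i)).det ≠ 0 := by
  obtain ⟨hPne, hP1, hP0⟩ := Fib.fibre_ord htr v₀ hx hn0 hord α P hP hα
  have hordneg : v₀.ord x < 0 := by
    rw [hord]
    have : (0 : ℤ) < (n0 : ℤ) := by exact_mod_cast hn0
    omega
  have hch : IsChart K x w := isChart_zero v₀ hx hordneg hw hbasis
  refine det_ne_zero_of_simple hev hch α P hP1 fun v hxv hvP => hP0 v ?_ hvP
  rintro rfl
  have h3 := ord_nonneg_of_mem v hxv
  omega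

/-- An unramified fibre is the whole fibre: every zero of `x - α` is one of the `P i`. -/
theorem fibre_complete (htr : Algebra.trdeg K F = 1) (v₀ : Place K F) {x : F}
    (hx : x ∈ R.regOff v₀) {n0 : ℕ} (hn0 : 0 < n0) (hord : v₀.ord x = -(n0 : ℤ)) (α : K)
    (P : Fin n0 → Place K F) (hP : Function.Injective P)
    (hα : ∀ i, 0 < (P i).ord (x - algebraMap K F α)) (Q : Place K F)
    (hQ : 0 < Q.ord (x - algebraMap K F α)) : ∃ i, Q = P i := by
  obtain ⟨hPne, hP1, hP0⟩ := Fib.fibre_ord htr v₀ hx hn0 hord α P hP hα
  by_contra hno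
  have hno' : ∀ i, Q ≠ P i := fun i hi => hno ⟨i, hi⟩
  have hQne : Q ≠ v₀ := by
    rintro rfl
    have h3 := ord_nonneg_of_mem Q (fibre_mem hQ)
    have : (0 : ℤ) < (n0 : ℤ) := by exact_mod_cast hn0
    omega
  have h4 := hP0 Q hQne hno'
  omega

end Fermat.Agent.S17.H.Fib2.Val
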