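/-
PROGRAM MW (S17), strand H, block D4 (FIB), racing twin "two charts": the LOCAL CLAIM (helper274).

`x` regular off `v₀` with a pole of order `n0 ≥ 2` at `v₀`, `(ν, w)` an Apery basis
(`R.exists_apery_basis`), `φ a ∈ L(n0 μ v₀)` with `1` and `x ^ μ` in the `K`-span of the `φ a`.
For every absolute value `v` of `K`, every `α : K` and places `P l` (`l : Fin n0`) over `x = α`:

`max 1 (v α) ^ (2 g + 2 n0 - 2) * ∏_{l ≠ l'} sup_{a,b} v (φ_a(P_l) φ_b(P_l') - φ_b(P_l) φ_a(P_l'))`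
`  ≤ locConst c Γ v * v (det [w_i(P_l)]) ^ 2 * ∏_{l ≠ l'} (sup_a v (φ_a(P_l)) * sup_a v (φ_a(P_l')))`

with `(c, Γ)` independent of `v`, `α`, `P` (`fibre_local`, and `fibre_local_ab` for one pair
`(a, b)` at each ordered pair of points).

* `local_claim_zero` (`v α ≤ 1`): the chart claim (`ChartClaim.chart_claim`) on chart `0 = (x, w)`;
  `1 ∈ span φ` gives `sup_a v (φ_a(P)) ≥ 1 / locConst`.
* `local_claim_inf` (`1 ≤ v α`): the chart claim on chart `∞ = (x⁻¹, w i * x⁻¹ ^ ⌈ν i / n0⌉)`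
  (`ChartInf.isChart_inv`) for `φ a * x⁻¹ ^ μ` (`ChartInf.coords_inv`) at `α⁻¹`; the secant vectors
  scale by `α⁻¹ ^ (2 μ)`, the determinant by `α⁻¹ ^ (g + n0 - 1)` (`ChartInf.sum_ceil`), and
  `x ^ μ ∈ span φ` gives `v α ^ μ ≤ locConst * sup_a v (φ_a(P))`.
-/
import Mathlib
import Fermat.Agent.S17.H.Fib2.ChartClaim
import Fermat.Agent.S17.H.Fib2.ChartInf
import Fermat.Agent.S17.H.Fib2.Val
import Fermat.Agent.S17.R.PoleDegree

set_option autoImplicit false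

namespace Fermat.Agent.S17.H.Fib2.Local

open AlgebraicCurve
open Fermat.Agent.S24
open Fermat.Agent.S17.H.Cert

variable {K F : Type*} [Field K] [Field F] [Algebra K F]

/-- The value of a `K`-combination of the `φ a` is bounded by the sizes of the values of the
`φ a`, with a constant of product type. -/
theorem exists_span_bound {r : ℕ} (φ : Fin r → F) {z : F}
    (hz : z ∈ Submodule.span K (Set.range φ)) :
    ∃ (c : ℝ) (Γ : Multiset K), 1 ≤ c ∧ ∀ (ev : Place K F → F → K), Glob.IsEval ev →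
      ∀ (v : AbsoluteValue K ℝ) (P : Place K F), (∀ a, φ a ∈ P.toValuationSubring) →
        v (ev P z) ≤ locConst c Γ v * ⨆ a, v (ev P (φ a)) := by
  classical
  obtain ⟨cc, hcc⟩ := (Submodule.mem_span_range_iff_exists_fun K).mp hz
  have hr : (0 : ℝ) ≤ (r : ℝ) := Nat.cast_nonneg r
  refine ⟨(r : ℝ) + 1, Finset.univ.val.map cc, by linarith, ?_⟩
  intro ev hev v P hP
  have hmem : ∀ a ∈ (Finset.univ : Finset (Fin r)), cc a • φ a ∈ P.toValuationSubring := by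
    intro a _
    rw [Algebra.smul_def]
    exact P.toValuationSubring.mul_mem _ _ (P.algebraMap_mem' _) (hP a)
  have h1 : ev P z = ∑ a, cc a * ev P (φ a) := by
    rw [← hcc, hev.map_sum _ _ hmem]
    exact Finset.sum_congr rfl fun a _ => hev.map_smul (cc a) (hP a)
  rw [h1]
  have hsup0 : 0 ≤ ⨆ a, v (ev P (φ a)) := Real.iSup_nonneg fun a => v.nonneg _
  have hterm : ∀ a ∈ (Finset.univ : Finset (Fin r)), v (cc a * ev P (φ a)) ≤
      gamProd (Finset.univ.val.map cc) v * ⨆ a, v (ev P (φ a)) := by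
    intro a _
    rw [map_mul]
    exact mul_le_mul
      (le_gamProd_of_mem (Multiset.mem_map_of_mem cc (Finset.mem_univ_val a)) v)
      (Finite.le_ciSup (fun a => v (ev P (φ a))) a) (v.nonneg _) (gamProd_pos _ v).le
  have key := abv_sum_le_locConst v (c := (r : ℝ) + 1) (by linarith) (0 : Multiset K)
    Finset.univ (fun a => cc a * ev P (φ a))
    (by rw [Finset.card_univ, Fintype.card_fin]; linarith)
    (mul_nonneg (gamProd_pos _ v).le hsup0) hterm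
  refine key.trans (le_of_eq ?_)
  unfold locConst
  rw [gamProd_zero, mul_one, mul_assoc]

/-- The real-number core of the chart at infinity. -/
theorem real_core {a t S Wd L₁ L₂ TT : ℝ} {G μ D : ℕ} (hat : a * t = 1)
    (hL₁ : 0 ≤ L₁)
    (h1 : (t ^ (2 * μ)) ^ D * S ≤ L₁ * (Wd * t ^ G) ^ 2)
    (h2 : ((a ^ μ) ^ 2) ^ D ≤ (L₂ ^ 2) ^ D * TT) :
    a ^ (2 * G) * S ≤ L₁ * L₂ ^ (2 * D) * Wd ^ 2 * TT := by
  have e0 : (a ^ (2 * μ)) ^ D * (t ^ (2 * μ)) ^ D = 1 := by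
    rw [← mul_pow, ← mul_pow, hat, one_pow, one_pow]
  have e1 : a ^ (2 * G) * S = a ^ (2 * G) * (a ^ (2 * μ)) ^ D * ((t ^ (2 * μ)) ^ D * S) := by
    calc a ^ (2 * G) * S = a ^ (2 * G) * (((a ^ (2 * μ)) ^ D * (t ^ (2 * μ)) ^ D) * S) := by
          rw [e0, one_mul]
      _ = a ^ (2 * G) * (a ^ (2 * μ)) ^ D * ((t ^ (2 * μ)) ^ D * S) := by ring
  have e3 : a ^ (2 * G) * (t ^ G) ^ 2 = 1 := by
    have : a ^ (2 * G) * (t ^ G) ^ 2 = (a * t) ^ (2 * G) := by ring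
    rw [this, hat, one_pow]
  have e2 : a ^ (2 * G) * (a ^ (2 * μ)) ^ D * (L₁ * (Wd * t ^ G) ^ 2) =
      L₁ * Wd ^ 2 * ((a ^ μ) ^ 2) ^ D := by
    calc a ^ (2 * G) * (a ^ (2 * μ)) ^ D * (L₁ * (Wd * t ^ G) ^ 2)
        = L₁ * Wd ^ 2 * (a ^ (2 * G) * (t ^ G) ^ 2) * (a ^ (2 * μ)) ^ D := by ring
      _ = L₁ * Wd ^ 2 * (a ^ (2 * μ)) ^ D := by rw [e3, mul_one]
      _ = L₁ * Wd ^ 2 * ((a ^ μ) ^ 2) ^ D := by ring
  have hpos : 0 ≤ a ^ (2 * G) * (a ^ (2 * μ)) ^ D := by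
    have h3 : a ^ (2 * G) * (a ^ (2 * μ)) ^ D = (a ^ (G + μ * D)) ^ 2 := by ring
    rw [h3]
    exact sq_nonneg _
  rw [e1]
  calc a ^ (2 * G) * (a ^ (2 * μ)) ^ D * ((t ^ (2 * μ)) ^ D * S)
      ≤ a ^ (2 * G) * (a ^ (2 * μ)) ^ D * (L₁ * (Wd * t ^ G) ^ 2) :=
        mul_le_mul_of_nonneg_left h1 hpos
    _ = L₁ * Wd ^ 2 * ((a ^ μ) ^ 2) ^ D := e2
    _ ≤ L₁ * Wd ^ 2 * ((L₂ ^ 2) ^ D * TT) :=
        mul_le_mul_of_nonneg_left h2 (mul_nonneg hL₁ (sq_nonneg _))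
    _ = L₁ * L₂ ^ (2 * D) * Wd ^ 2 * TT := by ring

variable [IsAlgClosed K] [CharZero K] [Algebra.EssFiniteType K F]

/-- **The local claim, chart at infinity** (`1 ≤ v α`). -/
theorem local_claim_inf (htr : Algebra.trdeg K F = 1) (v₀ : Place K F) {x : F}
    (hx : x ∈ R.regOff v₀) {n0 : ℕ} (hn0 : 2 ≤ n0) (hord : v₀.ord x = -(n0 : ℤ))
    (ν : Fin n0 → ℕ) (w : Fin n0 → F)
    (hw : ∀ i, w i ∈ R.regOff v₀ ∧ v₀.ord (w i) = -(ν i : ℤ) ∧ ν i % n0 = (i : ℕ))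
    (hrep : ∀ f ∈ R.regOff v₀,
      ∃! c : Fin n0 → Polynomial K, f = ∑ i, Polynomial.aeval x (c i) * w i)
    (hle : ∀ c : Fin n0 → Polynomial K, (∑ i, Polynomial.aeval x (c i) * w i) ≠ 0 →
      ∀ i, c i ≠ 0 → v₀.ord (∑ i, Polynomial.aeval x (c i) * w i) ≤
        -((n0 * (c i).natDegree + ν i : ℕ) : ℤ))
    (hg : (R.gR K F : ℤ) = ∑ i, ((ν i / n0 : ℕ) : ℤ))
    {μ r : ℕ} (φ : Fin r → F)
    (hφ : ∀ a, φ a ∈ riemannRochSpace (((n0 * μ : ℕ) : ℤ) • Finsupp.single v₀ (1 : ℤ)))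
    (hxμ : x ^ μ ∈ Submodule.span K (Set.range φ)) :
    ∃ (c : ℝ) (Γ : Multiset K), 1 ≤ c ∧
      ∀ (ev : Place K F → F → K), Glob.IsEval ev → ∀ (v : AbsoluteValue K ℝ) (α : K)
        (P : Fin n0 → Place K F), (∀ l, 0 < (P l).ord (x - algebraMap K F α)) → 1 ≤ v α →
        v α ^ (2 * R.gR K F + 2 * n0 - 2) *
            ∏ q ∈ (Finset.univ : Finset (Fin n0)).offDiag,
              (⨆ ab : Fin r × Fin r, v (ev (P q.1) (φ ab.1) * ev (P q.2) (φ ab.2) -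
                ev (P q.1) (φ ab.2) * ev (P q.2) (φ ab.1)))
          ≤ locConst c Γ v * v (Matrix.of fun l i => ev (P l) (w i)).det ^ 2 *
            ∏ q ∈ (Finset.univ : Finset (Fin n0)).offDiag,
              ((⨆ a, v (ev (P q.1) (φ a))) * ⨆ a, v (ev (P q.2) (φ a))) := by
  classical
  have hn0' : 0 < n0 := by omega
  have hx0 : x ≠ 0 := by
    rintro rfl
    rw [Place.ord_zero] at hord
    omega
  have hxtr : Transcendental K x⁻¹ := by
    refine R.PoleDegree.transcendental_of_ord_ne_zero (v := v₀) ?_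
    rw [Place.ord_inv, hord]
    omega
  have hchart := ChartInf.isChart_inv htr v₀ hx hn0' hord ν w hw hrep hle
  have hφR : ∀ a, φ a ∈ R.regOff v₀ := fun a => R.Apery.mem_regOff_of_mem_L (hφ a)
  have hp' : ∀ a, ∃ c : Fin n0 → Polynomial K, φ a = ∑ i, Polynomial.aeval x (c i) * w i :=
    fun a => (hrep _ (hφR a)).exists
  choose p hp using hp'
  have hφ' : ∀ a, φ a * x⁻¹ ^ μ ∈ regWhere K x⁻¹ := fun a =>
    (ChartInf.coords_inv htr v₀ hx hn0' hord ν w hw hrep hle μ (hφ a) (p a) (hp a)).2.1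
  obtain ⟨c₁, Γ₁, hc₁, hclaim⟩ :=
    ChartClaim.chart_claim htr hxtr hn0 hchart (fun a => φ a * x⁻¹ ^ μ) hφ'
  obtain ⟨c₂, Γ₂, hc₂, hspan⟩ := exists_span_bound φ hxμ
  obtain ⟨D, hD⟩ : ∃ D : ℕ, D = (Finset.univ : Finset (Fin n0)).offDiag.card := ⟨_, rfl⟩
  obtain ⟨G, hG⟩ : ∃ G : ℕ, G = R.gR K F + n0 - 1 := ⟨_, rfl⟩
  have hsum : ∑ i, (ν i + n0 - 1) / n0 = G := by
    rw [hG]
    exact ChartInf.sum_ceil hn0' ν (fun i => (hw i).2.2) hg
  have hexp : 2 * R.gR K F + 2 * n0 - 2 = 2 * G := by omega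
  refine ⟨c₁ * c₂ ^ (2 * D), Γ₁ + (2 * D) • Γ₂,
    one_le_mul_of_one_le_of_one_le hc₁ (one_le_pow₀ hc₂), ?_⟩
  intro ev hev v α P hα hvα
  have hvα0 : 0 < v α := lt_of_lt_of_le zero_lt_one hvα
  have hα0 : α ≠ 0 := by
    intro h
    rw [h, map_zero] at hvα0
    exact lt_irrefl _ hvα0
  have hxP : ∀ l, x ∈ (P l).toValuationSubring := fun l => Val.fibre_mem (hα l)
  have hevx : ∀ l, ev (P l) x = α := fun l => Val.fibre_ev_eq hev (hα l)
  have hPne : ∀ l, P l ≠ v₀ := by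
    intro l h
    have h1 := (FF.ord_nonneg_iff (P l) hx0).mpr (hxP l)
    rw [h, hord] at h1
    omega
  have hordx : ∀ l, (P l).ord x ≤ 0 := by
    intro l
    by_contra h
    have h1 := (hev.eq_zero_iff (hxP l)).mpr (Or.inr (not_le.mp h))
    rw [hevx l] at h1
    exact hα0 h1
  have hxiP : ∀ l, x⁻¹ ∈ (P l).toValuationSubring :=
    fun l => (ChartInf.inv_mem_iff (P l) hx0).mpr (hordx l)
  have hevxi : ∀ l, ev (P l) x⁻¹ = α⁻¹ := by
    intro l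
    have h1 := hev.map_mul (hxP l) (hxiP l)
    rw [mul_inv_cancel₀ hx0, hev.map_one, hevx l] at h1
    exact eq_inv_of_mul_eq_one_right h1.symm
  have hvαi : v α⁻¹ ≤ 1 := by
    rw [map_inv₀]
    exact inv_le_one_of_one_le₀ hvα
  have key := hclaim ev hev v α⁻¹ P hxiP hevxi hvαi
  -- the value bridges
  have hφP : ∀ l a, φ a ∈ (P l).toValuationSubring := fun l a => hφR a (P l) (hPne l)
  have hwP : ∀ l i, w i ∈ (P l).toValuationSubring := fun l i => (hw i).1 (P l) (hPne l)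
  have hevφ : ∀ l a, ev (P l) (φ a * x⁻¹ ^ μ) = ev (P l) (φ a) * α⁻¹ ^ μ := by
    intro l a
    rw [hev.map_mul (hφP l a) ((P l).toValuationSubring.pow_mem (hxiP l) μ),
      hev.map_pow (hxiP l), hevxi l]
  have hevw : ∀ l i, ev (P l) (w i * x⁻¹ ^ ((ν i + n0 - 1) / n0)) =
      ev (P l) (w i) * α⁻¹ ^ ((ν i + n0 - 1) / n0) := by
    intro l i
    rw [hev.map_mul (hwP l i) ((P l).toValuationSubring.pow_mem (hxiP l) _),
      hev.map_pow (hxiP l), hevxi l]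
  have ht0 : 0 ≤ v α⁻¹ := v.nonneg _
  have htα : v α * v α⁻¹ = 1 := by rw [← map_mul, mul_inv_cancel₀ hα0, map_one]
  -- the secant vectors scale by `α⁻¹ ^ (2 μ)`
  have hsig : ∀ q : Fin n0 × Fin n0,
      (⨆ ab : Fin r × Fin r, v (ev (P q.1) (φ ab.1 * x⁻¹ ^ μ) * ev (P q.2) (φ ab.2 * x⁻¹ ^ μ) -
        ev (P q.1) (φ ab.2 * x⁻¹ ^ μ) * ev (P q.2) (φ ab.1 * x⁻¹ ^ μ))) =
      v α⁻¹ ^ (2 * μ) * ⨆ ab : Fin r × Fin r, v (ev (P q.1) (φ ab.1) * ev (P q.2) (φ ab.2) -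
        ev (P q.1) (φ ab.2) * ev (P q.2) (φ ab.1)) := by
    intro q
    rw [Real.mul_iSup_of_nonneg (pow_nonneg ht0 _)]
    congr 1
    funext ab
    rw [hevφ, hevφ, hevφ, hevφ]
    have e1 : ev (P q.1) (φ ab.1) * α⁻¹ ^ μ * (ev (P q.2) (φ ab.2) * α⁻¹ ^ μ) -
        ev (P q.1) (φ ab.2) * α⁻¹ ^ μ * (ev (P q.2) (φ ab.1) * α⁻¹ ^ μ) =
        α⁻¹ ^ (2 * μ) * (ev (P q.1) (φ ab.1) * ev (P q.2) (φ ab.2) -
          ev (P q.1) (φ ab.2) * ev (P q.2) (φ ab.1)) := by ring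
    rw [e1, map_mul, map_pow]
  -- the determinant scales by `α⁻¹ ^ (g + n0 - 1)`
  have hdet : (Matrix.of fun l i => ev (P l) (w i * x⁻¹ ^ ((ν i + n0 - 1) / n0))).det =
      (Matrix.of fun l i => ev (P l) (w i)).det * α⁻¹ ^ G := by
    have h1 : (Matrix.of fun l i => ev (P l) (w i * x⁻¹ ^ ((ν i + n0 - 1) / n0))) =
        (Matrix.of fun l i => ev (P l) (w i)) *
          Matrix.diagonal (fun i => α⁻¹ ^ ((ν i + n0 - 1) / n0)) := by
      ext l i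
      rw [Matrix.mul_diagonal]
      exact hevw l i
    rw [h1, Matrix.det_mul, Matrix.det_diagonal, Finset.prod_pow_eq_pow_sum, hsum]
  have key2 : (v α⁻¹ ^ (2 * μ)) ^ D *
      ∏ q ∈ (Finset.univ : Finset (Fin n0)).offDiag,
        (⨆ ab : Fin r × Fin r, v (ev (P q.1) (φ ab.1) * ev (P q.2) (φ ab.2) -
          ev (P q.1) (φ ab.2) * ev (P q.2) (φ ab.1))) ≤
      locConst c₁ Γ₁ v * (v (Matrix.of fun l i => ev (P l) (w i)).det * v α⁻¹ ^ G) ^ 2 := by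
    have h1 : ∏ q ∈ (Finset.univ : Finset (Fin n0)).offDiag,
        (⨆ ab : Fin r × Fin r, v (ev (P q.1) (φ ab.1 * x⁻¹ ^ μ) * ev (P q.2) (φ ab.2 * x⁻¹ ^ μ) -
          ev (P q.1) (φ ab.2 * x⁻¹ ^ μ) * ev (P q.2) (φ ab.1 * x⁻¹ ^ μ))) =
        (v α⁻¹ ^ (2 * μ)) ^ D *
          ∏ q ∈ (Finset.univ : Finset (Fin n0)).offDiag,
            (⨆ ab : Fin r × Fin r, v (ev (P q.1) (φ ab.1) * ev (P q.2) (φ ab.2) -
              ev (P q.1) (φ ab.2) * ev (P q.2) (φ ab.1))) := by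
      rw [Finset.prod_congr rfl (fun q _ => hsig q), Finset.prod_mul_distrib,
        Finset.prod_const, ← hD]
    rw [← h1, ← map_pow, ← map_mul, ← hdet]
    exact key
  -- the lower bound for the sizes of the points
  have hlow : ∀ l, v α ^ μ ≤ locConst c₂ Γ₂ v * ⨆ a, v (ev (P l) (φ a)) := by
    intro l
    have h1 := hspan ev hev v (P l) (hφP l)
    rwa [hev.map_pow (hxP l), hevx l, map_pow] at h1
  have hL₂ : 0 ≤ locConst c₂ Γ₂ v := locConst_nonneg (le_trans zero_le_one hc₂) Γ₂ v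
  have hlow2 : ((v α ^ μ) ^ 2) ^ D ≤ (locConst c₂ Γ₂ v ^ 2) ^ D *
      ∏ q ∈ (Finset.univ : Finset (Fin n0)).offDiag,
        ((⨆ a, v (ev (P q.1) (φ a))) * ⨆ a, v (ev (P q.2) (φ a))) := by
    have h1 : ∏ _q ∈ (Finset.univ : Finset (Fin n0)).offDiag, (v α ^ μ) ^ 2 ≤
        ∏ q ∈ (Finset.univ : Finset (Fin n0)).offDiag, (locConst c₂ Γ₂ v ^ 2 *
          ((⨆ a, v (ev (P q.1) (φ a))) * ⨆ a, v (ev (P q.2) (φ a)))) := by
      refine Finset.prod_le_prod (fun q _ => sq_nonneg _) (fun q _ => ?_)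
      have h2 := mul_le_mul (hlow q.1) (hlow q.2) (pow_nonneg hvα0.le μ)
        (le_trans (pow_nonneg hvα0.le μ) (hlow q.1))
      calc (v α ^ μ) ^ 2 = v α ^ μ * v α ^ μ := sq _
        _ ≤ locConst c₂ Γ₂ v * (⨆ a, v (ev (P q.1) (φ a))) *
            (locConst c₂ Γ₂ v * ⨆ a, v (ev (P q.2) (φ a))) := h2
        _ = locConst c₂ Γ₂ v ^ 2 *
            ((⨆ a, v (ev (P q.1) (φ a))) * ⨆ a, v (ev (P q.2) (φ a))) := by ring
    rwa [Finset.prod_const, ← hD, Finset.prod_mul_distrib, Finset.prod_const, ← hD] at h1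
  have hfin := real_core (G := G) (μ := μ) (D := D) htα
    (locConst_nonneg (le_trans zero_le_one hc₁) Γ₁ v) key2 hlow2
  rw [hexp, ← locConst_mul, ← locConst_pow]
  exact hfin

/-- **The local claim, chart `0`** (`v α ≤ 1`). -/
theorem local_claim_zero (htr : Algebra.trdeg K F = 1) (v₀ : Place K F) {x : F}
    (hx : x ∈ R.regOff v₀) {n0 : ℕ} (hn0 : 2 ≤ n0) (hord : v₀.ord x = -(n0 : ℤ))
    (w : Fin n0 → F) (hw : ∀ i, w i ∈ R.regOff v₀)
    (hrep : ∀ f ∈ R.regOff v₀,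
      ∃! c : Fin n0 → Polynomial K, f = ∑ i, Polynomial.aeval x (c i) * w i)
    {r : ℕ} (φ : Fin r → F) (hφ : ∀ a, φ a ∈ R.regOff v₀)
    (h1 : (1 : F) ∈ Submodule.span K (Set.range φ)) :
    ∃ (c : ℝ) (Γ : Multiset K), 1 ≤ c ∧
      ∀ (ev : Place K F → F → K), Glob.IsEval ev → ∀ (v : AbsoluteValue K ℝ) (α : K)
        (P : Fin n0 → Place K F), (∀ l, 0 < (P l).ord (x - algebraMap K F α)) → v α ≤ 1 →
        ∏ q ∈ (Finset.univ : Finset (Fin n0)).offDiag,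
            (⨆ ab : Fin r × Fin r, v (ev (P q.1) (φ ab.1) * ev (P q.2) (φ ab.2) -
              ev (P q.1) (φ ab.2) * ev (P q.2) (φ ab.1)))
          ≤ locConst c Γ v * v (Matrix.of fun l i => ev (P l) (w i)).det ^ 2 *
            ∏ q ∈ (Finset.univ : Finset (Fin n0)).offDiag,
              ((⨆ a, v (ev (P q.1) (φ a))) * ⨆ a, v (ev (P q.2) (φ a))) := by
  classical
  have hordneg : v₀.ord x < 0 := by rw [hord]; omega
  have hx0 : x ≠ 0 := by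
    rintro rfl
    rw [Place.ord_zero] at hord
    omega
  have hxtr : Transcendental K x :=
    R.PoleDegree.transcendental_of_ord_ne_zero (v := v₀) (by omega)
  have hchart : IsChart K x w := isChart_zero v₀ hx hordneg hw hrep
  have hφ' : ∀ a, φ a ∈ regWhere K x := fun a => by
    rw [regWhere_eq_regOff v₀ hx hordneg]
    exact hφ a
  obtain ⟨c₁, Γ₁, hc₁, hclaim⟩ := ChartClaim.chart_claim htr hxtr hn0 hchart φ hφ'
  obtain ⟨c₂, Γ₂, hc₂, hspan⟩ := exists_span_bound φ h1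
  obtain ⟨D, hD⟩ : ∃ D : ℕ, D = (Finset.univ : Finset (Fin n0)).offDiag.card := ⟨_, rfl⟩
  refine ⟨c₁ * c₂ ^ (2 * D), Γ₁ + (2 * D) • Γ₂,
    one_le_mul_of_one_le_of_one_le hc₁ (one_le_pow₀ hc₂), ?_⟩
  intro ev hev v α P hα hvα
  have hxP : ∀ l, x ∈ (P l).toValuationSubring := fun l => Val.fibre_mem (hα l)
  have hevx : ∀ l, ev (P l) x = α := fun l => Val.fibre_ev_eq hev (hα l)
  have hPne : ∀ l, P l ≠ v₀ := by
    intro l h
    have h2 := (FF.ord_nonneg_iff (P l) hx0).mpr (hxP l)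
    rw [h, hord] at h2
    omega
  have hφP : ∀ l a, φ a ∈ (P l).toValuationSubring := fun l a => hφ a (P l) (hPne l)
  have key := hclaim ev hev v α P hxP hevx hvα
  have hL₁ : 0 ≤ locConst c₁ Γ₁ v := locConst_nonneg (le_trans zero_le_one hc₁) Γ₁ v
  have hL₂ : 0 ≤ locConst c₂ Γ₂ v := locConst_nonneg (le_trans zero_le_one hc₂) Γ₂ v
  have hlow : ∀ l, 1 ≤ locConst c₂ Γ₂ v * ⨆ a, v (ev (P l) (φ a)) := by
    intro l
    have h2 := hspan ev hev v (P l) (hφP l)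
    rwa [hev.map_one, map_one] at h2
  have hlow2 : (1 : ℝ) ≤ (locConst c₂ Γ₂ v ^ 2) ^ D *
      ∏ q ∈ (Finset.univ : Finset (Fin n0)).offDiag,
        ((⨆ a, v (ev (P q.1) (φ a))) * ⨆ a, v (ev (P q.2) (φ a))) := by
    have h2 : ∏ _q ∈ (Finset.univ : Finset (Fin n0)).offDiag, (1 : ℝ) ≤
        ∏ q ∈ (Finset.univ : Finset (Fin n0)).offDiag, (locConst c₂ Γ₂ v ^ 2 *
          ((⨆ a, v (ev (P q.1) (φ a))) * ⨆ a, v (ev (P q.2) (φ a)))) := by
      refine Finset.prod_le_prod (fun q _ => zero_le_one) (fun q _ => ?_)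
      have h3 := one_le_mul_of_one_le_of_one_le (hlow q.1) (hlow q.2)
      calc (1 : ℝ) ≤ locConst c₂ Γ₂ v * (⨆ a, v (ev (P q.1) (φ a))) *
            (locConst c₂ Γ₂ v * ⨆ a, v (ev (P q.2) (φ a))) := h3
        _ = locConst c₂ Γ₂ v ^ 2 *
            ((⨆ a, v (ev (P q.1) (φ a))) * ⨆ a, v (ev (P q.2) (φ a))) := by ring
    rwa [Finset.prod_const_one, Finset.prod_mul_distrib, Finset.prod_const, ← hD] at h2
  have hW0 : 0 ≤ locConst c₁ Γ₁ v * v (Matrix.of fun l i => ev (P l) (w i)).det ^ 2 :=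
    mul_nonneg hL₁ (sq_nonneg _)
  rw [← locConst_mul, ← locConst_pow]
  calc ∏ q ∈ (Finset.univ : Finset (Fin n0)).offDiag,
        (⨆ ab : Fin r × Fin r, v (ev (P q.1) (φ ab.1) * ev (P q.2) (φ ab.2) -
          ev (P q.1) (φ ab.2) * ev (P q.2) (φ ab.1)))
      ≤ locConst c₁ Γ₁ v * v (Matrix.of fun l i => ev (P l) (w i)).det ^ 2 := key
    _ = locConst c₁ Γ₁ v * v (Matrix.of fun l i => ev (P l) (w i)).det ^ 2 * 1 := (mul_one _).symm
    _ ≤ locConst c₁ Γ₁ v * v (Matrix.of fun l i => ev (P l) (w i)).det ^ 2 *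
        ((locConst c₂ Γ₂ v ^ 2) ^ D *
          ∏ q ∈ (Finset.univ : Finset (Fin n0)).offDiag,
            ((⨆ a, v (ev (P q.1) (φ a))) * ⨆ a, v (ev (P q.2) (φ a)))) :=
        mul_le_mul_of_nonneg_left hlow2 hW0
    _ = locConst c₁ Γ₁ v * locConst c₂ Γ₂ v ^ (2 * D) *
        v (Matrix.of fun l i => ev (P l) (w i)).det ^ 2 *
          ∏ q ∈ (Finset.univ : Finset (Fin n0)).offDiag,
            ((⨆ a, v (ev (P q.1) (φ a))) * ⨆ a, v (ev (P q.2) (φ a))) := by ring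

/-- **The local claim of the two-chart proof of D4**, at every absolute value, for the product
of the suprema. -/
theorem fibre_local (htr : Algebra.trdeg K F = 1) (v₀ : Place K F) {x : F}
    (hx : x ∈ R.regOff v₀) {n0 : ℕ} (hn0 : 2 ≤ n0) (hord : v₀.ord x = -(n0 : ℤ))
    (ν : Fin n0 → ℕ) (w : Fin n0 → F)
    (hw : ∀ i, w i ∈ R.regOff v₀ ∧ v₀.ord (w i) = -(ν i : ℤ) ∧ ν i % n0 = (i : ℕ))
    (hrep : ∀ f ∈ R.regOff v₀,
      ∃! c : Fin n0 → Polynomial K, f = ∑ i, Polynomial.aeval x (c i) * w i)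
    (hle : ∀ c : Fin n0 → Polynomial K, (∑ i, Polynomial.aeval x (c i) * w i) ≠ 0 →
      ∀ i, c i ≠ 0 → v₀.ord (∑ i, Polynomial.aeval x (c i) * w i) ≤
        -((n0 * (c i).natDegree + ν i : ℕ) : ℤ))
    (hg : (R.gR K F : ℤ) = ∑ i, ((ν i / n0 : ℕ) : ℤ))
    (μ : ℕ) {r : ℕ} (φ : Fin r → F)
    (hφ : ∀ a, φ a ∈ riemannRochSpace (((n0 * μ : ℕ) : ℤ) • Finsupp.single v₀ (1 : ℤ)))
    (h1 : (1 : F) ∈ Submodule.span K (Set.range φ))
    (hxμ : x ^ μ ∈ Submodule.span K (Set.range φ)) :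
    ∃ (c : ℝ) (Γ : Multiset K), 1 ≤ c ∧
      ∀ (ev : Place K F → F → K), Glob.IsEval ev → ∀ (v : AbsoluteValue K ℝ) (α : K)
        (P : Fin n0 → Place K F), (∀ l, 0 < (P l).ord (x - algebraMap K F α)) →
        max 1 (v α) ^ (2 * R.gR K F + 2 * n0 - 2) *
            ∏ q ∈ (Finset.univ : Finset (Fin n0)).offDiag,
              (⨆ ab : Fin r × Fin r, v (ev (P q.1) (φ ab.1) * ev (P q.2) (φ ab.2) -
                ev (P q.1) (φ ab.2) * ev (P q.2) (φ ab.1)))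
          ≤ locConst c Γ v * v (Matrix.of fun l i => ev (P l) (w i)).det ^ 2 *
            ∏ q ∈ (Finset.univ : Finset (Fin n0)).offDiag,
              ((⨆ a, v (ev (P q.1) (φ a))) * ⨆ a, v (ev (P q.2) (φ a))) := by
  classical
  obtain ⟨c₀, Γ₀, hc₀, h0⟩ := local_claim_zero htr v₀ hx hn0 hord w (fun i => (hw i).1) hrep φ
    (fun a => R.Apery.mem_regOff_of_mem_L (hφ a)) h1
  obtain ⟨c₁, Γ₁, hc₁, hinf⟩ := local_claim_inf htr v₀ hx hn0 hord ν w hw hrep hle hg φ hφ hxμ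
  refine ⟨c₀ * c₁, Γ₀ + Γ₁, one_le_mul_of_one_le_of_one_le hc₀ hc₁, ?_⟩
  intro ev hev v α P hα
  have hL₀ : 1 ≤ locConst c₀ Γ₀ v := one_le_locConst hc₀ Γ₀ v
  have hL₁ : 1 ≤ locConst c₁ Γ₁ v := one_le_locConst hc₁ Γ₁ v
  have hT0 : 0 ≤ ∏ q ∈ (Finset.univ : Finset (Fin n0)).offDiag,
      ((⨆ a, v (ev (P q.1) (φ a))) * ⨆ a, v (ev (P q.2) (φ a))) :=
    Finset.prod_nonneg fun q _ => mul_nonneg (Real.iSup_nonneg fun a => v.nonneg _)
      (Real.iSup_nonneg fun a => v.nonneg _)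
  have hW0 : 0 ≤ v (Matrix.of fun l i => ev (P l) (w i)).det ^ 2 := sq_nonneg _
  rw [← locConst_mul]
  rcases le_total (v α) 1 with hv | hv
  · rw [max_eq_left hv, one_pow, one_mul]
    refine (h0 ev hev v α P hα hv).trans ?_
    refine mul_le_mul_of_nonneg_right (mul_le_mul_of_nonneg_right ?_ hW0) hT0
    exact le_mul_of_one_le_right (le_trans zero_le_one hL₀) hL₁
  · rw [max_eq_right hv]
    refine (hinf ev hev v α P hα hv).trans ?_
    refine mul_le_mul_of_nonneg_right (mul_le_mul_of_nonneg_right ?_ hW0) hT0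
    exact le_mul_of_one_le_left (le_trans zero_le_one hL₁) hL₀

/-- **The local claim, pointwise form**: one pair `(a, b)` at each ordered pair of points. -/
theorem fibre_local_ab (htr : Algebra.trdeg K F = 1) (v₀ : Place K F) {x : F}
    (hx : x ∈ R.regOff v₀) {n0 : ℕ} (hn0 : 2 ≤ n0) (hord : v₀.ord x = -(n0 : ℤ))
    (ν : Fin n0 → ℕ) (w : Fin n0 → F)
    (hw : ∀ i, w i ∈ R.regOff v₀ ∧ v₀.ord (w i) = -(ν i : ℤ) ∧ ν i % n0 = (i : ℕ))
    (hrep : ∀ f ∈ R.regOff v₀,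
      ∃! c : Fin n0 → Polynomial K, f = ∑ i, Polynomial.aeval x (c i) * w i)
    (hle : ∀ c : Fin n0 → Polynomial K, (∑ i, Polynomial.aeval x (c i) * w i) ≠ 0 →
      ∀ i, c i ≠ 0 → v₀.ord (∑ i, Polynomial.aeval x (c i) * w i) ≤
        -((n0 * (c i).natDegree + ν i : ℕ) : ℤ))
    (hg : (R.gR K F : ℤ) = ∑ i, ((ν i / n0 : ℕ) : ℤ))
    (μ : ℕ) {r : ℕ} (φ : Fin r → F)
    (hφ : ∀ a, φ a ∈ riemannRochSpace (((n0 * μ : ℕ) : ℤ) • Finsupp.single v₀ (1 : ℤ)))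
    (h1 : (1 : F) ∈ Submodule.span K (Set.range φ))
    (hxμ : x ^ μ ∈ Submodule.span K (Set.range φ)) :
    ∃ (c : ℝ) (Γ : Multiset K), 1 ≤ c ∧
      ∀ (ev : Place K F → F → K), Glob.IsEval ev → ∀ (v : AbsoluteValue K ℝ) (α : K)
        (P : Fin n0 → Place K F), (∀ l, 0 < (P l).ord (x - algebraMap K F α)) →
        ∀ ab : Fin n0 × Fin n0 → Fin r × Fin r,
        max 1 (v α) ^ (2 * R.gR K F + 2 * n0 - 2) *
            ∏ q ∈ (Finset.univ : Finset (Fin n0)).offDiag,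
              v (ev (P q.1) (φ (ab q).1) * ev (P q.2) (φ (ab q).2) -
                ev (P q.1) (φ (ab q).2) * ev (P q.2) (φ (ab q).1))
          ≤ locConst c Γ v * v (Matrix.of fun l i => ev (P l) (w i)).det ^ 2 *
            ∏ q ∈ (Finset.univ : Finset (Fin n0)).offDiag,
              ((⨆ a, v (ev (P q.1) (φ a))) * ⨆ a, v (ev (P q.2) (φ a))) := by
  classical
  obtain ⟨c, Γ, hc, h⟩ := fibre_local htr v₀ hx hn0 hord ν w hw hrep hle hg μ φ hφ h1 hxμ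
  refine ⟨c, Γ, hc, ?_⟩
  intro ev hev v α P hα ab
  refine le_trans ?_ (h ev hev v α P hα)
  refine mul_le_mul_of_nonneg_left ?_
    (pow_nonneg (le_trans zero_le_one (le_max_left 1 (v α))) _)
  refine Finset.prod_le_prod (fun q _ => v.nonneg _) (fun q _ => ?_)
  exact Finite.le_ciSup (fun ab : Fin r × Fin r => v (ev (P q.1) (φ ab.1) * ev (P q.2) (φ ab.2) -
    ev (P q.1) (φ ab.2) * ev (P q.2) (φ ab.1))) (ab q)

end Fermat.Agent.S17.H.Fib2.Local
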