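/-
MW strand H, block D4, two-chart twin, leaf EXIT: the fibre inequality.

`F / Qb` a function field of one variable, `v₀` a place, `x` regular off `v₀` with a pole of
order `n0 ≥ 2` at `v₀`, `ev` a value function, `φ` a finite family spanning `L(n0 μ v₀)`,
`μ` large.  Then for every unramified fibre `Fib` of `x` over `α`

`(2 n0 + 2 gR - 2) hQ α - C ≤ ∑_{P ≠ Q ∈ Fib} plD ev φ P Q`.

This is the conclusion of the D4 exit of record (the hypothesis `hfib` of `F.theta_fibre_le`),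
for `m0 = n0 * μ`; no comparison of heights is used.  Assembly of the twin leaves:
`R.exists_apery_basis` (Apery basis), `Local.fibre_local` (the two-chart local claim),
`Val.det_fibre_ne_zero` (the value matrix of a fibre is invertible), `Glob.SigNe` (the vectors
are non-zero) and `ExitCore.fibre_lower_of_local` (heights bookkeeping).
-/
import Mathlib
import Fermat.Agent.S17.R.Apery
import Fermat.Agent.S17.R.PoleDegree
import Fermat.Agent.S17.H.Glob.SigNe
import Fermat.Agent.S17.H.Fib2.Val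
import Fermat.Agent.S17.H.Fib2.ChartInf
import Fermat.Agent.S17.H.Fib2.Local
import Fermat.Agent.S17.H.Fib2.ExitCore

set_option autoImplicit false

namespace Fermat.Agent.S17.H.Fib2.Exit

open AlgebraicCurve
open Fermat.Agent.S17.H.Glob

local notation "Qb" => AlgebraicClosure ℚ

variable {F : Type*} [Field F] [Algebra Qb F] [Algebra.EssFiniteType Qb F]

/-- An unramified fibre of `x` has `n0` points. -/
theorem card_fibre (htr : Algebra.trdeg Qb F = 1) (v₀ : Place Qb F) {x : F}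
    (hx : x ∈ R.regOff v₀) {n0 : ℕ} (hn0 : 0 < n0) (hord : v₀.ord x = -(n0 : ℤ)) (α : Qb)
    (Fib : Finset (Place Qb F))
    (hFib : ∀ u, u ∈ Fib ↔ 0 < u.ord (x - algebraMap Qb F α))
    (hsimple : ∀ u ∈ Fib, u.ord (x - algebraMap Qb F α) = 1) : Fib.card = n0 := by
  have hsum := R.PoleDegree.sum_ord_fibre htr v₀ hx hn0 hord α
  have hset : {v : Place Qb F | 0 < v.ord (x - algebraMap Qb F α)} = (Fib : Set (Place Qb F)) := by
    ext u
    exact (hFib u).symm
  rw [hset, finsum_mem_coe_finset, Finset.sum_congr rfl hsimple, Finset.sum_const,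
    nsmul_eq_mul, mul_one] at hsum
  exact_mod_cast hsum

open Classical in
/-- **D4, two-chart twin: the fibre inequality** for `m0 = n0 * μ`, `μ` large. -/
theorem exists_fibre_lower_twin (htr : Algebra.trdeg Qb F = 1) (v₀ : Place Qb F) {x : F}
    (hx : x ∈ R.regOff v₀) {n0 : ℕ} (hn0 : 2 ≤ n0) (hord : v₀.ord x = -(n0 : ℤ))
    {ev : Place Qb F → F → Qb} (hev : IsEval ev) :
    ∃ μ₀ : ℕ, ∀ μ : ℕ, μ₀ ≤ μ → ∀ {r : ℕ} (φ : Fin r → F),
      Submodule.span Qb (Set.range φ) =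
        riemannRochSpace (((n0 * μ : ℕ) : ℤ) • Finsupp.single v₀ (1 : ℤ)) →
      ∃ C : ℝ, ∀ (α : Qb) (Fib : Finset (Place Qb F)),
        (∀ u, u ∈ Fib ↔ 0 < u.ord (x - algebraMap Qb F α)) →
        (∀ u ∈ Fib, u.ord (x - algebraMap Qb F α) = 1) →
        (2 * (n0 : ℝ) + 2 * (R.gR Qb F : ℝ) - 2) * hQ α - C ≤
          Fermat.Agent.S17.H.F.offDiag (plD ev φ) Fib := by
  have hn0' : 0 < n0 := by omega
  have hneg : v₀.ord x < 0 := by
    rw [hord]
    have : (0 : ℤ) < (n0 : ℤ) := by exact_mod_cast hn0'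
    omega
  obtain ⟨ν, w, hw, hrep, hle, hg⟩ := R.exists_apery_basis htr v₀ hx hn0' hord
  obtain ⟨m₁, hm₁⟩ := SigNe.sigVec_ne_zero (F := F) htr v₀
  refine ⟨m₁, fun μ hμ r φ hφ => ?_⟩
  have hm : m₁ ≤ n0 * μ := le_trans hμ (Nat.le_mul_of_pos_left μ hn0')
  have hφL : ∀ a, φ a ∈ riemannRochSpace (((n0 * μ : ℕ) : ℤ) • Finsupp.single v₀ (1 : ℤ)) :=
    fun a => by
      rw [← hφ]
      exact Submodule.subset_span ⟨a, rfl⟩
  have h1 : (1 : F) ∈ Submodule.span Qb (Set.range φ) := by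
    rw [hφ]
    refine R.Apery.mem_L_of_mem_regOff (Subalgebra.one_mem _) _ (Or.inr ?_)
    rw [Place.ord_one]
    have := Int.natCast_nonneg (n0 * μ)
    omega
  have hxμ : x ^ μ ∈ Submodule.span Qb (Set.range φ) := by
    rw [hφ]
    refine R.Apery.mem_L_of_mem_regOff (Subalgebra.pow_mem _ hx μ) _ (Or.inr ?_)
    rw [ChartInf.ord_pow, hord]
    push_cast
    nlinarith
  obtain ⟨c, Γ, hc, hloc⟩ :=
    Local.fibre_local htr v₀ hx hn0 hord ν w hw hrep hle hg μ φ hφL h1 hxμ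
  refine ⟨Real.log c + (Γ.map hQ).sum, fun α Fib hFib hsimple => ?_⟩
  have hcard : Fib.card = n0 := card_fibre htr v₀ hx hn0' hord α Fib hFib hsimple
  have hreg : ∀ a, RegOff v₀ (φ a) := fun a => R.Apery.mem_regOff_of_mem_L (hφL a)
  exact ExitCore.fibre_lower_of_local hn0' (R.gR Qb F) φ w hc Γ (hloc ev hev)
    (fun β P hP hβ =>
      Val.det_fibre_ne_zero htr v₀ hx hn0' hord (fun i => (hw i).1) hrep hev β P hP hβ)
    (fun β P hP => SigNe.valVec_ne_zero hev φ hreg h1 (R.PoleDegree.ne_of_mem_fibre hneg hP))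
    (fun β P Q hP hQ hPQ => hm₁ (n0 * μ) hm φ hφ hev P Q
      (R.PoleDegree.ne_of_mem_fibre hneg hP) (R.PoleDegree.ne_of_mem_fibre hneg hQ) hPQ)
    α Fib hcard (fun u hu => (hFib u).mp hu)

end Fermat.Agent.S17.H.Fib2.Exit
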