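/-
MW strand H, block D4, two-chart twin: the seam of the D4 exit to the exit of strand H.

The statements of `Fib2/Exit.lean` in the shape of the package `GoodX.exists_x_phi` (a
coordinate `x ∈ L(n0 v₀)` of exact pole order `n0 ≥ 2`, and families `φ` spanning
`L((k * n0) v₀)`):

* `exists_hfib`       : for `k` large, the fibre inequality = the binder `hfib` of
                        `F.fibreBound_plH` at `t := x`;
* `exists_fibreBound` : for `k` large, `F.FibreBound x (plH ev φ (k * n0)) (plD ev φ)`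
                        (leaf F3 for the heights of record).
-/
import Mathlib
import Fermat.Agent.S17.H.Fib2.Exit
import Fermat.Agent.S17.H.F.Fibres

set_option autoImplicit false

namespace Fermat.Agent.S17.H.Fib2.ExitX

open AlgebraicCurve
open Fermat.Agent.S17.H.Glob

local notation "Qb" => AlgebraicClosure ℚ

variable {F : Type*} [Field F] [Algebra Qb F] [Algebra.EssFiniteType Qb F]

open Classical in
/-- **The D4 exit in the shape of the exit package**: the binder `hfib` of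
`F.fibreBound_plH`, for families spanning `L((k * n0) v₀)`, `k` large. -/
theorem exists_hfib (htr : Algebra.trdeg Qb F = 1) (v₀ : Place Qb F) {x : F} {n0 : ℕ}
    (hn0 : 2 ≤ n0) (hxL : x ∈ riemannRochSpace ((n0 : ℤ) • Finsupp.single v₀ (1 : ℤ)))
    (hord : v₀.ord x = -(n0 : ℤ)) {ev : Place Qb F → F → Qb} (hev : IsEval ev) :
    ∃ k₁ : ℕ, ∀ k : ℕ, k₁ ≤ k → ∀ {r : ℕ} (φ : Fin r → F),
      Submodule.span Qb (Set.range φ) =
        riemannRochSpace (((k * n0 : ℕ) : ℤ) • Finsupp.single v₀ (1 : ℤ)) →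
      ∃ C : ℝ, ∀ (α : Qb) (Fib : Finset (Place Qb F)),
        (∀ u : Place Qb F, u ∈ Fib ↔ 0 < u.ord (x - algebraMap Qb F α)) →
        (∀ u ∈ Fib, u.ord (x - algebraMap Qb F α) = 1) →
        (2 * (n0 : ℝ) + 2 * (R.gR Qb F : ℝ) - 2) * hQ α - C ≤
          Fermat.Agent.S17.H.F.offDiag (plD ev φ) Fib := by
  obtain ⟨μ₀, h⟩ :=
    Exit.exists_fibre_lower_twin htr v₀ (R.Apery.mem_regOff_of_mem_L hxL) hn0 hord hev
  refine ⟨μ₀, fun k hk r φ hφ => h k hk φ ?_⟩
  rw [hφ, Nat.mul_comm]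

open Classical in
/-- **Leaf F3 for the heights of record**, from the two-chart twin of D4. -/
theorem exists_fibreBound (htr : Algebra.trdeg Qb F = 1) (v₀ : Place Qb F) {x : F} {n0 : ℕ}
    (hn0 : 2 ≤ n0) (hxL : x ∈ riemannRochSpace ((n0 : ℤ) • Finsupp.single v₀ (1 : ℤ)))
    (hord : v₀.ord x = -(n0 : ℤ)) {ev : Place Qb F → F → Qb} (hev : IsEval ev) :
    ∃ k₁ : ℕ, ∀ k : ℕ, k₁ ≤ k → 0 < k → ∀ {r : ℕ} (φ : Fin r → F),
      Submodule.span Qb (Set.range φ) =
        riemannRochSpace (((k * n0 : ℕ) : ℤ) • Finsupp.single v₀ (1 : ℤ)) →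
      (∃ i, φ i = 1) → (∃ i, v₀.ord (φ i) = -((k * n0 : ℕ) : ℤ)) →
      Fermat.Agent.S17.H.F.FibreBound x (plH ev φ (k * n0)) (plD ev φ) := by
  have hn0' : 0 < n0 := by omega
  have hx : x ∈ R.regOff v₀ := R.Apery.mem_regOff_of_mem_L hxL
  have hreg : ∀ v : Place Qb F, v ≠ v₀ → 0 ≤ v.ord x := fun v hv =>
    Fermat.Agent.S24.FF.ord_nonneg_of_mem v (hx v hv)
  obtain ⟨k₁, h⟩ := exists_hfib htr v₀ hn0 hxL hord hev
  refine ⟨k₁, fun k hk hk0 r φ hφ hφ1 hφtop => ?_⟩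
  have hφL : ∀ i, φ i ∈ riemannRochSpace (((k * n0 : ℕ) : ℤ) • Finsupp.single v₀ (1 : ℤ)) :=
    fun i => by
      rw [← hφ]
      exact Submodule.subset_span ⟨i, rfl⟩
  exact Fermat.Agent.S17.H.F.fibreBound_plH htr v₀ hev hreg hn0' hord (Nat.mul_pos hk0 hn0') φ
    hφL hφ1 hφtop (h k hk φ hφ)

end Fermat.Agent.S17.H.Fib2.ExitX
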