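/-
PROGRAM MW (S17), strand H, block D4 (FIB), racing twin "two charts": the local claim on the unit
disc of a chart, and the chart-0 half of (LOC) (helper145).

* `exists_value_bound` : the values of finitely many functions of the chart ring `regWhere K x`
  at the places over the unit disc `v (x(P)) ≤ 1` are bounded by ONE constant of product type
  (coordinates in the basis `w`, `Chart0.exists_size_bound`, values of polynomials on the disc);
* `exists_lower_bound` : if `∑ a, g a * φ a = 1` with `g a`, `φ a` in the chart ring (the `φ a`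
  generate the unit ideal), then `1 ≤ locConst c Γ v * ⨆ a, v (φ_a(P))` over the unit disc;
* `chart_local` : the chart claim (`ChartClaim.chart_claim`) with the sizes of the points on the
  right-hand side:
  `∏_{l ≠ l'} sup_{ab} v (sig_ab(P_l, P_l')) ≤ locConst c Γ v * v (det W) ^ 2 * ∏_{l ≠ l'} |φ P_l|_v |φ P_l'|_v`
  for `v α ≤ 1`, on any chart of rank `n ≥ 2` whose `φ a` generate the unit ideal;
* `local_zero` : **the chart-0 half of (LOC)** - `x` regular off `v₀` with a pole of order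
  `n0 ≥ 2` at `v₀`, `w` a `K[x]`-basis of `regOff v₀`, `1` in the `K`-span of the `φ a`, fibre in
  helper29's form (`0 < (P l).ord (x - α)`), absolute values with `v α ≤ 1`.
-/
import Mathlib
import Fermat.Agent.S17.H.Fib2.ChartClaim

set_option autoImplicit false
set_option linter.unusedSectionVars false
set_option linter.unusedVariables false

namespace Fermat.Agent.S17.H.Fib2.LocalZero

open AlgebraicCurve Matrix
open Fermat.Agent.S17.H.Cert

variable {K F : Type*} [Field K] [Field F] [Algebra K F]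

/-- **Values on the unit disc of a chart.**  Finitely many functions regular wherever `x` is
regular have values bounded by one constant of product type at all the places over the unit
disc `v (x(P)) ≤ 1`. -/
theorem exists_value_bound {x : F} {n : ℕ} {w : Fin n → F} (h : IsChart K x w) {s : ℕ}
    (g : Fin s → F) (hg : ∀ a, g a ∈ regWhere K x) :
    ∃ (c : ℝ) (Γ : Multiset K), 1 ≤ c ∧
      ∀ (ev : Place K F → F → K), Glob.IsEval ev → ∀ (v : AbsoluteValue K ℝ) (P : Place K F),
        x ∈ P.toValuationSubring → v (ev P x) ≤ 1 →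
          ∀ a, v (ev P (g a)) ≤ locConst c Γ v := by
  classical
  have hc' : ∀ a, ∃ c : Fin n → Polynomial K, g a = ∑ i, Polynomial.aeval x (c i) * w i :=
    fun a => (h.rep _ (hg a)).exists
  choose cg hcg using hc'
  let q : Fin s × Fin n → Polynomial K := fun ai => cg ai.1 ai.2
  have hq1 : 1 ≤ Chart0.famPolyCount q := Chart0.one_le_famPolyCount q
  obtain ⟨c2, Γ2, hc2, hsize⟩ := Chart0.exists_size_bound h
  have hn0 : (0 : ℝ) ≤ (n : ℝ) := Nat.cast_nonneg n
  refine ⟨((n : ℝ) + 1) * (Chart0.famPolyCount q * c2), 0 + (Chart0.famPolyMS q + Γ2), ?_, ?_⟩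
  · have h1 : 1 ≤ Chart0.famPolyCount q * c2 := one_le_mul_of_one_le_of_one_le hq1 hc2
    have h2 : (1 : ℝ) ≤ (n : ℝ) + 1 := by linarith
    exact one_le_mul_of_one_le_of_one_le h2 h1
  intro ev hev v P hxP hvα a
  have hA : 1 ≤ locConst (Chart0.famPolyCount q) (Chart0.famPolyMS q) v :=
    one_le_locConst hq1 _ v
  have hB : 1 ≤ locConst c2 Γ2 v := one_le_locConst hc2 _ v
  rw [Chart0.ev_of_repr hev h.mem hxP (cg a) (hcg a)]
  have hterm : ∀ i, v ((cg a i).eval (ev P x) * ev P (w i)) ≤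
      locConst (Chart0.famPolyCount q) (Chart0.famPolyMS q) v * locConst c2 Γ2 v := by
    intro i
    rw [map_mul]
    exact mul_le_mul (Chart0.abv_eval_le_fam v q (a, i) hvα) (hsize ev hev v P hxP hvα i)
      (v.nonneg _) (le_trans zero_le_one hA)
  have hsup : (⨆ i, v ((cg a i).eval (ev P x) * ev P (w i))) ≤
      locConst (Chart0.famPolyCount q) (Chart0.famPolyMS q) v * locConst c2 Γ2 v :=
    Real.iSup_le hterm (mul_nonneg (le_trans zero_le_one hA) (le_trans zero_le_one hB))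
  have hsum := abv_sum_le v (fun i => (cg a i).eval (ev P x) * ev P (w i))
  rw [Fintype.card_fin] at hsum
  have hmono : locConst (n : ℝ) (0 : Multiset K) v ≤ locConst ((n : ℝ) + 1) (0 : Multiset K) v :=
    locConst_mono hn0 (by linarith) le_rfl v
  have hpos : 0 ≤ locConst (Chart0.famPolyCount q) (Chart0.famPolyMS q) v * locConst c2 Γ2 v :=
    mul_nonneg (le_trans zero_le_one hA) (le_trans zero_le_one hB)
  calc v (∑ i, (cg a i).eval (ev P x) * ev P (w i))
      ≤ locConst (n : ℝ) (0 : Multiset K) v * ⨆ i, v ((cg a i).eval (ev P x) * ev P (w i)) := hsum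
    _ ≤ locConst ((n : ℝ) + 1) (0 : Multiset K) v *
          (locConst (Chart0.famPolyCount q) (Chart0.famPolyMS q) v * locConst c2 Γ2 v) :=
        mul_le_mul hmono hsup (Real.iSup_nonneg fun i => v.nonneg _)
          (locConst_nonneg (by linarith) _ v)
    _ = locConst (((n : ℝ) + 1) * (Chart0.famPolyCount q * c2))
          (0 + (Chart0.famPolyMS q + Γ2)) v := by
        rw [locConst_mul, locConst_mul]

/-- **Lower bound for the size of a point on the unit disc of a chart.**  If the `φ a` generate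
the unit ideal of the chart ring (`∑ a, g a * φ a = 1`), then `sup_a v (φ_a(P))` is bounded below
by the inverse of a constant of product type. -/
theorem exists_lower_bound {x : F} {n : ℕ} {w : Fin n → F} (h : IsChart K x w) {r : ℕ}
    (φ g : Fin r → F) (hφ : ∀ a, φ a ∈ regWhere K x) (hg : ∀ a, g a ∈ regWhere K x)
    (h1 : ∑ a, g a * φ a = 1) :
    ∃ (c : ℝ) (Γ : Multiset K), 1 ≤ c ∧
      ∀ (ev : Place K F → F → K), Glob.IsEval ev → ∀ (v : AbsoluteValue K ℝ) (P : Place K F),
        x ∈ P.toValuationSubring → v (ev P x) ≤ 1 →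
          1 ≤ locConst c Γ v * ⨆ a, v (ev P (φ a)) := by
  classical
  obtain ⟨c1, Γ1, hc1, hval⟩ := exists_value_bound h g hg
  have hr0 : (0 : ℝ) ≤ (r : ℝ) := Nat.cast_nonneg r
  refine ⟨((r : ℝ) + 1) * c1, 0 + Γ1, ?_, ?_⟩
  · have h2 : (1 : ℝ) ≤ (r : ℝ) + 1 := by linarith
    exact one_le_mul_of_one_le_of_one_le h2 hc1
  intro ev hev v P hxP hvα
  have hA : 1 ≤ locConst c1 Γ1 v := one_le_locConst hc1 _ v
  have hS : 0 ≤ ⨆ a, v (ev P (φ a)) := Real.iSup_nonneg fun a => v.nonneg _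
  have hone : (1 : K) = ∑ a, ev P (g a) * ev P (φ a) := by
    have h2 : ev P (∑ a, g a * φ a) = ∑ a, ev P (g a * φ a) :=
      hev.map_sum _ _ fun a _ => P.toValuationSubring.mul_mem _ _ (hg a P hxP) (hφ a P hxP)
    rw [h1, hev.map_one] at h2
    rw [h2]
    exact Finset.sum_congr rfl fun a _ => hev.map_mul (hg a P hxP) (hφ a P hxP)
  have hterm : ∀ a, v (ev P (g a) * ev P (φ a)) ≤ locConst c1 Γ1 v * ⨆ a, v (ev P (φ a)) := by
    intro a
    rw [map_mul]
    exact mul_le_mul (hval ev hev v P hxP hvα a)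
      (Finite.le_ciSup (fun a => v (ev P (φ a))) a) (v.nonneg _) (le_trans zero_le_one hA)
  have hsup : (⨆ a, v (ev P (g a) * ev P (φ a))) ≤ locConst c1 Γ1 v * ⨆ a, v (ev P (φ a)) :=
    Real.iSup_le hterm (mul_nonneg (le_trans zero_le_one hA) hS)
  have hsum := abv_sum_le v (fun a => ev P (g a) * ev P (φ a))
  rw [Fintype.card_fin, ← hone, map_one] at hsum
  have hmono : locConst (r : ℝ) (0 : Multiset K) v ≤ locConst ((r : ℝ) + 1) (0 : Multiset K) v :=
    locConst_mono hr0 (by linarith) le_rfl v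
  calc (1 : ℝ) ≤ locConst (r : ℝ) (0 : Multiset K) v * ⨆ a, v (ev P (g a) * ev P (φ a)) := hsum
    _ ≤ locConst ((r : ℝ) + 1) (0 : Multiset K) v *
          (locConst c1 Γ1 v * ⨆ a, v (ev P (φ a))) :=
        mul_le_mul hmono hsup (Real.iSup_nonneg fun a => v.nonneg _)
          (locConst_nonneg (by linarith) _ v)
    _ = locConst (((r : ℝ) + 1) * c1) (0 + Γ1) v * ⨆ a, v (ev P (φ a)) := by
        rw [← mul_assoc, locConst_mul]

variable [IsAlgClosed K] [CharZero K] [Algebra.EssFiniteType K F]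

/-- **The local claim on the unit disc of a chart.**  The chart claim with the sizes of the
points of the fibre on the right-hand side (they are bounded below because the `φ a` generate
the unit ideal of the chart ring). -/
theorem chart_local (htr : Algebra.trdeg K F = 1) {x : F} (hx : Transcendental K x) {n : ℕ}
    (hn : 2 ≤ n) {w : Fin n → F} (hw : IsChart K x w) {r : ℕ} (φ g : Fin r → F)
    (hφ : ∀ a, φ a ∈ regWhere K x) (hg : ∀ a, g a ∈ regWhere K x)
    (h1 : ∑ a, g a * φ a = 1) :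
    ∃ (c : ℝ) (Γ : Multiset K), 1 ≤ c ∧
      ∀ (ev : Place K F → F → K), Glob.IsEval ev → ∀ (v : AbsoluteValue K ℝ) (α : K)
        (P : Fin n → Place K F), (∀ l, x ∈ (P l).toValuationSubring) → (∀ l, ev (P l) x = α) →
        v α ≤ 1 →
        ∏ q ∈ (Finset.univ : Finset (Fin n)).offDiag,
            (⨆ ab : Fin r × Fin r, v (ev (P q.1) (φ ab.1) * ev (P q.2) (φ ab.2) -
              ev (P q.1) (φ ab.2) * ev (P q.2) (φ ab.1)))
          ≤ locConst c Γ v * v (Matrix.of fun l i => ev (P l) (w i)).det ^ 2 *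
            ∏ q ∈ (Finset.univ : Finset (Fin n)).offDiag,
              ((⨆ a, v (ev (P q.1) (φ a))) * ⨆ a, v (ev (P q.2) (φ a))) := by
  classical
  obtain ⟨c1, Γ1, hc1, hclaim⟩ := ChartClaim.chart_claim htr hx hn hw φ hφ
  obtain ⟨c2, Γ2, hc2, hlow⟩ := exists_lower_bound hw φ g hφ hg h1
  obtain ⟨N, hN⟩ : ∃ N : ℕ, N = ((Finset.univ : Finset (Fin n)).offDiag).card := ⟨_, rfl⟩
  refine ⟨c1 * c2 ^ (2 * N), Γ1 + (2 * N) • Γ2,
    one_le_mul_of_one_le_of_one_le hc1 (one_le_pow₀ hc2), ?_⟩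
  intro ev hev v α P hxP hα hvα
  have hA : 1 ≤ locConst c1 Γ1 v := one_le_locConst hc1 _ v
  have hB : 1 ≤ locConst c2 Γ2 v := one_le_locConst hc2 _ v
  have hB0 : 0 ≤ locConst c2 Γ2 v := le_trans zero_le_one hB
  have hS : ∀ l, 0 ≤ ⨆ a, v (ev (P l) (φ a)) := fun l => Real.iSup_nonneg fun a => v.nonneg _
  have hl : ∀ l, 1 ≤ locConst c2 Γ2 v * ⨆ a, v (ev (P l) (φ a)) := fun l =>
    hlow ev hev v (P l) (hxP l) (by rw [hα l]; exact hvα)
  -- the product of the lower bounds
  have hprod : (1 : ℝ) ≤ ∏ q ∈ (Finset.univ : Finset (Fin n)).offDiag,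
      (locConst c2 Γ2 v ^ 2 * ((⨆ a, v (ev (P q.1) (φ a))) * ⨆ a, v (ev (P q.2) (φ a)))) := by
    refine Finset.one_le_prod fun q _ => ?_
    have h2 := one_le_mul_of_one_le_of_one_le (hl q.1) (hl q.2)
    calc (1 : ℝ) ≤ (locConst c2 Γ2 v * ⨆ a, v (ev (P q.1) (φ a))) *
          (locConst c2 Γ2 v * ⨆ a, v (ev (P q.2) (φ a))) := h2
      _ = locConst c2 Γ2 v ^ 2 *
          ((⨆ a, v (ev (P q.1) (φ a))) * ⨆ a, v (ev (P q.2) (φ a))) := by ring
  rw [Finset.prod_mul_distrib, Finset.prod_const, ← hN, ← pow_mul] at hprod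
  have hdet : 0 ≤ locConst c1 Γ1 v * v (Matrix.of fun l i => ev (P l) (w i)).det ^ 2 :=
    mul_nonneg (le_trans zero_le_one hA) (pow_nonneg (v.nonneg _) 2)
  calc ∏ q ∈ (Finset.univ : Finset (Fin n)).offDiag,
        (⨆ ab : Fin r × Fin r, v (ev (P q.1) (φ ab.1) * ev (P q.2) (φ ab.2) -
          ev (P q.1) (φ ab.2) * ev (P q.2) (φ ab.1)))
      ≤ locConst c1 Γ1 v * v (Matrix.of fun l i => ev (P l) (w i)).det ^ 2 :=
        hclaim ev hev v α P hxP hα hvα
    _ = locConst c1 Γ1 v * v (Matrix.of fun l i => ev (P l) (w i)).det ^ 2 * 1 := (mul_one _).symm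
    _ ≤ locConst c1 Γ1 v * v (Matrix.of fun l i => ev (P l) (w i)).det ^ 2 *
          (locConst c2 Γ2 v ^ (2 * N) * ∏ q ∈ (Finset.univ : Finset (Fin n)).offDiag,
            ((⨆ a, v (ev (P q.1) (φ a))) * ⨆ a, v (ev (P q.2) (φ a)))) :=
        mul_le_mul_of_nonneg_left hprod hdet
    _ = locConst (c1 * c2 ^ (2 * N)) (Γ1 + (2 * N) • Γ2) v *
          v (Matrix.of fun l i => ev (P l) (w i)).det ^ 2 *
            ∏ q ∈ (Finset.univ : Finset (Fin n)).offDiag,
              ((⨆ a, v (ev (P q.1) (φ a))) * ⨆ a, v (ev (P q.2) (φ a))) := by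
        rw [← locConst_mul, ← locConst_pow]
        ring

/-- **The chart-0 half of (LOC).**  `x` regular off `v₀` with a pole of order `n0 ≥ 2` at `v₀`,
`w` a `K[x]`-basis of `regOff v₀` (R14), `φ a` regular off `v₀` with `1` in their `K`-span: at the
absolute values with `v α ≤ 1`, for every fibre `P` over `x = α`,
`∏_{l ≠ l'} sup_{ab} v (sig_ab(P_l, P_l')) ≤ locConst c Γ v * v (det W) ^ 2 * ∏_{l ≠ l'} |φ P_l|_v |φ P_l'|_v`. -/
theorem local_zero (htr : Algebra.trdeg K F = 1) (v₀ : Place K F) {x : F}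
    (hx : x ∈ R.regOff v₀) {n0 : ℕ} (hn0 : 2 ≤ n0) (hord : v₀.ord x = -(n0 : ℤ))
    {w : Fin n0 → F} (hw : ∀ i, w i ∈ R.regOff v₀)
    (hbasis : ∀ f ∈ R.regOff v₀, ∃! c : Fin n0 → Polynomial K,
      f = ∑ i, Polynomial.aeval x (c i) * w i)
    {r : ℕ} (φ : Fin r → F) (hφ : ∀ a, φ a ∈ R.regOff v₀)
    (h1 : (1 : F) ∈ Submodule.span K (Set.range φ)) :
    ∃ (c : ℝ) (Γ : Multiset K), 1 ≤ c ∧
      ∀ (ev : Place K F → F → K), Glob.IsEval ev → ∀ (v : AbsoluteValue K ℝ) (α : K)
        (P : Fin n0 → Place K F), (∀ l, 0 < (P l).ord (x - algebraMap K F α)) → v α ≤ 1 →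
        ∏ q ∈ (Finset.univ : Finset (Fin n0)).offDiag,
            (⨆ ab : Fin r × Fin r, v (ev (P q.1) (φ ab.1) * ev (P q.2) (φ ab.2) -
              ev (P q.1) (φ ab.2) * ev (P q.2) (φ ab.1)))
          ≤ locConst c Γ v * v (Matrix.of fun l i => ev (P l) (w i)).det ^ 2 *
            ∏ q ∈ (Finset.univ : Finset (Fin n0)).offDiag,
              ((⨆ a, v (ev (P q.1) (φ a))) * ⨆ a, v (ev (P q.2) (φ a))) := by
  have hordneg : v₀.ord x < 0 := by
    rw [hord]
    have : (0 : ℤ) < (n0 : ℤ) := by exact_mod_cast (by omega : 0 < n0)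
    omega
  have hxt : Transcendental K x := by
    apply Fermat.Agent.S24.FF.transcendental_of_not_mem_range
    rintro ⟨c, rfl⟩
    rw [Fermat.Agent.S24.FF.ord_algebraMap] at hordneg
    exact lt_irrefl _ hordneg
  have hch : IsChart K x w := isChart_zero v₀ hx hordneg hw hbasis
  have he := regWhere_eq_regOff v₀ hx hordneg
  have hφ' : ∀ a, φ a ∈ regWhere K x := fun a => by rw [he]; exact hφ a
  obtain ⟨k, hk⟩ := (Submodule.mem_span_range_iff_exists_fun K).mp h1
  have hg : ∀ a, algebraMap K F (k a) ∈ regWhere K x :=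
    fun a => Subalgebra.algebraMap_mem _ _
  have hsum : ∑ a, algebraMap K F (k a) * φ a = 1 := by
    rw [← hk]
    exact Finset.sum_congr rfl fun a _ => (Algebra.smul_def _ _).symm
  obtain ⟨c, Γ, hc, hloc⟩ := chart_local htr hxt hn0 hch φ (fun a => algebraMap K F (k a)) hφ' hg hsum
  refine ⟨c, Γ, hc, fun ev hev v α P hα hvα => ?_⟩
  exact hloc ev hev v α P (fun l => (Chart0.mem_and_ev_eq_of_ord_pos hev (hα l)).1)
    (fun l => (Chart0.mem_and_ev_eq_of_ord_pos hev (hα l)).2) hvα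

end Fermat.Agent.S17.H.Fib2.LocalZero
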